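import Mathlib
import Fermat.Prelude.Def_FLTPrelim_Ramification

set_option autoImplicit false

namespace Fermat.Agent.S05

open ValuationSubring
open scoped Pointwise

section General

variable {K L : Type*} [Field K] [Field L] [Algebra K L]

theorem mem_inertiaSubgroupIn_iff (A : ValuationSubring L) (σ : L ≃ₐ[K] L) :
    σ ∈ A.inertiaSubgroupIn K ↔
      ∃ h : σ ∈ A.decompositionSubgroup K,
        (⟨σ, h⟩ : A.decompositionSubgroup K) ∈ A.inertiaSubgroup K := by
  unfold ValuationSubring.inertiaSubgroupIn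
  constructor
  · rintro ⟨τ, hτ, rfl⟩
    exact ⟨τ.2, hτ⟩
  · rintro ⟨h, hσ⟩
    exact ⟨⟨σ, h⟩, hσ, rfl⟩

theorem apply_mem_of_mem_decompositionSubgroup {A : ValuationSubring L} {σ : L ≃ₐ[K] L}
    (hσ : σ ∈ A.decompositionSubgroup K) {x : L} (hx : x ∈ A) : σ x ∈ A := by
  have h : σ • A = A := hσ
  have : σ • x ∈ σ • A := ValuationSubring.smul_mem_pointwise_smul σ x A hx
  rw [h] at this
  exact this

theorem mem_of_apply_mem_of_mem_decompositionSubgroup {A : ValuationSubring L} {σ : L ≃ₐ[K] L}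
    (hσ : σ ∈ A.decompositionSubgroup K) {x : L} (hx : σ x ∈ A) : x ∈ A := by
  have hσ' : σ⁻¹ ∈ A.decompositionSubgroup K := inv_mem hσ
  have := apply_mem_of_mem_decompositionSubgroup hσ' hx
  simpa using this

theorem mem_decompositionSubgroup_of_mem_inertiaSubgroupIn {A : ValuationSubring L}
    {σ : L ≃ₐ[K] L} (hσ : σ ∈ A.inertiaSubgroupIn K) : σ ∈ A.decompositionSubgroup K :=
  ((mem_inertiaSubgroupIn_iff A σ).1 hσ).1

theorem apply_sub_mem_nonunits_of_mem_inertiaSubgroupIn {A : ValuationSubring L}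
    {σ : L ≃ₐ[K] L} (hσ : σ ∈ A.inertiaSubgroupIn K) {x : L} (hx : x ∈ A) :
    σ x - x ∈ A.nonunits := by
  obtain ⟨h, hin⟩ := (mem_inertiaSubgroupIn_iff A σ).1 hσ
  have hx' : σ x ∈ A := apply_mem_of_mem_decompositionSubgroup h hx
  have hker : MulSemiringAction.toRingAut (A.decompositionSubgroup K)
      (IsLocalRing.ResidueField A) ⟨σ, h⟩ = 1 := hin
  have h1 : (⟨σ, h⟩ : A.decompositionSubgroup K) • (IsLocalRing.residue A ⟨x, hx⟩) =
      IsLocalRing.residue A ⟨x, hx⟩ := by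
    have := congrArg (fun f : RingAut (IsLocalRing.ResidueField A) =>
      f (IsLocalRing.residue A ⟨x, hx⟩)) hker
    simpa using this
  rw [← IsLocalRing.ResidueField.residue_smul] at h1
  have h2 : ((⟨σ, h⟩ : A.decompositionSubgroup K) • (⟨x, hx⟩ : A)) = ⟨σ x, hx'⟩ := rfl
  rw [h2] at h1
  have h3 : IsLocalRing.residue A (⟨σ x, hx'⟩ - ⟨x, hx⟩) = 0 := by
    rw [map_sub, h1, sub_self]
  have h4 : (⟨σ x, hx'⟩ - ⟨x, hx⟩ : A) ∈ IsLocalRing.maximalIdeal A :=
    (IsLocalRing.residue_eq_zero_iff _).1 h3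
  have h5 : ((⟨σ x, hx'⟩ - ⟨x, hx⟩ : A) : L) ∈ A.nonunits := by
    rw [ValuationSubring.mem_nonunits_iff_exists_mem_maximalIdeal]
    exact ⟨(⟨σ x, hx'⟩ - ⟨x, hx⟩ : A).2, h4⟩
  simpa using h5

theorem apply_mem_iff_of_mem_inertiaSubgroupIn {A : ValuationSubring L}
    {σ : L ≃ₐ[K] L} (hσ : σ ∈ A.inertiaSubgroupIn K) (x : L) : σ x ∈ A ↔ x ∈ A :=
  ⟨mem_of_apply_mem_of_mem_decompositionSubgroup
      (mem_decompositionSubgroup_of_mem_inertiaSubgroupIn hσ),
    apply_mem_of_mem_decompositionSubgroup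
      (mem_decompositionSubgroup_of_mem_inertiaSubgroupIn hσ)⟩

theorem mem_nonunits_iff_inv_notMem {A : ValuationSubring L} {x : L} (hx : x ≠ 0) :
    x ∈ A.nonunits ↔ x⁻¹ ∉ A := by
  rw [ValuationSubring.mem_nonunits_iff_or]
  simp [hx]

theorem apply_mem_nonunits_iff_of_mem_inertiaSubgroupIn {A : ValuationSubring L}
    {σ : L ≃ₐ[K] L} (hσ : σ ∈ A.inertiaSubgroupIn K) (x : L) :
    σ x ∈ A.nonunits ↔ x ∈ A.nonunits := by
  by_cases hx : x = 0
  · subst hx; simp
  · have hσx : σ x ≠ 0 := by simpa using hx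
    rw [mem_nonunits_iff_inv_notMem hx, mem_nonunits_iff_inv_notMem hσx, ← map_inv₀,
      apply_mem_iff_of_mem_inertiaSubgroupIn hσ]

theorem mul_mem_nonunits_of_mem {A : ValuationSubring L} {x y : L} (hx : x ∈ A.nonunits)
    (hy : y ∈ A) : x * y ∈ A.nonunits := by
  rw [ValuationSubring.mem_nonunits_iff] at hx ⊢
  rw [map_mul]
  exact mul_lt_one_of_nonneg_of_lt_one_left zero_le hx
    ((ValuationSubring.valuation_le_one_iff A _).2 hy)

theorem apply_div_self_sub_one_mem_nonunits {A : ValuationSubring L}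
    {σ : L ≃ₐ[K] L} (hσ : σ ∈ A.inertiaSubgroupIn K) {x c : L} (hc : σ c = c)
    (hxc : x / c ∈ A) (hcx : c / x ∈ A) (hx : x ≠ 0) (hc0 : c ≠ 0) :
    σ x / x - 1 ∈ A.nonunits := by
  have hu := apply_sub_mem_nonunits_of_mem_inertiaSubgroupIn hσ hxc
  have hσx : σ x / x - 1 = (σ (x / c) - x / c) * (c / x) := by
    rw [map_div₀, hc]
    field_simp
  rw [hσx]
  exact mul_mem_nonunits_of_mem hu hcx

theorem inertia_package {A : ValuationSubring L}
    {σ : L ≃ₐ[K] L} (hσ : σ ∈ A.inertiaSubgroupIn K) :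
    (∀ x, x ∈ A → σ x ∈ A) ∧ (∀ x, σ x ∈ A → x ∈ A) ∧ (∀ x ∈ A, σ x - x ∈ A.nonunits) :=
  ⟨fun x => (apply_mem_iff_of_mem_inertiaSubgroupIn hσ x).2,
    fun x => (apply_mem_iff_of_mem_inertiaSubgroupIn hσ x).1,
    fun _ hx => apply_sub_mem_nonunits_of_mem_inertiaSubgroupIn hσ hx⟩

end General

section Rat

variable {L : Type*} [Field L]

theorem intCast_mem_valuationSubring (A : ValuationSubring L) (n : ℤ) : (n : L) ∈ A :=
  intCast_mem A n

theorem intCast_mem_nonunits_iff {A : ValuationSubring L} {q : ℕ} (hq : q.Prime)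
    (hA : A.LiesOverPrime q) (n : ℤ) : (n : L) ∈ A.nonunits ↔ (q : ℤ) ∣ n := by
  have hqA : (q : L) ∈ A.nonunits := hA
  constructor
  · intro hn
    by_contra hdvd
    have hcop : IsCoprime (q : ℤ) n :=
      (Nat.prime_iff_prime_int.1 hq).irreducible.coprime_iff_not_dvd.2 hdvd
    obtain ⟨u, v, huv⟩ := hcop
    have h1 : ((u * q + v * n : ℤ) : L) = 1 := by rw [huv]; simp
    have h2 : ((u : L) * (q : L) + (v : L) * (n : L)) ∈ A.nonunits := by
      rw [ValuationSubring.mem_nonunits_iff] at hqA hn ⊢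
      have hu : A.valuation (u : L) ≤ 1 :=
        (ValuationSubring.valuation_le_one_iff A _).2 (intCast_mem A u)
      have hv : A.valuation (v : L) ≤ 1 :=
        (ValuationSubring.valuation_le_one_iff A _).2 (intCast_mem A v)
      refine lt_of_le_of_lt (Valuation.map_add _ _ _) (max_lt ?_ ?_)
      · rw [map_mul]; exact mul_lt_one_of_nonneg_of_lt_one_right hu zero_le hqA
      · rw [map_mul]; exact mul_lt_one_of_nonneg_of_lt_one_right hv zero_le hn
    have h3 : (1 : L) ∈ A.nonunits := by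
      have : ((u * q + v * n : ℤ) : L) = (u : L) * (q : L) + (v : L) * (n : L) := by
        push_cast; ring
      rw [← h1, this]; exact h2
    rw [ValuationSubring.mem_nonunits_iff, map_one] at h3
    exact lt_irrefl _ h3
  · rintro ⟨k, rfl⟩
    rw [ValuationSubring.mem_nonunits_iff] at hqA ⊢
    have hk : A.valuation (k : L) ≤ 1 :=
      (ValuationSubring.valuation_le_one_iff A _).2 (intCast_mem A k)
    push_cast
    rw [map_mul]
    exact mul_lt_one_of_nonneg_of_lt_one_left zero_le hqA hk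

theorem intCast_package {A : ValuationSubring L} {q : ℕ} (hq : q.Prime)
    (hA : A.LiesOverPrime q) (n : ℤ) :
    (n : L) ∈ A ∧ ((n : L) ∈ A.nonunits ↔ (q : ℤ) ∣ n) :=
  ⟨intCast_mem A n, intCast_mem_nonunits_iff hq hA n⟩

theorem natCast_mem_nonunits_iff {A : ValuationSubring L} {q : ℕ} (hq : q.Prime)
    (hA : A.LiesOverPrime q) (n : ℕ) : (n : L) ∈ A.nonunits ↔ q ∣ n := by
  have := intCast_mem_nonunits_iff hq hA (n : ℤ)
  rw [Int.natCast_dvd_natCast] at this
  simpa using this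

theorem natCast_inv_mem_of_not_dvd {A : ValuationSubring L} {q : ℕ} (hq : q.Prime)
    (hA : A.LiesOverPrime q) {n : ℕ} (hn : ¬ q ∣ n) : ((n : L))⁻¹ ∈ A := by
  by_contra h
  have hn0 : (n : L) ≠ 0 := by
    intro h0
    apply h
    rw [h0, inv_zero]
    exact A.zero_mem
  exact hn ((natCast_mem_nonunits_iff hq hA n).1
    ((mem_nonunits_iff_inv_notMem hn0).2 h))

end Rat

end Fermat.Agent.S05
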