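import Mathlib.Algebra.Order.Field.Rat
import Mathlib.Algebra.Field.Basic
import Mathlib.Algebra.Order.Ring.Rat
import Mathlib.Tactic.Linarith
import Mathlib.Tactic.Ring
import Mathlib.Tactic.FieldSimp

set_option autoImplicit false

namespace Fermat.Agent.S05

/-- An additive `ℚ`-valued valuation on a field (value at `0` is junk and never used). -/
structure QVal (F : Type*) [Field F] where
  v : F → ℚ
  map_one : v 1 = 0
  map_mul : ∀ {x y : F}, x ≠ 0 → y ≠ 0 → v (x * y) = v x + v y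
  map_add : ∀ {x y : F}, x ≠ 0 → y ≠ 0 → x + y ≠ 0 → min (v x) (v y) ≤ v (x + y)

namespace QVal

variable {F : Type*} [Field F] (ν : QVal F)

theorem map_neg_one : ν.v (-1) = 0 := by
  have h : ν.v ((-1) * (-1)) = ν.v (-1) + ν.v (-1) :=
    ν.map_mul (by simp) (by simp)
  rw [neg_mul_neg, one_mul, ν.map_one] at h
  linarith

theorem map_neg {x : F} (hx : x ≠ 0) : ν.v (-x) = ν.v x := by
  have h := ν.map_mul (x := -1) (y := x) (by simp) hx
  rw [neg_one_mul] at h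
  rw [h, ν.map_neg_one, zero_add]

theorem map_inv {x : F} (hx : x ≠ 0) : ν.v x⁻¹ = -ν.v x := by
  have h := ν.map_mul hx (inv_ne_zero hx)
  rw [mul_inv_cancel₀ hx, ν.map_one] at h
  linarith

theorem map_div {x y : F} (hx : x ≠ 0) (hy : y ≠ 0) : ν.v (x / y) = ν.v x - ν.v y := by
  rw [div_eq_mul_inv, ν.map_mul hx (inv_ne_zero hy), ν.map_inv hy]
  ring

theorem map_pow {x : F} (hx : x ≠ 0) (n : ℕ) : ν.v (x ^ n) = n * ν.v x := by
  induction n with
  | zero => simp [ν.map_one]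
  | succ n ih =>
    rw [pow_succ, ν.map_mul (pow_ne_zero n hx) hx, ih]
    push_cast
    ring

theorem map_sq {x : F} (hx : x ≠ 0) : ν.v (x ^ 2) = 2 * ν.v x := by
  have := ν.map_pow hx 2
  simpa using this

theorem map_sub {x y : F} (hx : x ≠ 0) (hy : y ≠ 0) (hxy : x - y ≠ 0) :
    min (ν.v x) (ν.v y) ≤ ν.v (x - y) := by
  have h := ν.map_add (x := x) (y := -y) hx (neg_ne_zero.mpr hy) (by rwa [← sub_eq_add_neg])
  rwa [ν.map_neg hy, ← sub_eq_add_neg] at h

/-- If `v x < v y` then `x + y ≠ 0` and `v (x + y) = v x`. -/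
theorem map_add_of_lt {x y : F} (hx : x ≠ 0) (hy : y ≠ 0) (h : ν.v x < ν.v y) :
    x + y ≠ 0 ∧ ν.v (x + y) = ν.v x := by
  have hne : x + y ≠ 0 := by
    intro h0
    have : x = -y := eq_neg_of_add_eq_zero_left h0
    rw [this, ν.map_neg hy] at h
    exact lt_irrefl _ h
  refine ⟨hne, le_antisymm ?_ ?_⟩
  · -- v x = v ((x+y) - y) ≥ min (v (x+y)) (v y)
    by_contra hlt
    push Not at hlt
    have h1 := ν.map_sub (x := x + y) (y := y) hne hy (by simpa using hx)
    rw [add_sub_cancel_right] at h1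
    have : ν.v x < min (ν.v (x + y)) (ν.v y) := lt_min hlt h
    exact absurd h1 (not_le.mpr this)
  · have h1 := ν.map_add hx hy hne
    rwa [min_eq_left h.le] at h1

/-- `ν.GE c x`: "`v x ≥ c`", including the case `x = 0`. -/
def GE (c : ℚ) (x : F) : Prop := x = 0 ∨ c ≤ ν.v x

/-- `ν.GT c x`: "`v x > c`", including the case `x = 0`. -/
def GT (c : ℚ) (x : F) : Prop := x = 0 ∨ c < ν.v x

variable {ν}

theorem GE.zero (c : ℚ) : ν.GE c (0 : F) := Or.inl rfl

theorem GT.zero (c : ℚ) : ν.GT c (0 : F) := Or.inl rfl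

theorem GE.of_le {c : ℚ} {x : F} (h : c ≤ ν.v x) : ν.GE c x := Or.inr h

theorem GT.of_lt {c : ℚ} {x : F} (h : c < ν.v x) : ν.GT c x := Or.inr h

theorem GE.le {c : ℚ} {x : F} (h : ν.GE c x) (hx : x ≠ 0) : c ≤ ν.v x :=
  h.resolve_left hx

theorem GT.lt {c : ℚ} {x : F} (h : ν.GT c x) (hx : x ≠ 0) : c < ν.v x :=
  h.resolve_left hx

theorem GT.ge {c : ℚ} {x : F} (h : ν.GT c x) : ν.GE c x :=
  h.imp id le_of_lt

theorem GE.mono {c c' : ℚ} {x : F} (h : ν.GE c x) (hc : c' ≤ c) : ν.GE c' x :=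
  h.imp id (le_trans hc)

theorem GT.mono {c c' : ℚ} {x : F} (h : ν.GT c x) (hc : c' ≤ c) : ν.GT c' x :=
  h.imp id (lt_of_le_of_lt hc)

theorem GE.gt_of_lt {c c' : ℚ} {x : F} (h : ν.GE c x) (hc : c' < c) : ν.GT c' x :=
  h.imp id (lt_of_lt_of_le hc)

theorem GE.neg {c : ℚ} {x : F} (h : ν.GE c x) : ν.GE c (-x) := by
  rcases h with rfl | h
  · simp [GE]
  · by_cases hx : x = 0
    · subst hx; simp [GE]
    · exact Or.inr (by rwa [ν.map_neg hx])

theorem GT.neg {c : ℚ} {x : F} (h : ν.GT c x) : ν.GT c (-x) := by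
  rcases h with rfl | h
  · simp [GT]
  · by_cases hx : x = 0
    · subst hx; simp [GT]
    · exact Or.inr (by rwa [ν.map_neg hx])

theorem GE.add {c : ℚ} {x y : F} (hx : ν.GE c x) (hy : ν.GE c y) : ν.GE c (x + y) := by
  by_cases hx0 : x = 0
  · subst hx0; rwa [zero_add]
  by_cases hy0 : y = 0
  · subst hy0; rwa [add_zero]
  by_cases hxy : x + y = 0
  · exact Or.inl hxy
  · exact Or.inr (le_trans (le_min (hx.le hx0) (hy.le hy0)) (ν.map_add hx0 hy0 hxy))

theorem GT.add {c : ℚ} {x y : F} (hx : ν.GT c x) (hy : ν.GT c y) : ν.GT c (x + y) := by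
  by_cases hx0 : x = 0
  · subst hx0; rwa [zero_add]
  by_cases hy0 : y = 0
  · subst hy0; rwa [add_zero]
  by_cases hxy : x + y = 0
  · exact Or.inl hxy
  · exact Or.inr (lt_of_lt_of_le (lt_min (hx.lt hx0) (hy.lt hy0)) (ν.map_add hx0 hy0 hxy))

theorem GE.sub {c : ℚ} {x y : F} (hx : ν.GE c x) (hy : ν.GE c y) : ν.GE c (x - y) := by
  rw [sub_eq_add_neg]; exact hx.add hy.neg

theorem GT.sub {c : ℚ} {x y : F} (hx : ν.GT c x) (hy : ν.GT c y) : ν.GT c (x - y) := by
  rw [sub_eq_add_neg]; exact hx.add hy.neg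

theorem GE.mul {c c' : ℚ} {x y : F} (hx : ν.GE c x) (hy : ν.GE c' y) : ν.GE (c + c') (x * y) := by
  by_cases hx0 : x = 0
  · subst hx0; rw [zero_mul]; exact GE.zero _
  by_cases hy0 : y = 0
  · subst hy0; rw [mul_zero]; exact GE.zero _
  · refine Or.inr ?_
    rw [ν.map_mul hx0 hy0]
    exact add_le_add (hx.le hx0) (hy.le hy0)

theorem GT.mul_ge {c c' : ℚ} {x y : F} (hx : ν.GT c x) (hy : ν.GE c' y) :
    ν.GT (c + c') (x * y) := by
  by_cases hx0 : x = 0
  · subst hx0; rw [zero_mul]; exact GT.zero _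
  by_cases hy0 : y = 0
  · subst hy0; rw [mul_zero]; exact GT.zero _
  · refine Or.inr ?_
    rw [ν.map_mul hx0 hy0]
    exact add_lt_add_of_lt_of_le (hx.lt hx0) (hy.le hy0)

theorem GE.mul_gt {c c' : ℚ} {x y : F} (hx : ν.GE c x) (hy : ν.GT c' y) :
    ν.GT (c + c') (x * y) := by
  rw [mul_comm, add_comm]; exact hy.mul_ge hx

theorem GE.pow {c : ℚ} {x : F} (hx : ν.GE c x) (n : ℕ) : ν.GE (n * c) (x ^ n) := by
  induction n with
  | zero => exact Or.inr (by simp [ν.map_one])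
  | succ n ih =>
    rw [pow_succ]
    have := ih.mul hx
    refine this.mono ?_
    push_cast; linarith

theorem GE.one : ν.GE 0 (1 : F) := Or.inr (by rw [ν.map_one])

/-- exact valuation of a sum with a dominated second term -/
theorem map_add_of_GT {c : ℚ} {x y : F} (hx : x ≠ 0) (hxc : ν.v x ≤ c) (hy : ν.GT c y) :
    x + y ≠ 0 ∧ ν.v (x + y) = ν.v x := by
  by_cases hy0 : y = 0
  · subst hy0; simpa using hx
  · exact ν.map_add_of_lt hx hy0 (lt_of_le_of_lt hxc (hy.lt hy0))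

theorem map_add_of_GT' {c : ℚ} {x y : F} (hy : y ≠ 0) (hyc : ν.v y ≤ c) (hx : ν.GT c x) :
    x + y ≠ 0 ∧ ν.v (x + y) = ν.v y := by
  rw [add_comm]; exact map_add_of_GT hy hyc hx

theorem map_sub_of_GT {c : ℚ} {x y : F} (hx : x ≠ 0) (hxc : ν.v x ≤ c) (hy : ν.GT c y) :
    x - y ≠ 0 ∧ ν.v (x - y) = ν.v x := by
  rw [sub_eq_add_neg]; exact map_add_of_GT hx hxc hy.neg

/-- if `v x < v y` then `v (x - y) = v x` -/
theorem map_sub_of_lt {x y : F} (hx : x ≠ 0) (hy : y ≠ 0) (h : ν.v x < ν.v y) :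
    x - y ≠ 0 ∧ ν.v (x - y) = ν.v x := by
  rw [sub_eq_add_neg]
  exact ν.map_add_of_lt hx (neg_ne_zero.mpr hy) (by rwa [ν.map_neg hy])

/-- if `x + y = z` with `v x ≠ v y` then `v z = min`; useful contrapositive: if a sum of two
nonzero terms has valuation strictly larger than one of them, the two valuations agree. -/
theorem v_eq_of_add_GT {x y : F} (hx : x ≠ 0) (hy : y ≠ 0) (h : ν.GT (ν.v x) (x + y)) :
    ν.v y = ν.v x := by
  rcases lt_trichotomy (ν.v x) (ν.v y) with hlt | heq | hgt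
  · obtain ⟨hne, hv⟩ := ν.map_add_of_lt hx hy hlt
    have := h.lt hne
    rw [hv] at this
    exact absurd this (lt_irrefl _)
  · exact heq.symm
  · obtain ⟨hne, hv⟩ := ν.map_add_of_lt hy hx hgt
    rw [add_comm] at hne hv
    have := h.lt hne
    rw [hv] at this
    exact absurd (lt_trans this hgt) (lt_irrefl _)

end QVal

end Fermat.Agent.S05
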