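import Mathlib
import Fermat.Agent.S05.QVal
import Fermat.Agent.S05.Inertia

/-!
# Rank one: a `ℚ`-valued valuation from a valuation subring of an algebraic extension of `ℚ`

* `exists_ne_map_eq_of_sum_eq_zero` : in a vanishing finite sum with a nonzero term, two distinct
  nonzero terms have the same valuation.
* generic construction `qv` : if every nonzero element is commensurable with `π < 1`
  (`v x ^ n = π ^ k`), then `x ↦ k / n` is a `QVal`, order-compatible with `v`.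
* `exists_pow_eq` : for `K` algebraic over `ℚ` and `A` over the prime `q`, every nonzero `x`
  is commensurable with `A.valuation q`.
-/

set_option autoImplicit false

namespace Fermat.Agent.S05.RankOne

open Fermat.Agent.S05

section Sum

variable {K : Type*} [Field K] {Γ₀ : Type*} [LinearOrderedCommGroupWithZero Γ₀]
  (v : Valuation K Γ₀)

/-- In a vanishing finite sum with at least one nonzero term, two distinct nonzero terms have
the same valuation. -/
theorem exists_ne_map_eq_of_sum_eq_zero {ι : Type*} [DecidableEq ι] (s : Finset ι) (f : ι → K)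
    (hs : ∃ i ∈ s, f i ≠ 0) (h : ∑ i ∈ s, f i = 0) :
    ∃ i ∈ s, ∃ j ∈ s, i ≠ j ∧ f i ≠ 0 ∧ f j ≠ 0 ∧ v (f i) = v (f j) := by
  obtain ⟨i₀, hi₀, hfi₀⟩ := hs
  obtain ⟨j, hj, hmax⟩ := Finset.exists_max_image s (fun i => v (f i)) ⟨i₀, hi₀⟩
  have hvj : v (f j) ≠ 0 := by
    intro h0
    have := hmax i₀ hi₀
    rw [h0] at this
    exact hfi₀ ((Valuation.zero_iff v).1 (le_antisymm this zero_le))
  have hfj : f j ≠ 0 := fun h0 => hvj (by rw [h0, Valuation.map_zero])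
  by_contra hcon
  push Not at hcon
  have hlt : ∀ i ∈ s \ {j}, v (f i) < v (f j) := by
    intro i hi
    rw [Finset.mem_sdiff, Finset.mem_singleton] at hi
    refine lt_of_le_of_ne (hmax i hi.1) ?_
    intro heq
    have hfi : f i ≠ 0 := by
      intro h0
      rw [h0, Valuation.map_zero] at heq
      exact hvj heq.symm
    exact hcon i hi.1 j hj hi.2 hfi hfj heq
  have := Valuation.map_sum_eq_of_lt v hj hlt
  rw [h, Valuation.map_zero] at this
  exact hvj this.symm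

end Sum

section Generic

variable {K : Type*} [Field K] {Γ₀ : Type*} [LinearOrderedCommGroupWithZero Γ₀]
  (v : Valuation K Γ₀) (π : Γ₀)

/-- `x` is commensurable with `π`. -/
def IsComm (x : K) : Prop := ∃ n : ℕ, 0 < n ∧ ∃ k : ℤ, v x ^ n = π ^ k

variable {v π}

theorem zpow_inj_of_lt_one (hπ0 : π ≠ 0) (hπ1 : π < 1) {k l : ℤ} (h : π ^ k = π ^ l) : k = l :=
  (zpow_right_strictAnti₀ (zero_lt_iff.2 hπ0) hπ1).injective h

theorem isComm_one : IsComm v π (1 : K) := ⟨1, one_pos, 0, by simp⟩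

theorem pow_mul_eq (hπ0 : π ≠ 0) {x y : K} {n m : ℕ} {k l : ℤ} (hk : v x ^ n = π ^ k)
    (hl : v y ^ m = π ^ l) : v (x * y) ^ (n * m) = π ^ (k * m + l * n) := by
  rw [Valuation.map_mul, mul_pow, pow_mul, hk, pow_mul', hl, zpow_add₀ hπ0, zpow_mul, zpow_mul,
    zpow_natCast, zpow_natCast]

theorem IsComm.mul (hπ0 : π ≠ 0) {x y : K} (hx : IsComm v π x) (hy : IsComm v π y) :
    IsComm v π (x * y) := by
  obtain ⟨n, hn, k, hk⟩ := hx
  obtain ⟨m, hm, l, hl⟩ := hy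
  exact ⟨n * m, Nat.mul_pos hn hm, k * m + l * n, pow_mul_eq hπ0 hk hl⟩

/-- Uniqueness of the slope `k / n`. -/
theorem slope_unique (hπ0 : π ≠ 0) (hπ1 : π < 1) {x : K} {n m : ℕ} (hn : 0 < n) (hm : 0 < m)
    {k l : ℤ} (hk : v x ^ n = π ^ k) (hl : v x ^ m = π ^ l) : (k : ℚ) / n = (l : ℚ) / m := by
  have h1 : π ^ (k * m) = π ^ (l * n) := by
    rw [zpow_mul, zpow_mul, zpow_natCast, zpow_natCast, ← hk, ← hl, ← pow_mul, ← pow_mul, mul_comm]
  have h2 : k * m = l * n := zpow_inj_of_lt_one hπ0 hπ1 h1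
  have hn' : (n : ℚ) ≠ 0 := by exact_mod_cast hn.ne'
  have hm' : (m : ℚ) ≠ 0 := by exact_mod_cast hm.ne'
  rw [div_eq_div_iff hn' hm']
  exact_mod_cast h2

variable (v π)

/-- The `ℚ`-valued additive valuation attached to a commensurable valuation. -/
noncomputable def qv (hc : ∀ x : K, x ≠ 0 → IsComm v π x) (x : K) : ℚ :=
  open Classical in
  if h : x = 0 then 0 else ((hc x h).choose_spec.2.choose : ℚ) / ((hc x h).choose : ℚ)

variable {v π}

theorem qv_eq (hπ0 : π ≠ 0) (hπ1 : π < 1) (hc : ∀ x : K, x ≠ 0 → IsComm v π x) {x : K}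
    (hx : x ≠ 0) {n : ℕ} (hn : 0 < n) {k : ℤ} (hk : v x ^ n = π ^ k) :
    qv v π hc x = (k : ℚ) / n := by
  unfold qv
  rw [dif_neg hx]
  exact slope_unique hπ0 hπ1 (hc x hx).choose_spec.1 hn (hc x hx).choose_spec.2.choose_spec hk

theorem qv_one (hπ0 : π ≠ 0) (hπ1 : π < 1) (hc : ∀ x : K, x ≠ 0 → IsComm v π x) :
    qv v π hc 1 = 0 := by
  rw [qv_eq hπ0 hπ1 hc one_ne_zero one_pos (k := 0) (by simp)]
  simp

theorem qv_mul (hπ0 : π ≠ 0) (hπ1 : π < 1) (hc : ∀ x : K, x ≠ 0 → IsComm v π x) {x y : K}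
    (hx : x ≠ 0) (hy : y ≠ 0) : qv v π hc (x * y) = qv v π hc x + qv v π hc y := by
  obtain ⟨n, hn, k, hk⟩ := hc x hx
  obtain ⟨m, hm, l, hl⟩ := hc y hy
  rw [qv_eq hπ0 hπ1 hc hx hn hk, qv_eq hπ0 hπ1 hc hy hm hl,
    qv_eq hπ0 hπ1 hc (mul_ne_zero hx hy) (Nat.mul_pos hn hm) (pow_mul_eq hπ0 hk hl)]
  have hn' : (n : ℚ) ≠ 0 := by exact_mod_cast hn.ne'
  have hm' : (m : ℚ) ≠ 0 := by exact_mod_cast hm.ne'
  push_cast
  field_simp

/-- Order compatibility: `v x ≤ 1 ↔ 0 ≤ qv x`. -/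
theorem qv_nonneg_iff (hπ0 : π ≠ 0) (hπ1 : π < 1) (hc : ∀ x : K, x ≠ 0 → IsComm v π x) {x : K}
    (hx : x ≠ 0) : 0 ≤ qv v π hc x ↔ v x ≤ 1 := by
  obtain ⟨n, hn, k, hk⟩ := hc x hx
  rw [qv_eq hπ0 hπ1 hc hx hn hk]
  have hn' : (0 : ℚ) < n := by exact_mod_cast hn
  rw [le_div_iff₀ hn', zero_mul, Int.cast_nonneg_iff,
    ← zpow_le_one_iff_right_of_lt_one₀ (zero_lt_iff.2 hπ0) hπ1, ← hk, pow_le_one_iff hn.ne']

theorem qv_pos_iff (hπ0 : π ≠ 0) (hπ1 : π < 1) (hc : ∀ x : K, x ≠ 0 → IsComm v π x) {x : K}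
    (hx : x ≠ 0) : 0 < qv v π hc x ↔ v x < 1 := by
  obtain ⟨n, hn, k, hk⟩ := hc x hx
  rw [qv_eq hπ0 hπ1 hc hx hn hk]
  have hn' : (0 : ℚ) < n := by exact_mod_cast hn
  rw [lt_div_iff₀ hn', zero_mul, Int.cast_pos,
    ← zpow_lt_one_iff_right_of_lt_one₀ (zero_lt_iff.2 hπ0) hπ1, ← hk, pow_lt_one_iff hn.ne']

theorem qv_div (hπ0 : π ≠ 0) (hπ1 : π < 1) (hc : ∀ x : K, x ≠ 0 → IsComm v π x) {x y : K}
    (hx : x ≠ 0) (hy : y ≠ 0) : qv v π hc (y / x) = qv v π hc y - qv v π hc x := by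
  have h := qv_mul hπ0 hπ1 hc hx (div_ne_zero hy hx)
  rw [mul_div_cancel₀ _ hx] at h
  linarith

/-- Order compatibility: `qv x ≤ qv y ↔ v y ≤ v x`. -/
theorem qv_le_iff (hπ0 : π ≠ 0) (hπ1 : π < 1) (hc : ∀ x : K, x ≠ 0 → IsComm v π x) {x y : K}
    (hx : x ≠ 0) (hy : y ≠ 0) : qv v π hc x ≤ qv v π hc y ↔ v y ≤ v x := by
  have h1 := qv_nonneg_iff hπ0 hπ1 hc (div_ne_zero hy hx)
  rw [qv_div hπ0 hπ1 hc hx hy, sub_nonneg] at h1
  rw [h1, map_div₀, div_le_one₀ (zero_lt_iff.2 ((Valuation.ne_zero_iff v).2 hx))]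

theorem qv_lt_iff (hπ0 : π ≠ 0) (hπ1 : π < 1) (hc : ∀ x : K, x ≠ 0 → IsComm v π x) {x y : K}
    (hx : x ≠ 0) (hy : y ≠ 0) : qv v π hc x < qv v π hc y ↔ v y < v x := by
  rw [← not_le, ← not_le, qv_le_iff hπ0 hπ1 hc hy hx]

theorem qv_add (hπ0 : π ≠ 0) (hπ1 : π < 1) (hc : ∀ x : K, x ≠ 0 → IsComm v π x) {x y : K}
    (hx : x ≠ 0) (hy : y ≠ 0) (hxy : x + y ≠ 0) :
    min (qv v π hc x) (qv v π hc y) ≤ qv v π hc (x + y) := by
  rw [min_le_iff, qv_le_iff hπ0 hπ1 hc hx hxy, qv_le_iff hπ0 hπ1 hc hy hxy]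
  have := Valuation.map_add v x y
  rcases le_max_iff.1 this with h | h
  · exact Or.inl h
  · exact Or.inr h

variable (v π) in
/-- The `QVal` attached to a commensurable valuation. -/
noncomputable def qvalOfComm (hπ0 : π ≠ 0) (hπ1 : π < 1) (hc : ∀ x : K, x ≠ 0 → IsComm v π x) :
    QVal K where
  v := qv v π hc
  map_one := qv_one hπ0 hπ1 hc
  map_mul := fun hx hy => qv_mul hπ0 hπ1 hc hx hy
  map_add := fun hx hy hxy => qv_add hπ0 hπ1 hc hx hy hxy

end Generic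

section Algebraic

variable {K : Type*} [Field K] [Algebra ℚ K] (A : ValuationSubring K) {q : ℕ}

theorem natCast_ne_zero_of_prime (hq : q.Prime) : (q : K) ≠ 0 := by
  have : CharZero K := algebraRat.charZero K
  exact_mod_cast hq.ne_zero

theorem val_q_ne_zero (hq : q.Prime) : A.valuation (q : K) ≠ 0 :=
  (Valuation.ne_zero_iff _).2 (natCast_ne_zero_of_prime hq)

omit [Algebra ℚ K] in
theorem val_q_lt_one (hA : A.LiesOverPrime q) : A.valuation (q : K) < 1 :=
  (ValuationSubring.mem_nonunits_iff A).1 hA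

omit [Algebra ℚ K] in
/-- The valuation of a nonzero integer is a power of the valuation of `q`. -/
theorem val_intCast (hq : q.Prime) (hA : A.LiesOverPrime q) {c : ℤ} (hc : c ≠ 0) :
    ∃ e : ℕ, A.valuation (c : K) = A.valuation (q : K) ^ e := by
  have hq1 : (q : ℤ).natAbs ≠ 1 := by simpa using hq.ne_one
  obtain ⟨m, hcm, hm⟩ :=
    (Int.finiteMultiplicity_iff.2 ⟨hq1, hc⟩).exists_eq_pow_mul_and_not_dvd
  refine ⟨multiplicity (q : ℤ) c, ?_⟩
  conv_lhs => rw [hcm]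
  have hmA : A.valuation (m : K) ≤ 1 :=
    (ValuationSubring.valuation_le_one_iff A _).2 (intCast_mem_valuationSubring A m)
  have hmn : ¬ A.valuation (m : K) < 1 := by
    rw [← ValuationSubring.mem_nonunits_iff A, intCast_mem_nonunits_iff hq hA]
    exact hm
  have hm1 : A.valuation (m : K) = 1 := le_antisymm hmA (not_lt.1 hmn)
  push_cast
  rw [Valuation.map_mul, Valuation.map_pow, hm1, mul_one]

/-- Key step: from `π ^ e₁ * t ^ i = π ^ e₂ * t ^ j` with `i < j`, get `t ^ (j - i) = π ^ (e₁ - e₂)`. -/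
theorem pow_sub_eq_of_eq {Γ₀ : Type*} [LinearOrderedCommGroupWithZero Γ₀] {π t : Γ₀} (hπ0 : π ≠ 0)
    (ht : t ≠ 0) {i j : ℕ} (hij : i < j) {e₁ e₂ : ℕ} (h : π ^ e₁ * t ^ i = π ^ e₂ * t ^ j) :
    t ^ (j - i) = π ^ ((e₁ : ℤ) - (e₂ : ℤ)) := by
  have hj : t ^ j = t ^ (j - i) * t ^ i := by rw [← pow_add, Nat.sub_add_cancel hij.le]
  rw [hj, ← mul_assoc] at h
  have h2 : π ^ e₁ = π ^ e₂ * t ^ (j - i) := mul_right_cancel₀ (pow_ne_zero i ht) h
  rw [zpow_sub₀ hπ0, zpow_natCast, zpow_natCast, h2, mul_div_cancel_left₀ _ (pow_ne_zero _ hπ0)]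

/-- Every nonzero element of an algebraic extension of `ℚ` is commensurable with `v q`. -/
theorem isComm_of_isAlgebraic (hq : q.Prime) (hA : A.LiesOverPrime q) {x : K} (hx : x ≠ 0)
    (hxalg : IsAlgebraic ℚ x) : IsComm A.valuation (A.valuation (q : K)) x := by
  have : CharZero K := algebraRat.charZero K
  have hπ0 := val_q_ne_zero A (K := K) hq
  have hxZ : IsAlgebraic ℤ x := (IsFractionRing.isAlgebraic_iff ℤ ℚ K).2 hxalg
  obtain ⟨p, hp0, hpx⟩ := hxZ
  rw [Polynomial.aeval_def, Polynomial.eval₂_eq_sum, Polynomial.sum_def] at hpx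
  have hterm : ∀ i ∈ p.support, (algebraMap ℤ K) (p.coeff i) * x ^ i ≠ 0 := by
    intro i hi
    refine mul_ne_zero ?_ (pow_ne_zero i hx)
    rw [eq_intCast, Int.cast_ne_zero]
    exact Polynomial.mem_support_iff.1 hi
  obtain ⟨i₀, hi₀⟩ := Polynomial.nonempty_support_iff.2 hp0
  obtain ⟨i, hi, j, hj, hij, -, -, hv⟩ :=
    exists_ne_map_eq_of_sum_eq_zero A.valuation p.support
      (fun i => (algebraMap ℤ K) (p.coeff i) * x ^ i) ⟨i₀, hi₀, hterm i₀ hi₀⟩ hpx
  simp only [Valuation.map_mul, Valuation.map_pow, eq_intCast] at hv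
  obtain ⟨e₁, he₁⟩ := val_intCast A hq hA (Polynomial.mem_support_iff.1 hi)
  obtain ⟨e₂, he₂⟩ := val_intCast A hq hA (Polynomial.mem_support_iff.1 hj)
  rw [he₁, he₂] at hv
  have ht : A.valuation x ≠ 0 := (Valuation.ne_zero_iff _).2 hx
  rcases lt_or_gt_of_ne hij with hlt | hlt
  · exact ⟨j - i, Nat.sub_pos_of_lt hlt, _, pow_sub_eq_of_eq hπ0 ht hlt hv⟩
  · exact ⟨i - j, Nat.sub_pos_of_lt hlt, _, pow_sub_eq_of_eq hπ0 ht hlt hv.symm⟩

variable [Algebra.IsAlgebraic ℚ K]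

theorem isComm_all (hq : q.Prime) (hA : A.LiesOverPrime q) (x : K) (hx : x ≠ 0) :
    IsComm A.valuation (A.valuation (q : K)) x :=
  isComm_of_isAlgebraic A hq hA hx (Algebra.IsAlgebraic.isAlgebraic x)

/-- The rank-one core lemma in the shape of the `rank` field of `QVS.RankOneData A (q : K)`. -/
theorem exists_pow_eq (hq : q.Prime) (hA : A.LiesOverPrime q) (x : K) (hx : x ≠ 0) :
    ∃ n : ℕ, 0 < n ∧ ∃ k : ℤ, A.valuation x ^ n = A.valuation (q : K) ^ k :=
  isComm_all A hq hA x hx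

/-- The `ℚ`-valued valuation of an algebraic extension `K` of `ℚ` attached to a valuation
subring `A` over the prime `q`, normalised by `v q = 1`. -/
noncomputable def qvalOfSubring (hq : q.Prime) (hA : A.LiesOverPrime q) : QVal K :=
  qvalOfComm A.valuation (A.valuation (q : K)) (val_q_ne_zero A hq) (val_q_lt_one A hA)
    (isComm_all A hq hA)

variable (hq : q.Prime) (hA : A.LiesOverPrime q)

/-- Characterisation of the value: if `v x ^ n = v q ^ k` then `ν x = k / n`. -/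
theorem qvalOfSubring_eq {x : K} (hx : x ≠ 0) {n : ℕ} (hn : 0 < n) {k : ℤ}
    (hk : A.valuation x ^ n = A.valuation (q : K) ^ k) :
    (qvalOfSubring A hq hA).v x = (k : ℚ) / n :=
  qv_eq (val_q_ne_zero A hq) (val_q_lt_one A hA) (isComm_all A hq hA) hx hn hk

theorem qvalOfSubring_nonneg_iff {x : K} (hx : x ≠ 0) :
    0 ≤ (qvalOfSubring A hq hA).v x ↔ x ∈ A := by
  rw [← ValuationSubring.valuation_le_one_iff]
  exact qv_nonneg_iff (val_q_ne_zero A hq) (val_q_lt_one A hA) (isComm_all A hq hA) hx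

theorem qvalOfSubring_pos_iff {x : K} (hx : x ≠ 0) :
    0 < (qvalOfSubring A hq hA).v x ↔ x ∈ A.nonunits := by
  rw [ValuationSubring.mem_nonunits_iff]
  exact qv_pos_iff (val_q_ne_zero A hq) (val_q_lt_one A hA) (isComm_all A hq hA) hx

theorem qvalOfSubring_le_iff {x y : K} (hx : x ≠ 0) (hy : y ≠ 0) :
    (qvalOfSubring A hq hA).v x ≤ (qvalOfSubring A hq hA).v y ↔
      A.valuation y ≤ A.valuation x :=
  qv_le_iff (val_q_ne_zero A hq) (val_q_lt_one A hA) (isComm_all A hq hA) hx hy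

theorem qvalOfSubring_eq_iff {x y : K} (hx : x ≠ 0) (hy : y ≠ 0) :
    (qvalOfSubring A hq hA).v x = (qvalOfSubring A hq hA).v y ↔
      A.valuation x = A.valuation y := by
  rw [le_antisymm_iff, le_antisymm_iff, qvalOfSubring_le_iff A hq hA hx hy,
    qvalOfSubring_le_iff A hq hA hy hx, and_comm]

/-- Normalisation: `ν q = 1`. -/
theorem qvalOfSubring_q : (qvalOfSubring A hq hA).v (q : K) = 1 := by
  rw [qvalOfSubring_eq A hq hA (natCast_ne_zero_of_prime hq) one_pos (k := 1) (by simp)]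
  simp

/-- `ν` of a unit of `A` is `0`. -/
theorem qvalOfSubring_eq_zero_iff {x : K} (hx : x ≠ 0) :
    (qvalOfSubring A hq hA).v x = 0 ↔ x ∈ A ∧ x⁻¹ ∈ A := by
  have h1 := qvalOfSubring_nonneg_iff A hq hA hx
  have h2 := qvalOfSubring_nonneg_iff A hq hA (inv_ne_zero hx)
  rw [(qvalOfSubring A hq hA).map_inv hx] at h2
  rw [← h1, ← h2]
  constructor
  · intro h; rw [h]; simp
  · rintro ⟨h, h'⟩; linarith

/-- Value of a nonzero integer: the `q`-adic valuation. -/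
theorem qvalOfSubring_intCast {c : ℤ} (hc : c ≠ 0) :
    (qvalOfSubring A hq hA).v (c : K) = padicValInt q c := by
  have : CharZero K := algebraRat.charZero K
  have hq1 : (q : ℤ).natAbs ≠ 1 := by simpa using hq.ne_one
  obtain ⟨m, hcm, hm⟩ :=
    (Int.finiteMultiplicity_iff.2 ⟨hq1, hc⟩).exists_eq_pow_mul_and_not_dvd
  have hmA : A.valuation (m : K) ≤ 1 :=
    (ValuationSubring.valuation_le_one_iff A _).2 (intCast_mem_valuationSubring A m)
  have hmn : ¬ A.valuation (m : K) < 1 := by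
    rw [← ValuationSubring.mem_nonunits_iff A, intCast_mem_nonunits_iff hq hA]
    exact hm
  have hm1 : A.valuation (m : K) = 1 := le_antisymm hmA (not_lt.1 hmn)
  have hval : A.valuation (c : K) ^ 1 = A.valuation (q : K) ^ ((multiplicity (q : ℤ) c : ℕ) : ℤ) := by
    conv_lhs => rw [hcm]
    push_cast
    rw [Valuation.map_mul, Valuation.map_pow, hm1, mul_one, pow_one, zpow_natCast]
  rw [qvalOfSubring_eq A hq hA (Int.cast_ne_zero.2 hc) one_pos hval,
    padicValInt.of_ne_one_ne_zero hq.ne_one hc]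
  simp

theorem qvalOfSubring_natCast {c : ℕ} (hc : c ≠ 0) :
    (qvalOfSubring A hq hA).v (c : K) = padicValNat q c := by
  have := qvalOfSubring_intCast A hq hA (c := (c : ℤ)) (by exact_mod_cast hc)
  rw [padicValInt.of_nat] at this
  exact_mod_cast this

omit [Algebra ℚ K] [Algebra.IsAlgebraic ℚ K] in
/-- Invariance under ring endomorphisms stabilising `A`. -/
theorem val_apply_le_iff (σ : K →+* K) (hσ : ∀ z, σ z ∈ A ↔ z ∈ A) (x y : K) :
    A.valuation (σ x) ≤ A.valuation (σ y) ↔ A.valuation x ≤ A.valuation y := by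
  by_cases hy : y = 0
  · subst hy
    rw [map_zero, Valuation.map_zero, le_zero_iff, le_zero_iff, Valuation.zero_iff,
      Valuation.zero_iff, map_eq_zero]
  · have hσy : σ y ≠ 0 := (map_ne_zero σ).2 hy
    have h1 : A.valuation x ≤ A.valuation y ↔ x / y ∈ A := by
      rw [← ValuationSubring.valuation_le_one_iff, map_div₀,
        div_le_one₀ (zero_lt_iff.2 ((Valuation.ne_zero_iff _).2 hy))]
    have h2 : A.valuation (σ x) ≤ A.valuation (σ y) ↔ σ x / σ y ∈ A := by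
      rw [← ValuationSubring.valuation_le_one_iff, map_div₀,
        div_le_one₀ (zero_lt_iff.2 ((Valuation.ne_zero_iff _).2 hσy))]
    rw [h1, h2, ← map_div₀, hσ]

omit [Algebra ℚ K] [Algebra.IsAlgebraic ℚ K] in
theorem val_apply_eq_iff (σ : K →+* K) (hσ : ∀ z, σ z ∈ A ↔ z ∈ A) (x y : K) :
    A.valuation (σ x) = A.valuation (σ y) ↔ A.valuation x = A.valuation y := by
  rw [le_antisymm_iff, le_antisymm_iff, val_apply_le_iff A σ hσ, val_apply_le_iff A σ hσ]

theorem qvalOfSubring_apply (σ : K →+* K) (hσ : ∀ z, σ z ∈ A ↔ z ∈ A) {x : K} (hx : x ≠ 0) :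
    (qvalOfSubring A hq hA).v (σ x) = (qvalOfSubring A hq hA).v x := by
  obtain ⟨n, hn, k, hk⟩ := isComm_all A hq hA x hx
  rw [qvalOfSubring_eq A hq hA hx hn hk]
  refine qvalOfSubring_eq A hq hA ((map_ne_zero σ).2 hx) hn ?_
  have h1 : A.valuation (x ^ n) = A.valuation ((q : K) ^ k) := by
    rw [Valuation.map_pow, map_zpow₀, hk]
  have h2 := (val_apply_eq_iff A σ hσ (x ^ n) ((q : K) ^ k)).2 h1
  rwa [map_pow, map_zpow₀, map_natCast, Valuation.map_pow, map_zpow₀] at h2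

/-- Invariance under the decomposition group. -/
theorem qvalOfSubring_apply_of_mem_decompositionSubgroup {σ : K ≃ₐ[ℚ] K}
    (hσ : σ ∈ A.decompositionSubgroup ℚ) {x : K} (hx : x ≠ 0) :
    (qvalOfSubring A hq hA).v (σ x) = (qvalOfSubring A hq hA).v x :=
  qvalOfSubring_apply A hq hA (σ : K →+* K)
    (fun _ => ⟨mem_of_apply_mem_of_mem_decompositionSubgroup hσ,
      apply_mem_of_mem_decompositionSubgroup hσ⟩) hx

/-- Invariance under the inertia group. -/
theorem qvalOfSubring_apply_of_mem_inertiaSubgroupIn {σ : K ≃ₐ[ℚ] K}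
    (hσ : σ ∈ A.inertiaSubgroupIn ℚ) {x : K} (hx : x ≠ 0) :
    (qvalOfSubring A hq hA).v (σ x) = (qvalOfSubring A hq hA).v x :=
  qvalOfSubring_apply_of_mem_decompositionSubgroup A hq hA
    (mem_decompositionSubgroup_of_mem_inertiaSubgroupIn hσ) hx

end Algebraic

section Qbar

/-- The `ℚ`-algebra structure on `AlgebraicClosure ℚ` found by instance search in the prelude
(`DivisionRing.toRatAlgebra`) is the canonical one. -/
theorem ratAlgebra_eq_instAlgebra :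
    (DivisionRing.toRatAlgebra : Algebra ℚ (AlgebraicClosure ℚ)) = AlgebraicClosure.instAlgebra ℚ :=
  Subsingleton.elim _ _

instance isAlgebraic_rat_Qbar : Algebra.IsAlgebraic ℚ (AlgebraicClosure ℚ) := by
  rw [ratAlgebra_eq_instAlgebra]
  infer_instance

end Qbar

end Fermat.Agent.S05.RankOne
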