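import Fermat.Agent.S05.QValOfSubring
import Fermat.Agent.S05.Inertia
import Fermat.Agent.S05.RankOne

set_option autoImplicit false
set_option linter.unusedSectionVars false

namespace Fermat.Agent.S05.QVS

open Fermat.Agent.S05

variable {L : Type*} [Field L] [CharZero L] {A : ValuationSubring L} {q : ℕ}

namespace RankOneData

theorem liesOver (h : RankOneData A (q : L)) : A.LiesOverPrime q := h.c_mem

theorem val_intCast_of_not_dvd (h : RankOneData A (q : L)) (hq : q.Prime) {m : ℤ}
    (hm : ¬ (q : ℤ) ∣ m) : h.qval.v (m : L) = 0 := by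
  have hm0 : (m : L) ≠ 0 := by
    intro h0
    have : m = 0 := by exact_mod_cast h0
    exact hm (this ▸ dvd_zero _)
  rw [h.val_eq_zero_iff hm0]
  exact ⟨intCast_mem A m, fun hmem => hm ((intCast_mem_nonunits_iff hq h.liesOver m).1 hmem)⟩

theorem val_pow (h : RankOneData A (q : L)) {x : L} (hx : x ≠ 0) (n : ℕ) :
    h.qval.v (x ^ n) = n * h.qval.v x := h.qval.map_pow hx n

/-- the valuation of a nonzero integer is its `q`-adic valuation. -/
theorem val_intCast (h : RankOneData A (q : L)) (hq : q.Prime) {m : ℤ} (hm : m ≠ 0) :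
    h.qval.v (m : L) = (padicValInt q m : ℚ) := by
  have : Fact q.Prime := ⟨hq⟩
  obtain ⟨m', hm'⟩ := padicValInt_dvd (p := q) m
  have hm'0 : m' ≠ 0 := by rintro rfl; exact hm (by rw [hm', mul_zero])
  have hndvd : ¬ (q : ℤ) ∣ m' := by
    rintro ⟨m'', rfl⟩
    have hdvd : (q : ℤ) ^ (padicValInt q m + 1) ∣ m := by
      refine ⟨m'', ?_⟩
      rw [pow_succ, mul_assoc]; exact hm'
    rcases (padicValInt_dvd_iff (p := q) _ m).1 hdvd with h0 | hle
    · exact hm h0
    · omega
  have hq0 : (q : L) ≠ 0 := h.c_ne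
  have hcast : (m : L) = (q : L) ^ padicValInt q m * (m' : L) := by
    conv_lhs => rw [hm']
    push_cast; ring
  have hm'L : (m' : L) ≠ 0 := by exact_mod_cast hm'0
  rw [hcast, h.qval.map_mul (pow_ne_zero _ hq0) hm'L, h.val_pow hq0, h.qval_c,
    h.val_intCast_of_not_dvd hq hndvd]
  ring

theorem val_natCast (h : RankOneData A (q : L)) (hq : q.Prime) {m : ℕ} (hm : m ≠ 0) :
    h.qval.v (m : L) = (padicValNat q m : ℚ) := by
  have := h.val_intCast hq (m := (m : ℤ)) (by exact_mod_cast hm)
  rw [padicValInt.of_nat] at this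
  exact_mod_cast this

/-- valuation of `π ^ p` for an integer `π`. -/
theorem val_intCast_pow (h : RankOneData A (q : L)) (hq : q.Prime) {m : ℤ} (hm : m ≠ 0)
    (p : ℕ) : h.qval.v ((m : L) ^ p) = (p : ℚ) * (padicValInt q m : ℚ) := by
  have hmL : (m : L) ≠ 0 := by exact_mod_cast hm
  rw [h.val_pow hmL, h.val_intCast hq hm]

theorem padicValInt_pos_of_dvd (hq : q.Prime) {m : ℤ} (hm : m ≠ 0) (hdvd : (q : ℤ) ∣ m) :
    0 < padicValInt q m := by
  have : Fact q.Prime := ⟨hq⟩
  have h1 : (q : ℤ) ^ 1 ∣ m := by simpa using hdvd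
  rcases (padicValInt_dvd_iff (p := q) 1 m).1 h1 with h0 | hle
  · exact absurd h0 hm
  · exact hle

/-- invariance of the valuation under the decomposition group (hence the inertia group). -/
theorem val_apply_of_mem_decomposition {K : Type*} [Field K] [Algebra K L]
    (h : RankOneData A (q : L)) {σ : L ≃ₐ[K] L} (hσ : σ ∈ A.decompositionSubgroup K) (x : L) :
    h.qval.v (σ x) = h.qval.v x := by
  have := h.val_apply (σ := (σ : L →+* L))
    (fun x => ⟨mem_of_apply_mem_of_mem_decompositionSubgroup hσ,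
      apply_mem_of_mem_decompositionSubgroup hσ⟩) (by simp) x
  simpa using this

theorem val_apply_of_mem_inertia {K : Type*} [Field K] [Algebra K L]
    (h : RankOneData A (q : L)) {σ : L ≃ₐ[K] L} (hσ : σ ∈ A.inertiaSubgroupIn K) (x : L) :
    h.qval.v (σ x) = h.qval.v x :=
  h.val_apply_of_mem_decomposition (mem_decompositionSubgroup_of_mem_inertiaSubgroupIn hσ) x

end RankOneData

section Glue

variable {K : Type*} [Field K] [Algebra ℚ K] [Algebra.IsAlgebraic ℚ K]

/-- **A valuation subring of an algebraic extension of `ℚ` lying over the prime `q` has rational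
rank one relative to `q`.** -/
theorem rankOneData_of_liesOver (A : ValuationSubring K) {q : ℕ} (hq : q.Prime)
    (hA : A.LiesOverPrime q) : RankOneData A (q : K) :=
  ⟨RankOne.natCast_ne_zero_of_prime hq, hA, RankOne.exists_pow_eq A hq hA⟩

/-- the two constructions of the `ℚ`-valued valuation agree. -/
theorem qval_eq_qvalOfSubring (A : ValuationSubring K) {q : ℕ} (hq : q.Prime)
    (hA : A.LiesOverPrime q) {x : K} (hx : x ≠ 0) :
    (rankOneData_of_liesOver A hq hA).qval.v x = (RankOne.qvalOfSubring A hq hA).v x := by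
  obtain ⟨n, hn, k, hk⟩ := RankOne.exists_pow_eq A hq hA x hx
  rw [RankOneData.qval_v, (rankOneData_of_liesOver A hq hA).val_eq hx hn hk,
    RankOne.qvalOfSubring_eq A hq hA hx hn hk]

end Glue

end Fermat.Agent.S05.QVS
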