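import Fermat.Agent.S05.XOnly
import Fermat.Agent.S05.QVal

set_option autoImplicit false
set_option linter.unusedSectionVars false
set_option linter.unusedVariables false

namespace Fermat.Agent.S05

open WeierstrassCurve WeierstrassCurve.Affine

namespace QVal

variable {F : Type*} [Field F] (ν : QVal F)

/-- valuation of a product of two nonzero elements, with nonvanishing of the product -/
theorem v_mul_eq {x y : F} (hx : x ≠ 0) (hy : y ≠ 0) : x * y ≠ 0 ∧ ν.v (x * y) = ν.v x + ν.v y :=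
  ⟨mul_ne_zero hx hy, ν.map_mul hx hy⟩

/-- Newton polygon of a quadratic, equal slopes: if `v(xp·xm) = 2c` and `v(xp+xm) ≥ c` then
`v xp = v xm = c`. -/
theorem quad_eq {xp xm : F} {c : ℚ} (hp : xp ≠ 0) (hm : xm ≠ 0)
    (hprod : ν.v (xp * xm) = 2 * c) (hsum : ν.GE c (xp + xm)) :
    ν.v xp = c ∧ ν.v xm = c := by
  rw [ν.map_mul hp hm] at hprod
  have key : ∀ {u w : F}, u ≠ 0 → w ≠ 0 → ν.v u + ν.v w = 2 * c → ν.GE c (u + w) → c ≤ ν.v u := by
    intro u w hu hw huw hs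
    by_contra hlt
    push Not at hlt
    have hw' : ν.v u < ν.v w := by linarith
    obtain ⟨hne, hv⟩ := ν.map_add_of_lt hu hw hw'
    have := hs.le hne
    linarith
  have h1 := key hp hm hprod hsum
  have h2 := key hm hp (by linarith) (by rwa [add_comm])
  constructor <;> linarith

/-- Newton polygon of a quadratic, distinct slopes: if `v(xp+xm) = s`, `v(xp·xm) = t` and
`2s < t`, then `{v xp, v xm} = {s, t - s}`. -/
theorem quad_ne {xp xm : F} {s t : ℚ} (hp : xp ≠ 0) (hm : xm ≠ 0)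
    (hsum0 : xp + xm ≠ 0) (hsum : ν.v (xp + xm) = s) (hprod : ν.v (xp * xm) = t)
    (hst : 2 * s < t) :
    (ν.v xp = s ∧ ν.v xm = t - s) ∨ (ν.v xp = t - s ∧ ν.v xm = s) := by
  rw [ν.map_mul hp hm] at hprod
  rcases lt_trichotomy (ν.v xp) (ν.v xm) with h | h | h
  · obtain ⟨_, hv⟩ := ν.map_add_of_lt hp hm h
    left
    constructor <;> linarith
  · exfalso
    have := ν.map_add hp hm hsum0
    rw [h, min_self] at this
    linarith
  · obtain ⟨_, hv⟩ := ν.map_add_of_lt hm hp h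
    rw [add_comm] at hv
    right
    constructor <;> linarith

/-- If `v(xp·xm) ≤ 0` and `v(xp+xm) ≥ v(xp·xm)` then both roots have valuation `≤ 0`. -/
theorem quad_nonpos {xp xm : F} (hp : xp ≠ 0) (hm : xm ≠ 0)
    (hprod : ν.v (xp * xm) ≤ 0) (hsum : ν.GE (ν.v (xp * xm)) (xp + xm)) :
    ν.v xp ≤ 0 ∧ ν.v xm ≤ 0 := by
  rw [ν.map_mul hp hm] at hprod hsum
  have key : ∀ {u w : F}, u ≠ 0 → w ≠ 0 → ν.v u + ν.v w ≤ 0 →
      ν.GE (ν.v u + ν.v w) (u + w) → ν.v u ≤ 0 := by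
    intro u w hu hw huw hs
    by_contra hlt
    push Not at hlt
    have hw' : ν.v w < ν.v u := by linarith
    obtain ⟨hne, hv⟩ := ν.map_add_of_lt hw hu hw'
    rw [add_comm] at hne hv
    have := hs.le hne
    linarith
  exact ⟨key hp hm hprod hsum, key hm hp (by linarith) (by rwa [add_comm (ν.v xm), add_comm xm])⟩

end QVal

section Node

variable {F : Type*} [Field F] [DecidableEq F]

/-- Hypotheses for the node model `y² = x³ + a x² + b x` (`a = W.a₂` a unit, `b = W.a₄` of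
positive valuation, `2` a unit). -/
structure NodeData (ν : QVal F) (W : Affine F) : Prop where
  a₁ : W.a₁ = 0
  a₃ : W.a₃ = 0
  a₆ : W.a₆ = 0
  two_ne : (2 : F) ≠ 0
  v_two : ν.v 2 = 0
  a_ne : W.a₂ ≠ 0
  v_a : ν.v W.a₂ = 0
  b_ne : W.a₄ ≠ 0
  v_b : 0 < ν.v W.a₄

namespace NodeData

variable {ν : QVal F} {W : Affine F} (D : NodeData ν W)
include D

theorem b₂_eq : W.b₂ = 4 * W.a₂ := by simp [WeierstrassCurve.b₂, D.a₁]
theorem b₄_eq : W.b₄ = 2 * W.a₄ := by simp [WeierstrassCurve.b₄, D.a₁, D.a₃]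
theorem b₆_eq : W.b₆ = 0 := by simp [WeierstrassCurve.b₆, D.a₃, D.a₆]
theorem b₈_eq : W.b₈ = -W.a₄ ^ 2 := by simp [WeierstrassCurve.b₈, D.a₁, D.a₃, D.a₆]

theorem equation_iff {x y : F} : W.Equation x y ↔ y ^ 2 = x ^ 3 + W.a₂ * x ^ 2 + W.a₄ * x := by
  rw [Affine.equation_iff, D.a₁, D.a₃, D.a₆]
  constructor <;> intro h <;> linear_combination h

theorem negY_eq (x y : F) : W.negY x y = -y := by
  simp [Affine.negY, D.a₁, D.a₃]

/-- specialised `x`-only addition/subtraction formulas on the node model -/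
theorem exists_add_sub {x₁ y₁ x₂ y₂ : F} (h₁ : W.Nonsingular x₁ y₁) (h₂ : W.Nonsingular x₂ y₂)
    (hx : x₁ ≠ x₂) :
    ∃ (xp yp xm ym : F) (hp : W.Nonsingular xp yp) (hm : W.Nonsingular xm ym),
      Point.some x₁ y₁ h₁ + Point.some x₂ y₂ h₂ = Point.some xp yp hp ∧
      Point.some x₁ y₁ h₁ - Point.some x₂ y₂ h₂ = Point.some xm ym hm ∧
      (xp + xm) * (x₁ - x₂) ^ 2 =
        2 * ((x₁ * x₂ + W.a₄) * (x₁ + x₂) + 2 * W.a₂ * (x₁ * x₂)) ∧
      xp * xm * (x₁ - x₂) ^ 2 = (x₁ * x₂ - W.a₄) ^ 2 := by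
  obtain ⟨xp, yp, xm, ym, hp, hm, e1, e2, e3, e4⟩ := Fermat.Agent.S05.exists_add_sub h₁ h₂ hx
  refine ⟨xp, yp, xm, ym, hp, hm, e1, e2, ?_, ?_⟩
  · rw [e3, D.b₂_eq, D.b₄_eq, D.b₆_eq]; ring
  · rw [e4, D.b₄_eq, D.b₆_eq, D.b₈_eq]; ring

end NodeData

end Node

/-! ### Field-level valuation casework -/

section Casework

variable {F : Type*} [Field F] (ν : QVal F) {a b : F}

/-- the clipped valuation of an `x`-coordinate (`x = 0` is the `2`-torsion point at the node) -/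
noncomputable def cv [DecidableEq F] (n : ℚ) (x : F) : ℚ :=
  if x = 0 then n else max 0 (min (ν.v x) n)

theorem cv_zero [DecidableEq F] (n : ℚ) : cv ν n (0 : F) = n := by simp [cv]

theorem cv_of_ne [DecidableEq F] (n : ℚ) {x : F} (hx : x ≠ 0) :
    cv ν n x = max 0 (min (ν.v x) n) := by simp [cv, hx]

theorem cv_of_nonpos [DecidableEq F] {n : ℚ} (hn : 0 ≤ n) {x : F} (hx : x ≠ 0)
    (h : ν.v x ≤ 0) : cv ν n x = 0 := by
  rw [cv_of_ne ν n hx]
  simp only [max_def, min_def]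
  split_ifs <;> linarith

theorem cv_of_mem [DecidableEq F] {n : ℚ} {x : F} (hx : x ≠ 0)
    (h0 : 0 ≤ ν.v x) (h1 : ν.v x ≤ n) : cv ν n x = ν.v x := by
  rw [cv_of_ne ν n hx]
  simp only [max_def, min_def]
  split_ifs <;> linarith

theorem cv_of_ge [DecidableEq F] {n : ℚ} (hn : 0 ≤ n) {x : F}
    (h : ν.GE n x) : cv ν n x = n := by
  by_cases hx : x = 0
  · subst hx; exact cv_zero ν n
  · have := h.le hx
    rw [cv_of_ne ν n hx]
    simp only [max_def, min_def]
    split_ifs <;> linarith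

theorem cv_nonneg [DecidableEq F] {n : ℚ} (hn : 0 ≤ n) (x : F) : 0 ≤ cv ν n x := by
  unfold cv
  split_ifs
  · exact hn
  · exact le_max_left _ _

theorem cv_le [DecidableEq F] {n : ℚ} (hn : 0 ≤ n) (x : F) : cv ν n x ≤ n := by
  unfold cv
  split_ifs
  · exact le_refl _
  · exact max_le hn (min_le_right _ _)


theorem QVal.v_eq_of_mul_eq {z w t : F} (hw : w ≠ 0) (ht : t ≠ 0) (h : z * w = t) :
    z ≠ 0 ∧ ν.v z = ν.v t - ν.v w := by
  have hz : z ≠ 0 := by
    rintro rfl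
    rw [zero_mul] at h
    exact ht h.symm
  refine ⟨hz, ?_⟩
  rw [← h, ν.map_mul hz hw]; ring

theorem QVal.GE_of_mul_eq {z w t : F} {c : ℚ} (hw : w ≠ 0) (ht : ν.GE c t) (h : z * w = t) :
    ν.GE (c - ν.v w) z := by
  by_cases hz : z = 0
  · exact Or.inl hz
  · refine Or.inr ?_
    have ht0 : t ≠ 0 := by rw [← h]; exact mul_ne_zero hz hw
    have := ht.le ht0
    rw [← h, ν.map_mul hz hw] at this
    linarith

/-- **Pair law, small affine case** (field level). -/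
theorem small_affine [DecidableEq F] (ha : a ≠ 0) (hva : ν.v a = 0) (hb : b ≠ 0)
    (h2 : (2 : F) ≠ 0) (hv2 : ν.v 2 = 0)
    {x₁ x₂ xp xm : F} (h₁ : x₁ ≠ 0) (h₂ : x₂ ≠ 0) (hne : x₁ ≠ x₂)
    (hrs : ν.v x₁ ≤ ν.v x₂) (hs : ν.v x₂ ≤ ν.v b / 2) (hn : 0 < ν.v b)
    (hsum : (xp + xm) * (x₁ - x₂) ^ 2 =
      2 * ((x₁ * x₂ + b) * (x₁ + x₂) + 2 * a * (x₁ * x₂)))
    (hprod : xp * xm * (x₁ - x₂) ^ 2 = (x₁ * x₂ - b) ^ 2) :
    (cv ν (ν.v b) xp = max 0 (ν.v x₁) + max 0 (ν.v x₂) ∧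
      cv ν (ν.v b) xm = max 0 (ν.v x₂) - max 0 (ν.v x₁)) ∨
    (cv ν (ν.v b) xm = max 0 (ν.v x₁) + max 0 (ν.v x₂) ∧
      cv ν (ν.v b) xp = max 0 (ν.v x₂) - max 0 (ν.v x₁)) := by
  have hd : x₁ - x₂ ≠ 0 := sub_ne_zero.mpr hne
  have hd2 : (x₁ - x₂) ^ 2 ≠ 0 := pow_ne_zero 2 hd
  have hvd2 : ν.v ((x₁ - x₂) ^ 2) = 2 * ν.v (x₁ - x₂) := ν.map_sq hd
  have hδ : ν.v x₁ ≤ ν.v (x₁ - x₂) := by
    have := ν.map_sub h₁ h₂ hd
    rwa [min_eq_left hrs] at this
  have hX : x₁ * x₂ ≠ 0 := mul_ne_zero h₁ h₂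
  have hvX : ν.v (x₁ * x₂) = ν.v x₁ + ν.v x₂ := ν.map_mul h₁ h₂
  have h2a : (2 : F) * a ≠ 0 := mul_ne_zero h2 ha
  have hv2a : ν.v (2 * a) = 0 := by rw [ν.map_mul h2 ha, hv2, hva]; ring
  have h2aX : 2 * a * (x₁ * x₂) ≠ 0 := mul_ne_zero h2a hX
  have hv2aX : ν.v (2 * a * (x₁ * x₂)) = ν.v x₁ + ν.v x₂ := by
    rw [ν.map_mul h2a hX, hv2a, hvX]; ring
  have sum_exact : ∀ {c : ℚ}, (x₁ * x₂ + b) * (x₁ + x₂) + 2 * a * (x₁ * x₂) ≠ 0 →
      ν.v ((x₁ * x₂ + b) * (x₁ + x₂) + 2 * a * (x₁ * x₂)) = c →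
      xp + xm ≠ 0 ∧ ν.v (xp + xm) = c - 2 * ν.v (x₁ - x₂) := by
    intro c hN hvN
    have h2N : 2 * ((x₁ * x₂ + b) * (x₁ + x₂) + 2 * a * (x₁ * x₂)) ≠ 0 := mul_ne_zero h2 hN
    obtain ⟨h0, hv⟩ := ν.v_eq_of_mul_eq hd2 h2N hsum
    refine ⟨h0, ?_⟩
    rw [hv, ν.map_mul h2 hN, hv2, hvN, hvd2]; ring
  have sum_ge : ∀ {c : ℚ}, ν.GE c ((x₁ * x₂ + b) * (x₁ + x₂) + 2 * a * (x₁ * x₂)) →
      ν.GE (c - 2 * ν.v (x₁ - x₂)) (xp + xm) := by
    intro c hN
    have h2N : ν.GE (0 + c) (2 * ((x₁ * x₂ + b) * (x₁ + x₂) + 2 * a * (x₁ * x₂))) :=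
      (QVal.GE.of_le (le_of_eq hv2.symm)).mul hN
    have := ν.GE_of_mul_eq hd2 h2N hsum
    rw [hvd2] at this
    exact this.mono (by linarith)
  rcases lt_or_ge (ν.v x₁ + ν.v x₂) (ν.v b) with hlt | hge
  · -- case A : `r + s < n`
    obtain ⟨hXb, hvXb⟩ := ν.map_add_of_lt hX hb (by rw [hvX]; exact hlt)
    obtain ⟨hXb', hvXb'⟩ := ν.map_sub_of_lt hX hb (by rw [hvX]; exact hlt)
    rw [hvX] at hvXb hvXb'
    have hR : (x₁ * x₂ - b) ^ 2 ≠ 0 := pow_ne_zero 2 hXb'
    obtain ⟨hπ, hvπ⟩ := ν.v_eq_of_mul_eq hd2 hR hprod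
    rw [ν.map_sq hXb', hvXb', hvd2] at hvπ
    have hp : xp ≠ 0 := left_ne_zero_of_mul hπ
    have hm : xm ≠ 0 := right_ne_zero_of_mul hπ
    rcases lt_or_eq_of_le hrs with hrs' | hrs'
    · -- A1 : `r < s`
      obtain ⟨hS, hvS⟩ := ν.map_add_of_lt h₁ h₂ hrs'
      have hT : (x₁ * x₂ + b) * (x₁ + x₂) ≠ 0 := mul_ne_zero hXb hS
      have hvT : ν.v ((x₁ * x₂ + b) * (x₁ + x₂)) = 2 * ν.v x₁ + ν.v x₂ := by
        rw [ν.map_mul hXb hS, hvXb, hvS]; ring
      have hδ' : ν.v (x₁ - x₂) = ν.v x₁ := (ν.map_sub_of_lt h₁ h₂ hrs').2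
      rw [hδ'] at hvπ
      rcases lt_or_ge 0 (ν.v x₁) with hr0 | hr0
      · -- `r > 0`
        obtain ⟨hN, hvN⟩ := ν.map_add_of_lt h2aX hT (by rw [hv2aX, hvT]; linarith)
        rw [add_comm] at hN hvN
        obtain ⟨hσ, hvσ⟩ := sum_exact hN hvN
        rw [hv2aX, hδ'] at hvσ
        rw [max_eq_right hr0.le, max_eq_right (hr0.le.trans hrs)]
        rcases ν.quad_ne hp hm hσ hvσ hvπ (by linarith) with ⟨e1, e2⟩ | ⟨e1, e2⟩
        · right
          refine ⟨?_, ?_⟩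
          · rw [cv_of_mem ν hm (by linarith) (by linarith), e2]; ring
          · rw [cv_of_mem ν hp (by linarith) (by linarith), e1]; ring
        · left
          refine ⟨?_, ?_⟩
          · rw [cv_of_mem ν hp (by linarith) (by linarith), e1]; ring
          · rw [cv_of_mem ν hm (by linarith) (by linarith), e2]; ring
      · -- `r ≤ 0`
        have hN : ν.GE (2 * ν.v x₁ + ν.v x₂)
            ((x₁ * x₂ + b) * (x₁ + x₂) + 2 * a * (x₁ * x₂)) :=
          (QVal.GE.of_le (le_of_eq hvT.symm)).add (QVal.GE.of_le (by rw [hv2aX]; linarith))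
        have hσ := sum_ge hN
        rw [hδ'] at hσ
        obtain ⟨e1, e2⟩ := ν.quad_eq (c := ν.v x₂) hp hm (by rw [hvπ]; ring)
          (hσ.mono (by linarith))
        rw [max_eq_left hr0]
        left
        have key : ∀ {x : F}, x ≠ 0 → ν.v x = ν.v x₂ → cv ν (ν.v b) x = max 0 (ν.v x₂) := by
          intro x hx hvx
          rw [cv_of_ne ν _ hx, hvx, min_eq_left (by linarith)]
        rw [key hp e1, key hm e2]
        constructor <;> ring
    · -- A2 : `r = s`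
      have hS : ν.GE (ν.v x₁) (x₁ + x₂) :=
        (QVal.GE.of_le le_rfl).add (QVal.GE.of_le hrs)
      have hT : ν.GE (ν.v x₁ + ν.v x₂ + ν.v x₁) ((x₁ * x₂ + b) * (x₁ + x₂)) :=
        (QVal.GE.of_le (le_of_eq hvXb.symm)).mul hS
      rcases lt_or_ge 0 (ν.v x₁) with hr0 | hr0
      · -- `r > 0`
        obtain ⟨hN, hvN⟩ := ν.map_add_of_GT' (c := ν.v x₁ + ν.v x₂) h2aX (le_of_eq hv2aX)
          (hT.gt_of_lt (by linarith))
        obtain ⟨hσ, hvσ⟩ := sum_exact hN hvN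
        rw [hv2aX] at hvσ
        rw [max_eq_right hr0.le, max_eq_right (hr0.le.trans hrs)]
        rcases ν.quad_ne hp hm hσ hvσ hvπ (by linarith) with ⟨e1, e2⟩ | ⟨e1, e2⟩
        · right
          refine ⟨?_, ?_⟩
          · rw [cv_of_mem ν hm (by linarith) (by linarith), e2]; ring
          · rw [cv_of_nonpos ν hn.le hp (by linarith)]; linarith
        · left
          refine ⟨?_, ?_⟩
          · rw [cv_of_mem ν hp (by linarith) (by linarith), e1]; ring
          · rw [cv_of_nonpos ν hn.le hm (by linarith)]; linarith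
      · -- `r ≤ 0`
        have hN : ν.GE (ν.v x₁ + ν.v x₂ + ν.v x₁)
            ((x₁ * x₂ + b) * (x₁ + x₂) + 2 * a * (x₁ * x₂)) :=
          hT.add (QVal.GE.of_le (by rw [hv2aX]; linarith))
        have hσ := sum_ge hN
        obtain ⟨e1, e2⟩ := ν.quad_nonpos hp hm (by rw [hvπ]; linarith)
          (hσ.mono (by rw [hvπ]; linarith))
        rw [max_eq_left hr0, max_eq_left (by linarith : ν.v x₂ ≤ 0)]
        left
        rw [cv_of_nonpos ν hn.le hp e1, cv_of_nonpos ν hn.le hm e2]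
        constructor <;> ring
  · -- case B : `r = s = n / 2`
    have hr : ν.v x₁ = ν.v b / 2 := by linarith
    have hs' : ν.v x₂ = ν.v b / 2 := by linarith
    have hr0 : 0 < ν.v x₁ := by linarith
    have hXn : ν.v (x₁ * x₂) = ν.v b := by rw [hvX]; linarith
    have hXb : ν.GE (ν.v b) (x₁ * x₂ + b) :=
      (QVal.GE.of_le (le_of_eq hXn.symm)).add (QVal.GE.of_le le_rfl)
    have hS : ν.GE (ν.v x₁) (x₁ + x₂) :=
      (QVal.GE.of_le le_rfl).add (QVal.GE.of_le hrs)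
    have hT : ν.GE (ν.v b + ν.v x₁) ((x₁ * x₂ + b) * (x₁ + x₂)) := hXb.mul hS
    obtain ⟨hN, hvN⟩ := ν.map_add_of_GT' (c := ν.v b) h2aX (by rw [hv2aX]; linarith)
      (hT.gt_of_lt (by linarith))
    obtain ⟨hσ, hvσ⟩ := sum_exact hN hvN
    rw [hv2aX] at hvσ
    rw [max_eq_right hr0.le, max_eq_right (hr0.le.trans hrs)]
    have hσ0 : ν.v (xp + xm) ≤ 0 := by rw [hvσ]; linarith
    by_cases hXb' : x₁ * x₂ - b = 0
    · -- one root is `0`
      rw [hXb', zero_pow two_ne_zero] at hprod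
      have hπ : xp * xm = 0 := by
        rcases mul_eq_zero.mp hprod with h | h
        · exact h
        · exact absurd h hd2
      rcases mul_eq_zero.mp hπ with h0 | h0
      · left
        rw [h0, zero_add] at hσ hσ0
        rw [h0, cv_zero, cv_of_nonpos ν hn.le hσ hσ0]
        constructor <;> linarith
      · right
        rw [h0, add_zero] at hσ hσ0
        rw [h0, cv_zero, cv_of_nonpos ν hn.le hσ hσ0]
        constructor <;> linarith
    · have hR : (x₁ * x₂ - b) ^ 2 ≠ 0 := pow_ne_zero 2 hXb'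
      obtain ⟨hπ, hvπ⟩ := ν.v_eq_of_mul_eq hd2 hR hprod
      rw [ν.map_sq hXb', hvd2] at hvπ
      have hp : xp ≠ 0 := left_ne_zero_of_mul hπ
      have hm : xm ≠ 0 := right_ne_zero_of_mul hπ
      have hε : ν.v b ≤ ν.v (x₁ * x₂ - b) :=
        ((QVal.GE.of_le (le_of_eq hXn.symm)).sub (QVal.GE.of_le le_rfl)).le hXb'
      rcases ν.quad_ne hp hm hσ hvσ hvπ (by linarith) with ⟨e1, e2⟩ | ⟨e1, e2⟩
      · right
        refine ⟨?_, ?_⟩
        · rw [cv_of_ge ν hn.le (QVal.GE.of_le (by rw [e2]; linarith))]; linarith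
        · rw [cv_of_nonpos ν hn.le hp (by rw [e1]; linarith)]; linarith
      · left
        refine ⟨?_, ?_⟩
        · rw [cv_of_ge ν hn.le (QVal.GE.of_le (by rw [e1]; linarith))]; linarith
        · rw [cv_of_nonpos ν hn.le hm (by rw [e2]; linarith)]; linarith


/-- A nonzero root of `x² + a x + b` of valuation `≤ n/2` has valuation `≤ 0`. -/
theorem small_two_torsion (ha : a ≠ 0) (hva : ν.v a = 0) (hb : b ≠ 0)
    {x : F} (hx : x ≠ 0) (hr : ν.v x ≤ ν.v b / 2) (hn : 0 < ν.v b)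
    (hg : x ^ 2 + a * x + b = 0) : ν.v x ≤ 0 := by
  by_contra hpos
  push Not at hpos
  obtain ⟨hne, hv⟩ := ν.map_add_of_lt ha hx (by rw [hva]; exact hpos)
  have hmul : x * (a + x) = -b := by linear_combination hg
  have := congrArg ν.v hmul
  rw [ν.map_mul hx hne, hv, hva, ν.map_neg hb] at this
  linarith

/-- **Duplication, small case** (field level). -/
theorem small_double [DecidableEq F] (ha : a ≠ 0) (hva : ν.v a = 0) (hb : b ≠ 0)
    (h2 : (2 : F) ≠ 0) (hv2 : ν.v 2 = 0) {x x2 : F} (hx : x ≠ 0)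
    (hr : ν.v x ≤ ν.v b / 2) (hn : 0 < ν.v b)
    (hg : x ^ 2 + a * x + b ≠ 0)
    (hdup : x2 * (4 * (x * (x ^ 2 + a * x + b))) = (x ^ 2 - b) ^ 2) :
    cv ν (ν.v b) x2 = 2 * max 0 (ν.v x) := by
  have h4 : (4 : F) ≠ 0 := by
    have : (4 : F) = 2 * 2 := by norm_num
    rw [this]; exact mul_ne_zero h2 h2
  have hv4 : ν.v (4 : F) = 0 := by
    have : (4 : F) = 2 * 2 := by norm_num
    rw [this, ν.map_mul h2 h2, hv2]; ring
  have hx2 : x ^ 2 ≠ 0 := pow_ne_zero 2 hx
  have hvx2 : ν.v (x ^ 2) = 2 * ν.v x := ν.map_sq hx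
  have hax : a * x ≠ 0 := mul_ne_zero ha hx
  have hvax : ν.v (a * x) = ν.v x := by rw [ν.map_mul ha hx, hva]; ring
  have hxg : x * (x ^ 2 + a * x + b) ≠ 0 := mul_ne_zero hx hg
  have h4xg : 4 * (x * (x ^ 2 + a * x + b)) ≠ 0 := mul_ne_zero h4 hxg
  have hv4xg : ν.v (4 * (x * (x ^ 2 + a * x + b))) = ν.v x + ν.v (x ^ 2 + a * x + b) := by
    rw [ν.map_mul h4 hxg, hv4, ν.map_mul hx hg]; ring
  rcases lt_trichotomy (ν.v x) 0 with hneg | hzero | hpos
  · -- `r < 0`
    obtain ⟨h1, hv1⟩ := ν.map_add_of_lt hx2 hax (by rw [hvx2, hvax]; linarith)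
    obtain ⟨h2', hv2'⟩ := ν.map_add_of_lt h1 hb (by rw [hv1, hvx2]; linarith)
    obtain ⟨h3, hv3⟩ := ν.map_sub_of_lt hx2 hb (by rw [hvx2]; linarith)
    have hR : (x ^ 2 - b) ^ 2 ≠ 0 := pow_ne_zero 2 h3
    obtain ⟨h0, hv0⟩ := ν.v_eq_of_mul_eq h4xg hR hdup
    rw [ν.map_sq h3, hv3, hvx2, hv4xg, hv2', hv1, hvx2] at hv0
    rw [max_eq_left hneg.le, cv_of_nonpos ν hn.le h0 (by rw [hv0]; linarith)]; ring
  · -- `r = 0`
    obtain ⟨h3, hv3⟩ := ν.map_sub_of_lt hx2 hb (by rw [hvx2]; linarith)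
    have hR : (x ^ 2 - b) ^ 2 ≠ 0 := pow_ne_zero 2 h3
    obtain ⟨h0, hv0⟩ := ν.v_eq_of_mul_eq h4xg hR hdup
    rw [ν.map_sq h3, hv3, hvx2, hv4xg] at hv0
    have hgge : ν.GE 0 (x ^ 2 + a * x + b) :=
      ((QVal.GE.of_le (by rw [hvx2]; linarith)).add (QVal.GE.of_le (by rw [hvax]; linarith))).add
        (QVal.GE.of_le hn.le)
    have := hgge.le hg
    rw [max_eq_left hzero.le, cv_of_nonpos ν hn.le h0 (by rw [hv0]; linarith)]; ring
  · -- `0 < r`
    have hgt : ν.GT (ν.v x) (x ^ 2 + b) :=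
      (QVal.GT.of_lt (by rw [hvx2]; linarith)).add (QVal.GT.of_lt (by linarith))
    obtain ⟨_, hvg⟩ := ν.map_add_of_GT (c := ν.v x) hax (le_of_eq hvax) hgt
    have hgeq : a * x + (x ^ 2 + b) = x ^ 2 + a * x + b := by ring
    rw [hgeq, hvax] at hvg
    rw [hvg] at hv4xg
    rw [max_eq_right hpos.le]
    rcases lt_or_eq_of_le hr with hlt | heq
    · obtain ⟨h3, hv3⟩ := ν.map_sub_of_lt hx2 hb (by rw [hvx2]; linarith)
      have hR : (x ^ 2 - b) ^ 2 ≠ 0 := pow_ne_zero 2 h3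
      obtain ⟨h0, hv0⟩ := ν.v_eq_of_mul_eq h4xg hR hdup
      rw [ν.map_sq h3, hv3, hvx2, hv4xg] at hv0
      rw [cv_of_mem ν h0 (by rw [hv0]; linarith) (by rw [hv0]; linarith), hv0]; ring
    · have h3 : ν.GE (ν.v b) (x ^ 2 - b) :=
        (QVal.GE.of_le (by rw [hvx2]; linarith)).sub (QVal.GE.of_le le_rfl)
      have hR : ν.GE (2 * ν.v b) ((x ^ 2 - b) ^ 2) := by
        have := h3.pow 2
        simpa using this
      have := ν.GE_of_mul_eq h4xg hR hdup
      rw [hv4xg] at this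
      rw [cv_of_ge ν hn.le (this.mono (by linarith))]; linarith


/-- if the clipped valuation is at most `n/2` then `x ≠ 0`, `v x ≤ n/2` and no clipping at `n`. -/
theorem cv_le_half [DecidableEq F] {n : ℚ} (hn : 0 < n) {x : F} (h : cv ν n x ≤ n / 2) :
    x ≠ 0 ∧ ν.v x ≤ n / 2 ∧ cv ν n x = max 0 (ν.v x) := by
  have hx : x ≠ 0 := by
    rintro rfl
    rw [cv_zero] at h
    linarith
  rw [cv_of_ne ν n hx] at h ⊢
  have hv : ν.v x ≤ n / 2 := by
    by_contra hlt
    push Not at hlt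
    have h1 : n / 2 < min (ν.v x) n := lt_min hlt (by linarith)
    have h2 := le_max_right 0 (min (ν.v x) n)
    linarith
  exact ⟨hx, hv, by rw [min_eq_left (by linarith)]⟩

/-- the clip identity behind `μ (P + T₀) = n - μ P` -/
theorem clip_sub {n r : ℚ} (hn : 0 ≤ n) :
    max 0 (min (n - r) n) = n - max 0 (min r n) := by
  simp only [max_def, min_def]
  split_ifs <;> linarith

end Casework


/-! ### The component value of a point and the pair law -/

section Points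

variable {F : Type*} [Field F] [DecidableEq F]

/-- the component value of a point: `0` at the origin, the clipped valuation of `x` otherwise -/
noncomputable def compVal (ν : QVal F) (W : Affine F) : W.Point → ℚ
  | .zero => 0
  | .some x _ _ => cv ν (ν.v W.a₄) x

variable {ν : QVal F} {W : Affine F}

@[simp] theorem compVal_zero : compVal ν W 0 = 0 := rfl

@[simp] theorem compVal_some {x y : F} (h : W.Nonsingular x y) :
    compVal ν W (Point.some x y h) = cv ν (ν.v W.a₄) x := rfl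

theorem compVal_neg (P : W.Point) : compVal ν W (-P) = compVal ν W P := by
  rcases P with _ | ⟨x, y, h⟩
  · rfl
  · rfl

theorem some_eq_some_of_eq {x y x' y' : F} (h : W.Nonsingular x y) (hx : x = x') (hy : y = y') :
    ∃ h' : W.Nonsingular x' y', Point.some x y h = Point.some x' y' h' := by
  subst hx hy; exact ⟨h, rfl⟩

/-- the pair law relating the component values of `P`, `Q`, `P + Q`, `P - Q` -/
def PairLaw (n p q S D : ℚ) : Prop :=
  (S = n - |n - (p + q)| ∧ D = |p - q|) ∨ (S = |p - q| ∧ D = n - |n - (p + q)|)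

theorem PairLaw.symm {n p q S D : ℚ} (h : PairLaw n p q S D) : PairLaw n q p S D := by
  unfold PairLaw at *
  rw [add_comm q p, abs_sub_comm q p]; exact h

theorem PairLaw.of_translate_left {n p q S D : ℚ}
    (h : PairLaw n (n - p) q (n - S) (n - D)) : PairLaw n p q S D := by
  unfold PairLaw at *
  have e1 : n - (n - p + q) = p - q := by ring
  have e2 : n - p - q = n - (p + q) := by ring
  rw [e1, e2] at h
  rcases h with ⟨h1, h2⟩ | ⟨h1, h2⟩
  · right; constructor <;> linarith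
  · left; constructor <;> linarith

theorem PairLaw.of_translate_right {n p q S D : ℚ}
    (h : PairLaw n p (n - q) (n - S) (n - D)) : PairLaw n p q S D :=
  (PairLaw.of_translate_left h.symm).symm

theorem PairLaw.zero_left {n q : ℚ} (h0 : 0 ≤ q) (h1 : q ≤ n) : PairLaw n 0 q q q := by
  left
  rw [zero_add, zero_sub, abs_neg, abs_of_nonneg h0, abs_of_nonneg (by linarith)]
  constructor <;> ring

theorem PairLaw.zero_right {n p : ℚ} (h0 : 0 ≤ p) (h1 : p ≤ n) : PairLaw n p 0 p p :=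
  (PairLaw.zero_left h0 h1).symm

theorem PairLaw.of_small {n cr cs S D : ℚ} (h0 : 0 ≤ cr) (hrs : cr ≤ cs) (hn : cr + cs ≤ n)
    (h : (S = cr + cs ∧ D = cs - cr) ∨ (D = cr + cs ∧ S = cs - cr)) :
    PairLaw n cr cs S D := by
  have e1 : n - |n - (cr + cs)| = cr + cs := by
    rw [abs_of_nonneg (by linarith)]; ring
  have e2 : |cr - cs| = cs - cr := by
    rw [abs_sub_comm, abs_of_nonneg (by linarith)]
  unfold PairLaw
  rw [e1, e2]
  rcases h with ⟨h1, h2⟩ | ⟨h1, h2⟩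
  · exact Or.inl ⟨h1, h2⟩
  · exact Or.inr ⟨h2, h1⟩


/-- `t` and `t'` agree modulo `2n` up to sign -/
def CompRel (n t t' : ℚ) : Prop := ∃ j : ℤ, t - t' = 2 * n * j ∨ t + t' = 2 * n * j

theorem CompRel.refl (n t : ℚ) : CompRel n t t := ⟨0, Or.inl (by simp)⟩

theorem CompRel.symm {n t t' : ℚ} (h : CompRel n t t') : CompRel n t' t := by
  obtain ⟨j, h | h⟩ := h
  · exact ⟨-j, Or.inl (by push_cast; linarith)⟩
  · exact ⟨j, Or.inr (by linarith)⟩

theorem CompRel.trans {n t t' t'' : ℚ} (h : CompRel n t t') (h' : CompRel n t' t'') :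
    CompRel n t t'' := by
  obtain ⟨j, h | h⟩ := h <;> obtain ⟨k, h' | h'⟩ := h'
  · exact ⟨j + k, Or.inl (by push_cast; linarith)⟩
  · exact ⟨j + k, Or.inr (by push_cast; linarith)⟩
  · exact ⟨j - k, Or.inr (by push_cast; linarith)⟩
  · exact ⟨j - k, Or.inl (by push_cast; linarith)⟩

theorem CompRel.abs (n t : ℚ) : CompRel n |t| t := by
  rcases abs_choice t with h | h
  · exact ⟨0, Or.inl (by rw [h]; simp)⟩
  · exact ⟨0, Or.inr (by rw [h]; simp)⟩

theorem CompRel.fold (n t : ℚ) : CompRel n (n - |n - t|) t := by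
  rcases abs_choice (n - t) with h | h
  · exact ⟨0, Or.inl (by rw [h]; simp)⟩
  · exact ⟨1, Or.inr (by rw [h]; push_cast; ring)⟩

theorem CompRel.shift {n t t' : ℚ} (γ : ℚ) (h : CompRel n t t') :
    (CompRel n (t + γ) (t' + γ) ∧ CompRel n (t - γ) (t' - γ)) ∨
    (CompRel n (t + γ) (t' - γ) ∧ CompRel n (t - γ) (t' + γ)) := by
  obtain ⟨j, h | h⟩ := h
  · left; exact ⟨⟨j, Or.inl (by linarith)⟩, ⟨j, Or.inl (by linarith)⟩⟩
  · right; exact ⟨⟨j, Or.inr (by linarith)⟩, ⟨j, Or.inr (by linarith)⟩⟩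

theorem PairLaw.compRel {n p q S D : ℚ} (h : PairLaw n p q S D) :
    (CompRel n S (p + q) ∧ CompRel n D (p - q)) ∨
    (CompRel n S (p - q) ∧ CompRel n D (p + q)) := by
  rcases h with ⟨h1, h2⟩ | ⟨h1, h2⟩
  · left; rw [h1, h2]; exact ⟨CompRel.fold _ _, CompRel.abs _ _⟩
  · right; rw [h1, h2]; exact ⟨CompRel.abs _ _, CompRel.fold _ _⟩

namespace NodeData

variable (D : NodeData ν W)
include D

theorem compVal_nonneg (P : W.Point) : 0 ≤ compVal ν W P := by
  rcases P with _ | ⟨x, y, h⟩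
  · exact le_rfl
  · exact cv_nonneg ν D.v_b.le x

theorem compVal_le (P : W.Point) : compVal ν W P ≤ ν.v W.a₄ := by
  rcases P with _ | ⟨x, y, h⟩
  · exact D.v_b.le
  · exact cv_le ν D.v_b.le x

theorem nonsingular_origin : W.Nonsingular 0 0 := by
  rw [Affine.nonsingular_zero]
  exact ⟨D.a₆, Or.inr D.b_ne⟩

/-- the `2`-torsion point `(0,0)` at the node -/
def T0 : W.Point := Point.some 0 0 D.nonsingular_origin

theorem neg_T0 : -D.T0 = D.T0 := by
  unfold T0
  rw [Point.neg_some]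
  obtain ⟨h', e⟩ := some_eq_some_of_eq ((nonsingular_neg ..).mpr D.nonsingular_origin) rfl
    (show W.negY 0 0 = 0 by rw [D.negY_eq, neg_zero])
  exact e

theorem T0_add_T0 : D.T0 + D.T0 = 0 := by
  unfold T0
  exact Point.add_self_of_Y_eq (by rw [D.negY_eq, neg_zero])

theorem compVal_T0 : compVal ν W D.T0 = ν.v W.a₄ := cv_zero ν _

/-- translation by the `2`-torsion point `(0,0)`: `(x, y) ↦ (b/x, -b y/x²)` -/
theorem add_T0_eq {x y : F} (h : W.Nonsingular x y) (hx : x ≠ 0) :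
    ∃ h' : W.Nonsingular (W.a₄ / x) (-(W.a₄ * y / x ^ 2)),
      Point.some x y h + D.T0 = Point.some (W.a₄ / x) (-(W.a₄ * y / x ^ 2)) h' := by
  unfold T0
  rw [Point.add_of_X_ne hx]
  have heq := D.equation_iff.mp h.1
  have hX : W.addX x 0 (W.slope x 0 y 0) = W.a₄ / x := by
    rw [slope_of_X_ne hx, addX, D.a₁]
    simp only [sub_zero]
    field_simp
    linear_combination heq
  have hY : W.addY x 0 y (W.slope x 0 y 0) = -(W.a₄ * y / x ^ 2) := by
    rw [addY, negAddY, hX, negY, D.a₁, D.a₃, slope_of_X_ne hx]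
    simp only [sub_zero]
    field_simp
    ring
  exact some_eq_some_of_eq _ hX hY

theorem compVal_add_T0 (P : W.Point) :
    compVal ν W (P + D.T0) = ν.v W.a₄ - compVal ν W P := by
  rcases P with _ | ⟨x, y, h⟩
  · change compVal ν W (0 + D.T0) = _ - compVal ν W 0
    rw [zero_add, D.compVal_T0, compVal_zero, sub_zero]
  · by_cases hx : x = 0
    · subst hx
      have hy : y = 0 := by
        have := D.equation_iff.mp h.1
        have h0 : y ^ 2 = 0 := by rw [this]; ring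
        exact pow_eq_zero_iff two_ne_zero |>.mp h0
      subst hy
      have : Point.some 0 0 h + D.T0 = 0 := D.T0_add_T0
      rw [this, compVal_zero, compVal_some, cv_zero, sub_self]
    · obtain ⟨h', e⟩ := D.add_T0_eq h hx
      have hbx : W.a₄ / x ≠ 0 := div_ne_zero D.b_ne hx
      rw [e, compVal_some, compVal_some, cv_of_ne ν _ hbx, cv_of_ne ν _ hx,
        ν.map_div D.b_ne hx]
      exact clip_sub D.v_b.le

theorem compVal_double_small (P : W.Point) (hP : compVal ν W P ≤ ν.v W.a₄ / 2) :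
    compVal ν W (P + P) = 2 * compVal ν W P := by
  rcases P with _ | ⟨x, y, h⟩
  · change compVal ν W (0 + 0) = 2 * compVal ν W 0
    rw [zero_add, compVal_zero, mul_zero]
  · rw [compVal_some] at hP ⊢
    obtain ⟨hx, hv, hcv⟩ := cv_le_half ν D.v_b hP
    have heq := D.equation_iff.mp h.1
    have hfac : y ^ 2 = x * (x ^ 2 + W.a₂ * x + W.a₄) := by rw [heq]; ring
    by_cases hy : y = W.negY x y
    · rw [Point.add_self_of_Y_eq hy, compVal_zero, hcv]
      rw [D.negY_eq] at hy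
      have hy0 : y = 0 := by
        have h2y : 2 * y = 0 := by linear_combination hy
        rcases mul_eq_zero.mp h2y with h | h
        · exact absurd h D.two_ne
        · exact h
      rw [hy0] at hfac
      have hg : x ^ 2 + W.a₂ * x + W.a₄ = 0 := by
        have : x * (x ^ 2 + W.a₂ * x + W.a₄) = 0 := by rw [← hfac]; ring
        rcases mul_eq_zero.mp this with h | h
        · exact absurd h hx
        · exact h
      have := small_two_torsion ν D.a_ne D.v_a D.b_ne hx hv D.v_b hg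
      rw [max_eq_left this, mul_zero]
    · obtain ⟨x2, y2, h2, e, hdup⟩ := exists_double h hy
      rw [e, compVal_some, hcv]
      have hy0 : y ≠ 0 := by
        rintro rfl
        apply hy
        rw [D.negY_eq, neg_zero]
      have hg : x ^ 2 + W.a₂ * x + W.a₄ ≠ 0 := by
        intro hg
        rw [hg, mul_zero] at hfac
        exact hy0 (pow_eq_zero_iff two_ne_zero |>.mp hfac)
      rw [D.b₂_eq, D.b₄_eq, D.b₆_eq, D.b₈_eq] at hdup
      refine small_double ν D.a_ne D.v_a D.b_ne D.two_ne D.v_two hx hv D.v_b hg ?_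
      linear_combination hdup

/-- pair law, both points affine with distinct `x`, both small, `v x₁ ≤ v x₂` -/
theorem pairLaw_small_aux {x₁ y₁ x₂ y₂ : F} (h₁ : W.Nonsingular x₁ y₁)
    (h₂ : W.Nonsingular x₂ y₂) (hx : x₁ ≠ x₂)
    (hP : compVal ν W (Point.some x₁ y₁ h₁) ≤ ν.v W.a₄ / 2)
    (hQ : compVal ν W (Point.some x₂ y₂ h₂) ≤ ν.v W.a₄ / 2)
    (hrs : ν.v x₁ ≤ ν.v x₂) :
    PairLaw (ν.v W.a₄) (compVal ν W (Point.some x₁ y₁ h₁)) (compVal ν W (Point.some x₂ y₂ h₂))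
      (compVal ν W (Point.some x₁ y₁ h₁ + Point.some x₂ y₂ h₂))
      (compVal ν W (Point.some x₁ y₁ h₁ - Point.some x₂ y₂ h₂)) := by
  rw [compVal_some] at hP hQ
  obtain ⟨hx₁, hv₁, hcv₁⟩ := cv_le_half ν D.v_b hP
  obtain ⟨hx₂, hv₂, hcv₂⟩ := cv_le_half ν D.v_b hQ
  obtain ⟨xp, yp, xm, ym, hp, hm, e1, e2, e3, e4⟩ := D.exists_add_sub h₁ h₂ hx
  rw [e1, e2]
  simp only [compVal_some]
  rw [hcv₁, hcv₂]
  have := small_affine ν D.a_ne D.v_a D.b_ne D.two_ne D.v_two hx₁ hx₂ hx hrs hv₂ D.v_b e3 e4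
  refine PairLaw.of_small (le_max_left _ _) (max_le_max le_rfl hrs) ?_ this
  rw [← hcv₁, ← hcv₂]; linarith

theorem pairLaw_small (P Q : W.Point) (hP : compVal ν W P ≤ ν.v W.a₄ / 2)
    (hQ : compVal ν W Q ≤ ν.v W.a₄ / 2) :
    PairLaw (ν.v W.a₄) (compVal ν W P) (compVal ν W Q) (compVal ν W (P + Q))
      (compVal ν W (P - Q)) := by
  rcases P with _ | ⟨x₁, y₁, h₁⟩
  · change PairLaw _ (compVal ν W 0) _ (compVal ν W (0 + Q)) (compVal ν W (0 - Q))
    rw [zero_add, zero_sub, compVal_neg, compVal_zero]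
    exact PairLaw.zero_left (D.compVal_nonneg Q) (D.compVal_le Q)
  rcases Q with _ | ⟨x₂, y₂, h₂⟩
  · change PairLaw _ _ (compVal ν W 0) (compVal ν W (_ + 0)) (compVal ν W (_ - 0))
    rw [add_zero, sub_zero, compVal_zero]
    exact PairLaw.zero_right (D.compVal_nonneg _) (D.compVal_le _)
  by_cases hx : x₁ = x₂
  · subst hx
    have hdbl := D.compVal_double_small _ hP
    have hle : 2 * compVal ν W (Point.some x₁ y₁ h₁) ≤ ν.v W.a₄ := by linarith
    have hnn := D.compVal_nonneg (Point.some x₁ y₁ h₁)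
    have hsame : compVal ν W (Point.some x₁ y₂ h₂) = compVal ν W (Point.some x₁ y₁ h₁) := rfl
    rw [hsame]
    by_cases hy : y₁ = W.negY x₁ y₂
    · subst hy
      have hneg : -Point.some x₁ y₂ h₂ = Point.some x₁ (W.negY x₁ y₂) h₁ := rfl
      rw [Point.add_of_Y_eq rfl rfl, sub_eq_add_neg, hneg, hdbl, compVal_zero]
      right
      rw [sub_self, abs_zero, abs_of_nonneg (by linarith)]
      constructor <;> ring
    · have hy' : y₁ = y₂ := Y_eq_of_Y_ne h₁.1 h₂.1 rfl hy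
      subst hy'
      rw [sub_self, hdbl, compVal_zero]
      left
      rw [sub_self, abs_zero, abs_of_nonneg (by linarith)]
      constructor <;> ring
  · rcases le_total (ν.v x₁) (ν.v x₂) with hrs | hrs
    · exact D.pairLaw_small_aux h₁ h₂ hx hP hQ hrs
    · have := D.pairLaw_small_aux h₂ h₁ (Ne.symm hx) hQ hP hrs
      rw [add_comm, ← neg_sub, compVal_neg] at this
      exact this.symm

/-- **The pair law** for the component values on the node model. -/
theorem pairLaw (P Q : W.Point) :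
    PairLaw (ν.v W.a₄) (compVal ν W P) (compVal ν W Q) (compVal ν W (P + Q))
      (compVal ν W (P - Q)) := by
  have step1 : ∀ P Q : W.Point, compVal ν W Q ≤ ν.v W.a₄ / 2 →
      PairLaw (ν.v W.a₄) (compVal ν W P) (compVal ν W Q) (compVal ν W (P + Q))
        (compVal ν W (P - Q)) := by
    intro P Q hQ
    by_cases hP : compVal ν W P ≤ ν.v W.a₄ / 2
    · exact D.pairLaw_small P Q hP hQ
    · push Not at hP
      have hP' : compVal ν W (P + D.T0) ≤ ν.v W.a₄ / 2 := by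
        rw [D.compVal_add_T0]; linarith
      have := D.pairLaw_small (P + D.T0) Q hP' hQ
      rw [show P + D.T0 + Q = (P + Q) + D.T0 by abel,
        show P + D.T0 - Q = (P - Q) + D.T0 by abel,
        D.compVal_add_T0, D.compVal_add_T0, D.compVal_add_T0] at this
      exact PairLaw.of_translate_left this
  by_cases hQ : compVal ν W Q ≤ ν.v W.a₄ / 2
  · exact step1 P Q hQ
  · push Not at hQ
    have hQ' : compVal ν W (Q + D.T0) ≤ ν.v W.a₄ / 2 := by
      rw [D.compVal_add_T0]; linarith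
    have := step1 P (Q + D.T0) hQ'
    have e : P - (Q + D.T0) = (P - Q) + D.T0 := by
      rw [sub_add_eq_sub_sub, sub_eq_add_neg (P - Q), D.neg_T0]
    rw [show P + (Q + D.T0) = (P + Q) + D.T0 by abel, e,
      D.compVal_add_T0, D.compVal_add_T0, D.compVal_add_T0] at this
    exact PairLaw.of_translate_right this


/-- **Cyclic induction**: the component value of `k • P` is `k` times that of `P`, modulo `2n`
and up to sign. -/
theorem compRel_nsmul (P : W.Point) (k : ℕ) :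
    CompRel (ν.v W.a₄) (compVal ν W (k • P)) (k * compVal ν W P) ∧
    CompRel (ν.v W.a₄) (compVal ν W ((k + 1) • P)) ((k + 1 : ℕ) * compVal ν W P) := by
  induction k with
  | zero =>
    refine ⟨?_, ?_⟩
    · rw [zero_smul, compVal_zero, Nat.cast_zero, zero_mul]; exact CompRel.refl _ _
    · rw [zero_add, one_smul, Nat.cast_one, one_mul]; exact CompRel.refl _ _
  | succ k ih =>
    obtain ⟨ih0, ih1⟩ := ih
    refine ⟨ih1, ?_⟩
    have hpl := D.pairLaw ((k + 1) • P) P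
    have e1 : (k + 1) • P + P = (k + 1 + 1) • P := (succ_nsmul P (k + 1)).symm
    have e2 : (k + 1) • P - P = k • P := by rw [succ_nsmul, add_sub_cancel_right]
    rw [e1, e2] at hpl
    have h1 := hpl.compRel
    have h2 := ih1.shift (compVal ν W P)
    have eA : ((k + 1 : ℕ) : ℚ) * compVal ν W P + compVal ν W P =
        ((k + 1 + 1 : ℕ) : ℚ) * compVal ν W P := by push_cast; ring
    have eB : ((k + 1 : ℕ) : ℚ) * compVal ν W P - compVal ν W P =
        (k : ℚ) * compVal ν W P := by push_cast; ring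
    rw [eA, eB] at h2
    rcases h1 with ⟨a1, a2⟩ | ⟨a1, a2⟩ <;> rcases h2 with ⟨b1, b2⟩ | ⟨b1, b2⟩
    · exact a1.trans b1
    · exact (a1.trans b1).trans (ih0.symm.trans (a2.trans b2))
    · exact (a1.trans b2).trans (ih0.symm.trans (a2.trans b1))
    · exact a1.trans b2

/-- **Torsion points**: if `p • P = 0` then `p * μ(P) ∈ 2 n ℤ`. -/
theorem torsion_compVal (P : W.Point) (p : ℕ) (hp : p • P = 0) :
    ∃ j : ℤ, (p : ℚ) * compVal ν W P = 2 * ν.v W.a₄ * j := by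
  obtain ⟨j, h | h⟩ := (D.compRel_nsmul P p).1
  · rw [hp, compVal_zero] at h; exact ⟨-j, by push_cast; linarith⟩
  · rw [hp, compVal_zero] at h; exact ⟨j, by linarith⟩

/-- torsion corollary in terms of the valuation of the `x`-coordinate -/
theorem torsion_v_x {x y : F} (h : W.Nonsingular x y) (p : ℕ)
    (hp : p • Point.some x y h = 0) (hx : x ≠ 0) (h0 : 0 ≤ ν.v x) (h1 : ν.v x ≤ ν.v W.a₄) :
    ∃ j : ℤ, (p : ℚ) * ν.v x = 2 * ν.v W.a₄ * j := by
  have := D.torsion_compVal _ p hp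
  rwa [compVal_some, cv_of_mem ν hx h0 h1] at this

/-- points on the same component (up to sign): sum or difference lies on the identity
component -/
theorem compVal_add_or_sub_eq_zero (P Q : W.Point) (h : compVal ν W P = compVal ν W Q) :
    compVal ν W (P + Q) = 0 ∨ compVal ν W (P - Q) = 0 := by
  rcases D.pairLaw P Q with ⟨_, h2⟩ | ⟨h1, _⟩
  · right; rw [h2, h, sub_self, abs_zero]
  · left; rw [h1, h, sub_self, abs_zero]

/-- the identity component: `μ = 0` iff `x ≠ 0` and `v x ≤ 0` (for affine points) -/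
theorem compVal_some_eq_zero_iff {x y : F} (h : W.Nonsingular x y) :
    compVal ν W (Point.some x y h) = 0 ↔ x ≠ 0 ∧ ν.v x ≤ 0 := by
  rw [compVal_some]
  constructor
  · intro h0
    have hx : x ≠ 0 := by
      rintro rfl
      rw [cv_zero] at h0
      exact absurd h0 (ne_of_gt D.v_b)
    refine ⟨hx, ?_⟩
    rw [cv_of_ne ν _ hx] at h0
    by_contra hpos
    push Not at hpos
    have : 0 < min (ν.v x) (ν.v W.a₄) := lt_min hpos D.v_b
    have h2 := le_max_right 0 (min (ν.v x) (ν.v W.a₄))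
    linarith
  · rintro ⟨hx, hv⟩
    exact cv_of_nonpos ν D.v_b.le hx hv

end NodeData

end Points

end Fermat.Agent.S05
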