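import Fermat.Agent.S05.VarChange
import Fermat.Prelude.Def_FLTPrelim_Ramification

/-!
# S05 glue: from "inertia fixes every `n`-torsion point of a model" to `GaloisRepUnramifiedAt`

* `smul_eq_self_to_model` : converse direction of `smul_eq_self_of_model`
  (from the model `W'` to `C' • W'`).
* `galoisRepUnramifiedAt_of_forall` : unfolds the prelude's `GaloisRepUnramifiedAt`.
* `freyPackage_unramifiedAt_of_model` : the exact statement of S05, given a model
  `P.freyCurve = C • W` over `ℚ` and the pointwise statement on `W⁄Qbar`.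
-/

set_option autoImplicit false

open WeierstrassCurve WeierstrassCurve.Affine WeierstrassCurve.Affine.Point

namespace Fermat.Agent.S05

section Tower

variable {R : Type*} {S : Type*} {K : Type*} [CommRing R] [Field S] [Field K]
  [DecidableEq K] [Algebra R S] [Algebra R K] [Algebra S K] [IsScalarTower R S K]

/-- Unfolding of the prelude's `GaloisRepUnramifiedAt`: it suffices to show that inertia fixes
every point killed by `n`. -/
theorem galoisRepUnramifiedAt_of_forall (W' : Affine R) (n q : ℕ)
    (h : ∀ A : ValuationSubring K, A.LiesOverPrime q → ∀ σ ∈ A.inertiaSubgroupIn S,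
      ∀ T : (W'⁄K).Point, n • T = 0 → σ • T = T) :
    GaloisRepUnramifiedAt S K W' n q := by
  intro A hA σ hσ x
  apply Subtype.ext
  have hx : (n : ℤ) • (x : (W'⁄K).Point) = 0 := (Submodule.mem_torsionBy_iff _ _).1 x.2
  have hx' : n • (x : (W'⁄K).Point) = 0 := by
    rwa [Nat.cast_smul_eq_nsmul] at hx
  exact h A hA σ hσ x hx'

/-- Converse unfolding. -/
theorem forall_of_galoisRepUnramifiedAt (W' : Affine R) (n q : ℕ)
    (h : GaloisRepUnramifiedAt S K W' n q)
    (A : ValuationSubring K) (hA : A.LiesOverPrime q) (σ : K ≃ₐ[S] K)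
    (hσ : σ ∈ A.inertiaSubgroupIn S) (T : (W'⁄K).Point) (hT : n • T = 0) : σ • T = T := by
  have hT' : T ∈ Submodule.torsionBy ℤ (W'⁄K).Point n := by
    rw [Submodule.mem_torsionBy_iff, Nat.cast_smul_eq_nsmul]
    exact hT
  exact congrArg Subtype.val (h A hA σ hσ ⟨T, hT'⟩)

end Tower

section Model

variable {S : Type*} {K : Type*} [Field S] [Field K] [DecidableEq K] [Algebra S K]
  (W' : WeierstrassCurve S) (C' : WeierstrassCurve.VariableChange S)

/-- If `σ` fixes all `n`-torsion points of the model `W'⁄K`, it fixes all `n`-torsion points of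
`(C' • W')⁄K`. -/
theorem smul_eq_self_to_model (σ : K ≃ₐ[S] K) (n : ℕ)
    (h : ∀ Q : (W'⁄K).toAffine.Point, n • Q = 0 → σ • Q = Q)
    (P : ((C' • W')⁄K).toAffine.Point) (hP : n • P = 0) : σ • P = P := by
  set e := vcBaseChangeEquiv (K := K) W' C' with he
  have h1 : n • e P = 0 := by rw [← map_nsmul, hP, _root_.map_zero]
  have h2 := h (e P) h1
  apply e.injective
  rw [he, vcBaseChangeEquiv_smul]
  exact h2

/-- `GaloisRepUnramifiedAt` transfers from a model `W'` to `C' • W'`. -/
theorem galoisRepUnramifiedAt_smul (n q : ℕ)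
    (h : ∀ A : ValuationSubring K, A.LiesOverPrime q → ∀ σ ∈ A.inertiaSubgroupIn S,
      ∀ T : (W'⁄K).toAffine.Point, n • T = 0 → σ • T = T) :
    GaloisRepUnramifiedAt S K (C' • W').toAffine n q :=
  galoisRepUnramifiedAt_of_forall _ n q fun A hA σ hσ T hT =>
    smul_eq_self_to_model W' C' σ n (h A hA σ hσ) T hT

end Model

/-- The exact conclusion of S05 from a model: if `P.freyCurve = C • W` over `ℚ` and, for every
valuation subring `A` of `Qbar` over `q`, every `σ` in the inertia group of `A` fixes all
`p`-torsion points of `W⁄Qbar`, then the Frey representation is unramified at `q`. -/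
theorem freyPackage_unramifiedAt_of_model (P : FreyPackage) (q : ℕ)
    (W : WeierstrassCurve ℚ) (C : WeierstrassCurve.VariableChange ℚ)
    (hW : P.freyCurve = C • W)
    (h : ∀ A : ValuationSubring (AlgebraicClosure ℚ), A.LiesOverPrime q →
      ∀ σ ∈ A.inertiaSubgroupIn ℚ,
      ∀ T : (W⁄(AlgebraicClosure ℚ)).toAffine.Point, P.p • T = 0 → σ • T = T) :
    P.GaloisRepUnramifiedAt q := by
  unfold FreyPackage.GaloisRepUnramifiedAt
  rw [hW]
  exact galoisRepUnramifiedAt_smul W C P.p q h

end Fermat.Agent.S05
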