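import Fermat.Agent.S05.EndgameFinal
import Fermat.Agent.S05.Components
import Fermat.Agent.S05.QValRat
import Fermat.Agent.S05.RankOne
import Fermat.Agent.S05.Glue

/-!
# S05: proof of the node-shape statement, of `ModelUnramifiedNZ`, and of the S05 statement

* `nodeShape` : `EndgameFinal.NodeShape`, from the component analysis (`Components.lean`) and
  the `ℚ`-valued valuation attached to a valuation subring over `q` (`QValOfSubring`, `QValRat`,
  `RankOne`).
* `modelUnramifiedNZ` : `EndgameFinal.ModelUnramifiedNZ`.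
* `frey_unramified` : the statement of S05.
-/

set_option autoImplicit false

open WeierstrassCurve WeierstrassCurve.Affine WeierstrassCurve.Affine.Point

namespace Fermat.Agent.S05.EndgameFinal

open Fermat.Agent.S05.QVS

/-- the rank-one datum attached to a valuation subring of `Qbar` over the prime `q`. -/
theorem rankOneData_of_liesOver {q : ℕ} (hq : q.Prime)
    (A : ValuationSubring (AlgebraicClosure ℚ)) (hA : A.LiesOverPrime q) :
    RankOneData A ((q : ℕ) : AlgebraicClosure ℚ) :=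
  ⟨Nat.cast_ne_zero.2 hq.ne_zero, hA, RankOne.exists_pow_eq A hq hA⟩

theorem nodeShape : NodeShape := by
  intro α π p q hp hp2 hq hq2 hqp hπ0 hqπ hqα A hA x y h hpT hxm hx0 hbxm
  have R := rankOneData_of_liesOver hq A hA
  have hα0 : α ≠ 0 := by
    rintro rfl
    exact hqα (dvd_zero _)
  have h2dvd : ¬ (q : ℤ) ∣ (2 : ℤ) := by
    intro hd
    have : q ∣ 2 := by exact_mod_cast hd
    exact hq2 ((Nat.prime_dvd_prime_iff_eq hq Nat.prime_two).1 this)
  have hπL : (π : AlgebraicClosure ℚ) ≠ 0 := by exact_mod_cast hπ0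
  have hπp0 : (π : AlgebraicClosure ℚ) ^ p ≠ 0 := pow_ne_zero p hπL
  have hmpos : 0 < padicValInt q π := RankOneData.padicValInt_pos_of_dvd hq hπ0 hqπ
  have hpposQ : (0 : ℚ) < (p : ℚ) := by exact_mod_cast hp.pos
  have D : NodeData R.qval (MW α π p) :=
    { a₁ := MW_a₁ α π p
      a₃ := MW_a₃ α π p
      a₆ := MW_a₆ α π p
      two_ne := two_ne_zero
      v_two := by
        have := R.val_intCast_of_not_dvd hq h2dvd
        simpa using this
      a_ne := by
        rw [MW_a₂]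
        exact_mod_cast hα0
      v_a := by
        rw [MW_a₂]
        exact R.val_intCast_of_not_dvd hq hqα
      b_ne := by
        rw [MW_a₄]
        exact hπp0
      v_b := by
        rw [MW_a₄, R.val_intCast_pow hq hπ0 p]
        have : (0 : ℚ) < (padicValInt q π : ℚ) := by exact_mod_cast hmpos
        positivity }
  have hxA : x ∈ A := A.nonunits_subset hxm
  have h0 : 0 ≤ R.qval.v x := (R.mem_iff hx0).1 hxA
  have hpos : 0 < R.qval.v x := (R.mem_nonunits_iff hx0).1 hxm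
  have hb : R.qval.v (MW α π p).a₄ = (p : ℚ) * (padicValInt q π : ℚ) := by
    rw [MW_a₄]
    exact R.val_intCast_pow hq hπ0 p
  have h1 : R.qval.v x < R.qval.v (MW α π p).a₄ := by
    have := (R.mem_nonunits_iff (div_ne_zero hπp0 hx0)).1 hbxm
    rw [R.qval.map_div hπp0 hx0] at this
    rw [MW_a₄]
    linarith
  obtain ⟨j, hj⟩ := D.torsion_v_x h p hpT hx0 h0 h1.le
  have hvx : R.qval.v x = 2 * (padicValInt q π : ℚ) * (j : ℚ) := by
    rw [hb] at hj
    have : (p : ℚ) * R.qval.v x = (p : ℚ) * (2 * (padicValInt q π : ℚ) * (j : ℚ)) := by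
      rw [hj]; ring
    exact mul_left_cancel₀ hpposQ.ne' this
  -- the exponent
  have hnn : (0 : ℤ) ≤ 2 * (padicValInt q π : ℤ) * j := by
    have h' : (0 : ℚ) ≤ ((2 * (padicValInt q π : ℤ) * j : ℤ) : ℚ) := by
      push_cast
      rw [← hvx]
      exact h0
    exact_mod_cast h'
  obtain ⟨i, hi⟩ := Int.eq_ofNat_of_zero_le hnn
  have hiQ : (i : ℚ) = 2 * (padicValInt q π : ℚ) * (j : ℚ) := by
    have : ((2 * (padicValInt q π : ℤ) * j : ℤ) : ℚ) = ((i : ℤ) : ℚ) := by rw [hi]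
    push_cast at this
    linarith
  have hq0 : ((q : ℕ) : AlgebraicClosure ℚ) ≠ 0 := Nat.cast_ne_zero.2 hq.ne_zero
  have hqi0 : ((q : ℕ) : AlgebraicClosure ℚ) ^ i ≠ 0 := pow_ne_zero i hq0
  have hw0 : x / ((q : ℕ) : AlgebraicClosure ℚ) ^ i ≠ 0 := div_ne_zero hx0 hqi0
  have hvw : R.qval.v (x / ((q : ℕ) : AlgebraicClosure ℚ) ^ i) = 0 := by
    rw [R.qval.map_div hx0 hqi0, R.qval.map_pow hq0, R.qval_c, hvx, hiQ]
    ring
  refine ⟨i, x / ((q : ℕ) : AlgebraicClosure ℚ) ^ i, ?_, ?_, ?_⟩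
  · field_simp
  · exact ((R.val_eq_zero_iff hw0).1 hvw).1
  · have hvwi : R.qval.v (x / ((q : ℕ) : AlgebraicClosure ℚ) ^ i)⁻¹ = 0 := by
      rw [R.qval.map_inv hw0, hvw, _root_.neg_zero]
    exact ((R.val_eq_zero_iff (inv_ne_zero hw0)).1 hvwi).1

/-- Inertia at an odd prime `q ≠ p` acts trivially on the `p`-torsion of the model curve
`y² = x³ + αx² + π^p x` (good case or nodal case, `π ≠ 0`). -/
theorem modelUnramifiedNZ : ModelUnramifiedNZ :=
  modelUnramifiedNZ_of_nodeShape nodeShape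

/-- Step 0 with the extra information `π ≠ 0` (same proof as `frey_model_aux`). -/
theorem frey_model_nz (P : FreyPackage) {q : ℕ} (hq : q.Prime) :
    ∃ (α π : ℤ) (r : ℚ), π ≠ 0 ∧
      P.freyCurve = freyChange r • modelM ℚ (α : ℚ) ((π : ℚ) ^ P.p) ∧
      ((¬ (q : ℤ) ∣ π ∧ ¬ (q : ℤ) ∣ α ^ 2 - 4 * π ^ P.p) ∨ ((q : ℤ) ∣ π ∧ ¬ (q : ℤ) ∣ α)) := by
  have hqZ : Prime (q : ℤ) := Nat.prime_iff_prime_int.mp hq
  have hodd : Odd P.p := P.hp_odd
  by_cases hc : (q : ℤ) ∣ P.c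
  · refine ⟨P.a ^ P.p + P.c ^ P.p, P.a * P.c, -(P.a : ℚ) ^ P.p, mul_ne_zero P.ha0 P.hc0,
      freyCurve_eq_M2 P, Or.inr ⟨?_, ?_⟩⟩
    · exact hc.mul_left _
    · intro h
      have hcp : (q : ℤ) ∣ P.c ^ P.p := dvd_pow hc P.hp0
      have hap : (q : ℤ) ∣ P.a ^ P.p := (dvd_add_left hcp).mp h
      exact not_dvd_both_of_gcd_eq_one hq P.hgcdac (hqZ.dvd_of_dvd_pow hap) hc
  · by_cases hab : (q : ℤ) ∣ P.a * P.b
    · refine ⟨P.b ^ P.p - P.a ^ P.p, -(P.a * P.b), 0,
        neg_ne_zero.2 (mul_ne_zero P.ha0 P.hb0), freyCurve_eq_M1 P, Or.inr ⟨?_, ?_⟩⟩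
      · exact (dvd_neg).mpr hab
      · intro h
        rcases hqZ.dvd_or_dvd hab with ha | hb
        · have hap : (q : ℤ) ∣ P.a ^ P.p := dvd_pow ha P.hp0
          have hbp : (q : ℤ) ∣ P.b ^ P.p := (dvd_sub_left hap).mp h
          exact not_dvd_both_of_gcd_eq_one hq P.hgcdab ha (hqZ.dvd_of_dvd_pow hbp)
        · have hbp : (q : ℤ) ∣ P.b ^ P.p := dvd_pow hb P.hp0
          have hap : (q : ℤ) ∣ P.a ^ P.p := (dvd_sub_right hbp).mp h
          exact not_dvd_both_of_gcd_eq_one hq P.hgcdab (hqZ.dvd_of_dvd_pow hap) hb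
    · refine ⟨P.b ^ P.p - P.a ^ P.p, -(P.a * P.b), 0,
        neg_ne_zero.2 (mul_ne_zero P.ha0 P.hb0), freyCurve_eq_M1 P, Or.inl ⟨?_, ?_⟩⟩
      · rwa [dvd_neg]
      · have hid : (P.b ^ P.p - P.a ^ P.p) ^ 2 - 4 * (-(P.a * P.b)) ^ P.p = (P.c ^ P.p) ^ 2 := by
          rw [hodd.neg_pow, mul_pow, ← P.hFLT]
          ring
        rw [hid]
        intro h
        exact hc (hqZ.dvd_of_dvd_pow (hqZ.dvd_of_dvd_pow h))

/-- **S05**: the mod-`p` representation of the Frey curve is unramified at every prime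
`q ≠ 2, p`. -/
theorem frey_unramified (P : FreyPackage) {q : ℕ} (hq : q.Prime) (hq2 : q ≠ 2)
    (hqp : q ≠ P.p) : P.GaloisRepUnramifiedAt q := by
  obtain ⟨α, π, r, hπ0, hC, hcase⟩ := frey_model_nz P hq
  have hp2 : P.p ≠ 2 := by have := P.hp5; omega
  exact freyPackage_unramifiedAt_of_model P q (modelM ℚ (α : ℚ) ((π : ℚ) ^ P.p)) (freyChange r) hC
    (fun A hA σ hσ T hT =>
      modelUnramifiedNZ α π P.p q P.pp hp2 hq hq2 hqp hπ0 hcase A hA σ hσ T hT)

end Fermat.Agent.S05.EndgameFinal
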