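import Fermat.Agent.S05.XOnly
import Mathlib.RingTheory.Valuation.ValuationSubring

set_option autoImplicit false
set_option linter.unusedSectionVars false

namespace Fermat.Agent.S05.KR

open WeierstrassCurve WeierstrassCurve.Affine

section Field

variable {F : Type*} [Field F] [DecidableEq F] (W : Affine F)

/-- inverse `x`-coordinate, with value `0` at the point at infinity. -/
def zc : W.Point → F
  | .zero => 0
  | .some x _ _ => x⁻¹

@[simp] theorem zc_zero : zc W 0 = 0 := rfl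

@[simp] theorem zc_some {x y : F} (h : W.Nonsingular x y) : zc W (Point.some x y h) = x⁻¹ := rfl

theorem zc_neg (Q : W.Point) : zc W (-Q) = zc W Q := by
  cases Q with
  | zero => rfl
  | some x y h => rfl

/-- the denominator of the `z`-coordinate pair law. -/
def zD (s t : F) : F := 1 - W.b₄ * s * t - W.b₆ * s * t * (s + t) - W.b₈ * s ^ 2 * t ^ 2

/-- the numerator of the sum in the `z`-coordinate pair law. -/
def zN (s t : F) : F := 2 * (s + t) + W.b₂ * s * t + W.b₄ * s * t * (s + t) + W.b₆ * s ^ 2 * t ^ 2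

/-- a point is "`z`-regular" if it is `0` or its `x`-coordinate is nonzero -/
def ZReg (Q : W.Point) : Prop := Q = 0 ∨ zc W Q ≠ 0

theorem zReg_zero : ZReg W 0 := Or.inl rfl

theorem zReg_some {x y : F} (h : W.Nonsingular x y) (hx : x ≠ 0) : ZReg W (Point.some x y h) :=
  Or.inr (by simpa using hx)

theorem zReg_neg {Q : W.Point} (h : ZReg W Q) : ZReg W (-Q) := by
  rcases h with h | h
  · left; rw [h]; simp
  · right; rwa [zc_neg]

theorem double_z {x₁ y₁ : F} (h₁ : W.Nonsingular x₁ y₁) (hx : x₁ ≠ 0)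
    (hD : zD W x₁⁻¹ x₁⁻¹ ≠ 0) :
    ZReg W (Point.some x₁ y₁ h₁ + Point.some x₁ y₁ h₁) ∧
      zc W (Point.some x₁ y₁ h₁ + Point.some x₁ y₁ h₁) * zD W x₁⁻¹ x₁⁻¹ = zN W x₁⁻¹ x₁⁻¹ := by
  have hN : zN W x₁⁻¹ x₁⁻¹ * x₁ ^ 4 = 4 * x₁ ^ 3 + W.b₂ * x₁ ^ 2 + 2 * W.b₄ * x₁ + W.b₆ := by
    simp only [zN]; field_simp; ring
  have hD' : zD W x₁⁻¹ x₁⁻¹ * x₁ ^ 4 = x₁ ^ 4 - W.b₄ * x₁ ^ 2 - 2 * W.b₆ * x₁ - W.b₈ := by
    simp only [zD]; field_simp; ring
  have hx4 : x₁ ^ 4 ≠ 0 := pow_ne_zero 4 hx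
  by_cases hy : y₁ = W.negY x₁ y₁
  · rw [double_eq_zero h₁ hy]
    refine ⟨zReg_zero W, ?_⟩
    have := eta_sq h₁.1
    have hy0 : y₁ - W.negY x₁ y₁ = 0 := sub_eq_zero.2 hy
    rw [hy0] at this
    have h0 : zN W x₁⁻¹ x₁⁻¹ * x₁ ^ 4 = 0 := by rw [hN]; rw [← this]; ring
    have : zN W x₁⁻¹ x₁⁻¹ = 0 := by
      rcases mul_eq_zero.1 h0 with h | h
      · exact h
      · exact absurd h hx4
    simp [this]
  · obtain ⟨x, y, h, he, hid⟩ := exists_double h₁ hy
    rw [he]
    rw [← hN, ← hD'] at hid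
    have hid' : x * zN W x₁⁻¹ x₁⁻¹ = zD W x₁⁻¹ x₁⁻¹ := by
      apply mul_right_cancel₀ hx4
      linear_combination hid
    have hx0 : x ≠ 0 := by
      rintro rfl
      rw [zero_mul] at hid'
      exact hD hid'.symm
    refine ⟨zReg_some W h hx0, ?_⟩
    rw [zc_some, ← hid']
    field_simp

theorem zD_zero_left (t : F) : zD W 0 t = 1 := by simp [zD]

theorem zD_zero_right (s : F) : zD W s 0 = 1 := by simp [zD]

theorem zN_zero_left (t : F) : zN W 0 t = 2 * t := by simp [zN]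

theorem zN_zero_right (s : F) : zN W s 0 = 2 * s := by simp [zN]

/-- **The pair law in the inverse `x`-coordinate**, valid for all pairs of `z`-regular points
(including the point at infinity and the cases `Q = ± R`) as soon as the denominator `zD`
does not vanish. -/
theorem pair_z {Q R : W.Point} (hQ : ZReg W Q) (hR : ZReg W R)
    (hD : zD W (zc W Q) (zc W R) ≠ 0) :
    ZReg W (Q + R) ∧ ZReg W (Q - R) ∧
      zc W (Q + R) * zc W (Q - R) * zD W (zc W Q) (zc W R) = (zc W Q - zc W R) ^ 2 ∧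
      (zc W (Q + R) + zc W (Q - R)) * zD W (zc W Q) (zc W R) = zN W (zc W Q) (zc W R) := by
  cases Q with
  | zero =>
    have e0 : (Point.zero : W.Point) = 0 := rfl
    rw [e0, zero_add, zero_sub, zc_neg, zc_zero, zD_zero_left, zN_zero_left]
    exact ⟨hR, zReg_neg W hR, by ring, by ring⟩
  | some x₁ y₁ h₁ =>
    cases R with
    | zero =>
      have e0 : (Point.zero : W.Point) = 0 := rfl
      rw [e0, add_zero, sub_zero, zc_zero, zD_zero_right, zN_zero_right]
      exact ⟨hQ, hQ, by ring, by ring⟩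
    | some x₂ y₂ h₂ =>
      have hx₁ : x₁ ≠ 0 := by
        rcases hQ with h | h
        · exact absurd h (by simp)
        · simpa using h
      have hx₂ : x₂ ≠ 0 := by
        rcases hR with h | h
        · exact absurd h (by simp)
        · simpa using h
      simp only [zc_some] at hD ⊢
      by_cases hx : x₁ = x₂
      · subst hx
        obtain ⟨hreg, hid⟩ := double_z W h₁ hx₁ hD
        rcases Y_eq_of_X_eq h₁.1 h₂.1 rfl with hy | hy
        · subst hy
          rw [sub_self, zc_zero, mul_zero, zero_mul, sub_self, add_zero]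
          exact ⟨hreg, zReg_zero W, by ring, hid⟩
        · have hR' : Point.some x₁ y₂ h₂ = - Point.some x₁ y₁ h₁ := by
            rw [Point.neg_some]
            congr 1
            rw [hy, negY_negY]
          rw [hR', sub_neg_eq_add, add_neg_cancel, zc_zero, zero_mul, zero_mul, sub_self, zero_add]
          exact ⟨zReg_zero W, hreg, by ring, hid⟩
      · obtain ⟨xp, yp, xm, ym, hp, hm, hadd, hsub, hsum, hprod⟩ := exists_add_sub h₁ h₂ hx
        rw [hadd, hsub]
        simp only [zc_some]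
        have hx12 : x₁ ^ 2 * x₂ ^ 2 ≠ 0 := mul_ne_zero (pow_ne_zero 2 hx₁) (pow_ne_zero 2 hx₂)
        have hD' : zD W x₁⁻¹ x₂⁻¹ * (x₁ ^ 2 * x₂ ^ 2) =
            x₁ ^ 2 * x₂ ^ 2 - W.b₄ * x₁ * x₂ - W.b₆ * (x₁ + x₂) - W.b₈ := by
          simp only [zD]; field_simp; ring
        have hN' : zN W x₁⁻¹ x₂⁻¹ * (x₁ ^ 2 * x₂ ^ 2) =
            2 * x₁ * x₂ * (x₁ + x₂) + W.b₂ * x₁ * x₂ + W.b₄ * (x₁ + x₂) + W.b₆ := by
          simp only [zN]; field_simp; ring
        rw [← hD'] at hprod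
        rw [← hN'] at hsum
        have hxp : xp ≠ 0 := by
          rintro rfl
          rw [zero_mul, zero_mul] at hprod
          exact mul_ne_zero hD hx12 hprod.symm
        have hxm : xm ≠ 0 := by
          rintro rfl
          rw [mul_zero, zero_mul] at hprod
          exact mul_ne_zero hD hx12 hprod.symm
        refine ⟨zReg_some W hp hxp, zReg_some W hm hxm, ?_, ?_⟩
        · have h1 : (x₁⁻¹ - x₂⁻¹) ^ 2 * (x₁ ^ 2 * x₂ ^ 2) = (x₁ - x₂) ^ 2 := by
            field_simp; ring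
          have : xp * xm * (x₁⁻¹ - x₂⁻¹) ^ 2 = zD W x₁⁻¹ x₂⁻¹ := by
            apply mul_right_cancel₀ hx12
            rw [mul_assoc, h1]; exact hprod
          rw [← this]; field_simp
        · have h1 : (x₁⁻¹ - x₂⁻¹) ^ 2 * (x₁ ^ 2 * x₂ ^ 2) = (x₁ - x₂) ^ 2 := by
            field_simp; ring
          have h2 : xp * xm * (x₁⁻¹ - x₂⁻¹) ^ 2 = zD W x₁⁻¹ x₂⁻¹ := by
            apply mul_right_cancel₀ hx12
            rw [mul_assoc, h1]; exact hprod
          have h3 : (xp + xm) * (x₁⁻¹ - x₂⁻¹) ^ 2 = zN W x₁⁻¹ x₂⁻¹ := by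
            apply mul_right_cancel₀ hx12
            rw [mul_assoc, h1]; exact hsum
          rw [← h2, ← h3]; field_simp; ring

end Field

section Val

variable {F : Type*} [Field F] (A : ValuationSubring F)

theorem nu_mul_mem {x y : F} (hx : x ∈ A.nonunits) (hy : y ∈ A) : x * y ∈ A.nonunits := by
  rw [ValuationSubring.mem_nonunits_iff] at hx ⊢
  rw [← ValuationSubring.valuation_le_one_iff] at hy
  rw [map_mul]
  exact mul_lt_one_of_nonneg_of_lt_one_left zero_le hx hy

theorem mem_mul_nu {x y : F} (hx : x ∈ A) (hy : y ∈ A.nonunits) : x * y ∈ A.nonunits := by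
  rw [mul_comm]; exact nu_mul_mem A hy hx

theorem nu_mem {x : F} (hx : x ∈ A.nonunits) : x ∈ A := A.nonunits_subset hx

theorem one_sub_nu_ne_zero {m : F} (hm : m ∈ A.nonunits) : 1 - m ≠ 0 := by
  intro h
  have : m = 1 := by linear_combination -h
  rw [this, ValuationSubring.mem_nonunits_iff, map_one] at hm
  exact lt_irrefl _ hm

theorem one_sub_nu_inv_mem {m : F} (hm : m ∈ A.nonunits) : (1 - m)⁻¹ ∈ A := by
  have hv : A.valuation (1 - m) = 1 := by
    rw [ValuationSubring.mem_nonunits_iff] at hm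
    have := Valuation.map_sub_eq_of_lt_left A.valuation (x := 1) (y := m) (by rwa [map_one])
    rw [this, map_one]
  rw [← ValuationSubring.valuation_le_one_iff, map_inv₀, hv, inv_one]

theorem one_sub_nu_inv_sub_one_mem {m : F} (hm : m ∈ A.nonunits) :
    (1 - m)⁻¹ - 1 ∈ A.nonunits := by
  have h0 := one_sub_nu_ne_zero A hm
  have : (1 - m)⁻¹ - 1 = m * (1 - m)⁻¹ := by field_simp; ring
  rw [this]
  exact nu_mul_mem A hm (one_sub_nu_inv_mem A hm)

theorem both_nu_of_add_mul {s t : F} (hadd : s + t ∈ A.nonunits) (hmul : s * t ∈ A.nonunits) :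
    s ∈ A.nonunits ∧ t ∈ A.nonunits := by
  have key : ∀ s t : F, s + t ∈ A.nonunits → s * t ∈ A.nonunits → s ∈ A.nonunits := by
    intro s t hadd hmul
    rw [ValuationSubring.mem_nonunits_iff] at hadd hmul ⊢
    by_contra hs
    push Not at hs
    rcases lt_or_ge (A.valuation t) 1 with ht | ht
    · have := Valuation.map_add_eq_of_lt_left A.valuation (x := s) (y := t) (lt_of_lt_of_le ht hs)
      rw [this] at hadd
      exact absurd hadd (not_lt.2 hs)
    · rw [map_mul] at hmul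
      have : (1 : A.ValueGroup) ≤ A.valuation s * A.valuation t := one_le_mul_of_one_le_of_one_le hs ht
      exact absurd hmul (not_lt.2 this)
  exact ⟨key s t hadd hmul, key t s (by rwa [add_comm]) (by rwa [mul_comm])⟩

end Val

section KerRed

variable {F : Type*} [Field F] [DecidableEq F] (A : ValuationSubring F) (W : Affine F)

/-- the kernel of reduction, in the inverse `x`-coordinate: the point at infinity together
with the affine points whose `x`-coordinate is not integral. -/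
def KerRed (Q : W.Point) : Prop := ZReg W Q ∧ zc W Q ∈ A.nonunits

theorem kerRed_zero : KerRed A W 0 := ⟨zReg_zero W, by simp⟩

theorem kerRed_some_iff {x y : F} (h : W.Nonsingular x y) :
    KerRed A W (Point.some x y h) ↔ x ∉ A := by
  unfold KerRed
  rw [zc_some, ValuationSubring.inv_mem_nonunits_iff]
  constructor
  · rintro ⟨h1, h2⟩
    rcases h2 with h2 | h2
    · rcases h1 with h1 | h1
      · exact absurd h1 (by simp)
      · rw [zc_some, h2] at h1; simp at h1
    · exact h2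
  · intro hx
    have hx0 : x ≠ 0 := by rintro rfl; exact hx A.zero_mem
    exact ⟨zReg_some W h hx0, Or.inr hx⟩

/-- the kernel of reduction in the usual form. -/
theorem kerRed_iff (Q : W.Point) :
    KerRed A W Q ↔ Q = 0 ∨ ∃ (x y : F) (h : W.Nonsingular x y), Q = Point.some x y h ∧ x ∉ A := by
  cases Q with
  | zero =>
    have e0 : (Point.zero : W.Point) = 0 := rfl
    rw [e0]
    exact ⟨fun _ => Or.inl rfl, fun _ => kerRed_zero A W⟩
  | some x y h =>
    rw [kerRed_some_iff]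
    constructor
    · intro hx; exact Or.inr ⟨x, y, h, rfl, hx⟩
    · rintro (h0 | ⟨x', y', h', he, hx⟩)
      · exact absurd h0 (by simp)
      · cases he; exact hx

theorem kerRed_neg {Q : W.Point} (h : KerRed A W Q) : KerRed A W (-Q) :=
  ⟨zReg_neg W h.1, by rw [zc_neg]; exact h.2⟩

/-- integrality of the `b`-invariants. -/
structure IntegralB : Prop where
  b₂ : W.b₂ ∈ A
  b₄ : W.b₄ ∈ A
  b₆ : W.b₆ ∈ A
  b₈ : W.b₈ ∈ A

theorem integralB_of_a (h₁ : W.a₁ ∈ A) (h₂ : W.a₂ ∈ A) (h₃ : W.a₃ ∈ A) (h₄ : W.a₄ ∈ A)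
    (h₆ : W.a₆ ∈ A) : IntegralB A W := by
  have h2 : (2 : F) ∈ A := by
    have : (2 : F) = 1 + 1 := by norm_num
    rw [this]; exact A.add_mem _ _ A.one_mem A.one_mem
  have h4 : (4 : F) ∈ A := by
    have : (4 : F) = 2 * 2 := by norm_num
    rw [this]; exact A.mul_mem _ _ h2 h2
  refine ⟨?_, ?_, ?_, ?_⟩
  · simp only [WeierstrassCurve.b₂]
    exact A.add_mem _ _ (pow_mem h₁ 2) (A.mul_mem _ _ h4 h₂)
  · simp only [WeierstrassCurve.b₄]
    exact A.add_mem _ _ (A.mul_mem _ _ h2 h₄) (A.mul_mem _ _ h₁ h₃)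
  · simp only [WeierstrassCurve.b₆]
    exact A.add_mem _ _ (pow_mem h₃ 2) (A.mul_mem _ _ h4 h₆)
  · simp only [WeierstrassCurve.b₈]
    refine sub_mem (A.add_mem _ _ (sub_mem (A.add_mem _ _ ?_ ?_) ?_) ?_) ?_
    · exact A.mul_mem _ _ (pow_mem h₁ 2) h₆
    · exact A.mul_mem _ _ (A.mul_mem _ _ h4 h₂) h₆
    · exact A.mul_mem _ _ (A.mul_mem _ _ h₁ h₃) h₄
    · exact A.mul_mem _ _ h₂ (pow_mem h₃ 2)
    · exact pow_mem h₄ 2

variable {A W}

theorem zD_eq_one_sub (hB : IntegralB A W) {s t : F} (hs : s ∈ A) (ht : t ∈ A.nonunits) :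
    ∃ m ∈ A.nonunits, zD W s t = 1 - m := by
  refine ⟨(W.b₄ * s + W.b₆ * s * (s + t) + W.b₈ * s ^ 2 * t) * t, ?_, ?_⟩
  · apply mem_mul_nu A _ ht
    have ht' := nu_mem A ht
    refine A.add_mem _ _ (A.add_mem _ _ (A.mul_mem _ _ hB.b₄ hs) ?_) ?_
    · exact A.mul_mem _ _ (A.mul_mem _ _ hB.b₆ hs) (A.add_mem _ _ hs ht')
    · exact A.mul_mem _ _ (A.mul_mem _ _ hB.b₈ (pow_mem hs 2)) ht'
  · simp only [zD]; ring

/-- **The kernel of reduction is closed under addition and subtraction.** -/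
theorem kerRed_add_sub (hB : IntegralB A W) {Q R : W.Point} (hQ : KerRed A W Q)
    (hR : KerRed A W R) : KerRed A W (Q + R) ∧ KerRed A W (Q - R) := by
  obtain ⟨m, hm, hD⟩ := zD_eq_one_sub hB (nu_mem A hQ.2) hR.2
  have hD0 : zD W (zc W Q) (zc W R) ≠ 0 := by rw [hD]; exact one_sub_nu_ne_zero A hm
  obtain ⟨hp, hm', hprod, hsum⟩ := pair_z W hQ.1 hR.1 hD0
  have hDinv : (zD W (zc W Q) (zc W R))⁻¹ ∈ A := by rw [hD]; exact one_sub_nu_inv_mem A hm
  have hN : zN W (zc W Q) (zc W R) ∈ A.nonunits := by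
    have hs := hQ.2
    have ht := hR.2
    have hs' := nu_mem A hs
    have ht' := nu_mem A ht
    simp only [zN]
    have h2 : (2 : F) ∈ A := by
      have : (2 : F) = 1 + 1 := by norm_num
      rw [this]; exact A.add_mem _ _ A.one_mem A.one_mem
    refine A.nonunits.add_mem (A.nonunits.add_mem (A.nonunits.add_mem ?_ ?_) ?_) ?_
    · exact mem_mul_nu A h2 (A.nonunits.add_mem hs ht)
    · exact mem_mul_nu A (A.mul_mem _ _ hB.b₂ hs') ht
    · exact nu_mul_mem A (mem_mul_nu A (A.mul_mem _ _ hB.b₄ hs') ht) (A.add_mem _ _ hs' ht')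
    · exact mem_mul_nu A (A.mul_mem _ _ hB.b₆ (pow_mem hs' 2)) (by rw [pow_two]; exact A.nonunits.mul_mem ht ht)
  have hadd : zc W (Q + R) + zc W (Q - R) ∈ A.nonunits := by
    have : zc W (Q + R) + zc W (Q - R) =
        zN W (zc W Q) (zc W R) * (zD W (zc W Q) (zc W R))⁻¹ := by
      rw [← hsum]; field_simp
    rw [this]; exact nu_mul_mem A hN hDinv
  have hmul : zc W (Q + R) * zc W (Q - R) ∈ A.nonunits := by
    have : zc W (Q + R) * zc W (Q - R) =
        (zc W Q - zc W R) ^ 2 * (zD W (zc W Q) (zc W R))⁻¹ := by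
      rw [← hprod]; field_simp
    rw [this]
    have hd : zc W Q - zc W R ∈ A.nonunits := A.nonunits.sub_mem hQ.2 hR.2
    rw [pow_two]
    exact nu_mul_mem A (A.nonunits.mul_mem hd hd) hDinv
  obtain ⟨h1, h2⟩ := both_nu_of_add_mul A hadd hmul
  exact ⟨⟨hp, h1⟩, ⟨hm', h2⟩⟩

theorem kerRed_add (hB : IntegralB A W) {Q R : W.Point} (hQ : KerRed A W Q)
    (hR : KerRed A W R) : KerRed A W (Q + R) := (kerRed_add_sub hB hQ hR).1

theorem kerRed_sub (hB : IntegralB A W) {Q R : W.Point} (hQ : KerRed A W Q)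
    (hR : KerRed A W R) : KerRed A W (Q - R) := (kerRed_add_sub hB hQ hR).2

theorem kerRed_nsmul (hB : IntegralB A W) {Q : W.Point} (hQ : KerRed A W Q) (n : ℕ) :
    KerRed A W (n • Q) := by
  induction n with
  | zero => rw [zero_smul]; exact kerRed_zero A W
  | succ k ih => rw [succ_nsmul]; exact kerRed_add hB ih hQ

end KerRed

section Torsion

variable {F : Type*} [Field F] [DecidableEq F] {A : ValuationSubring F} {W : Affine F}

theorem two_mem_vs (A : ValuationSubring F) : (2 : F) ∈ A := by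
  have : (2 : F) = 1 + 1 := by norm_num
  rw [this]; exact A.add_mem _ _ A.one_mem A.one_mem

/-- the inductive step for the congruence `z(jP)/z(P) ≡ j²` modulo the maximal ideal. -/
theorem tors_step (hB : IntegralB A W) {z s₀ s₁ s₂ c₀ c₁ c₂ : F}
    (hz : z ∈ A.nonunits) (hz0 : z ≠ 0)
    (h0 : s₀ / z ∈ A) (h0' : s₀ / z - c₀ ∈ A.nonunits)
    (h1 : s₁ / z ∈ A) (h1' : s₁ / z - c₁ ∈ A.nonunits)
    (hc : c₂ = 2 * c₁ + 2 - c₀)
    (hpair : (s₂ + s₀) * zD W s₁ z = zN W s₁ z) :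
    s₂ / z ∈ A ∧ s₂ / z - c₂ ∈ A.nonunits := by
  set u := s₁ / z with hu
  have hs₁ : s₁ = u * z := by rw [hu]; field_simp
  have hs₁A : s₁ ∈ A := by rw [hs₁]; exact A.mul_mem _ _ h1 (nu_mem A hz)
  obtain ⟨m, hm, hD⟩ := zD_eq_one_sub hB hs₁A hz
  have hD0 : zD W s₁ z ≠ 0 := by rw [hD]; exact one_sub_nu_ne_zero A hm
  set e := (1 - m)⁻¹ - 1 with he
  have heN : e ∈ A.nonunits := one_sub_nu_inv_sub_one_mem A hm
  have hDinv : (zD W s₁ z)⁻¹ = 1 + e := by rw [hD, he]; ring
  have hzA := nu_mem A hz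
  have h2 := two_mem_vs A
  set mN := (W.b₂ * u + W.b₄ * u * (u + 1) * z + W.b₆ * u ^ 2 * z ^ 2) * z with hmN
  have hmNN : mN ∈ A.nonunits := by
    apply mem_mul_nu A _ hz
    refine A.add_mem _ _ (A.add_mem _ _ (A.mul_mem _ _ hB.b₂ h1) ?_) ?_
    · exact A.mul_mem _ _ (A.mul_mem _ _ (A.mul_mem _ _ hB.b₄ h1)
        (A.add_mem _ _ h1 A.one_mem)) hzA
    · exact A.mul_mem _ _ (A.mul_mem _ _ hB.b₆ (pow_mem h1 2)) (pow_mem hzA 2)
  have hN : zN W s₁ z = z * (2 * (u + 1) + mN) := by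
    rw [hs₁, hmN]; simp only [zN]; ring
  have hkey : s₂ / z = (2 * (u + 1) + mN) * (1 + e) - s₀ / z := by
    have h3 : s₂ + s₀ = zN W s₁ z * (zD W s₁ z)⁻¹ := by
      rw [← hpair]; field_simp
    rw [hN, hDinv] at h3
    have : s₂ = z * (2 * (u + 1) + mN) * (1 + e) - s₀ := by linear_combination h3
    rw [this]; field_simp
  have hbr : 2 * (u + 1) + mN ∈ A :=
    A.add_mem _ _ (A.mul_mem _ _ h2 (A.add_mem _ _ h1 A.one_mem)) (nu_mem A hmNN)
  constructor
  · rw [hkey]
    exact sub_mem (A.mul_mem _ _ hbr (A.add_mem _ _ A.one_mem (nu_mem A heN))) h0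
  · have : s₂ / z - c₂ =
        2 * (u - c₁) - (s₀ / z - c₀) + mN + (2 * (u + 1) + mN) * e := by
      rw [hkey, hc]; ring
    rw [this]
    refine A.nonunits.add_mem (A.nonunits.add_mem (A.nonunits.sub_mem ?_ h0') hmNN) ?_
    · exact mem_mul_nu A h2 h1'
    · exact mem_mul_nu A hbr heN

/-- **The kernel of reduction has no `n`-torsion for `n` a unit of the valuation ring.** -/
theorem kerRed_torsion_free (hB : IntegralB A W) {P : W.Point} (hP : KerRed A W P) {n : ℕ}
    (hn : (n : F) ∉ A.nonunits) (hnP : n • P = 0) : P = 0 := by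
  by_contra hP0
  have hz0 : zc W P ≠ 0 := by
    rcases hP.1 with h | h
    · exact absurd h hP0
    · exact h
  have hz := hP.2
  set z := zc W P with hzdef
  have claim : ∀ j : ℕ,
      (zc W (j • P) / z ∈ A ∧ zc W (j • P) / z - (j : F) ^ 2 ∈ A.nonunits) ∧
      (zc W ((j + 1) • P) / z ∈ A ∧ zc W ((j + 1) • P) / z - ((j + 1 : ℕ) : F) ^ 2 ∈ A.nonunits) := by
    intro j
    induction j with
    | zero =>
      refine ⟨⟨?_, ?_⟩, ⟨?_, ?_⟩⟩
      · rw [zero_smul, zc_zero, zero_div]; exact A.zero_mem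
      · rw [zero_smul, zc_zero, zero_div]; simp
      · rw [zero_add, one_smul, ← hzdef, div_self hz0]; exact A.one_mem
      · rw [zero_add, one_smul, ← hzdef, div_self hz0]; simp
    | succ k ih =>
      refine ⟨ih.2, ?_⟩
      have hQ : KerRed A W ((k + 1) • P) := kerRed_nsmul hB hP (k + 1)
      have hs₁A : zc W ((k + 1) • P) ∈ A := nu_mem A hQ.2
      obtain ⟨m, hm, hD⟩ := zD_eq_one_sub hB hs₁A hz
      have hD0 : zD W (zc W ((k + 1) • P)) (zc W P) ≠ 0 := by
        rw [hD]; exact one_sub_nu_ne_zero A hm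
      obtain ⟨-, -, -, hsum⟩ := pair_z W hQ.1 hP.1 hD0
      have e1 : (k + 1) • P + P = (k + 1 + 1) • P := by rw [succ_nsmul P (k + 1)]
      have e2 : (k + 1) • P - P = k • P := by rw [succ_nsmul P k]; abel
      rw [e1, e2] at hsum
      refine tors_step hB hz hz0 ih.1.1 ih.1.2 ih.2.1 ih.2.2 ?_ hsum
      push_cast; ring
  have hcl := (claim n).1.2
  rw [hnP, zc_zero, zero_div, zero_sub] at hcl
  have h2 : ((n : F)) ^ 2 ∈ A.nonunits := by
    have := A.nonunits.neg_mem hcl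
    rwa [neg_neg] at this
  apply hn
  rw [ValuationSubring.mem_nonunits_iff] at h2 ⊢
  by_contra h
  push Not at h
  rw [map_pow] at h2
  exact absurd h2 (not_lt.2 (one_le_pow₀ h))

end Torsion

section Export

variable {F : Type*} [Field F] [DecidableEq F] {A : ValuationSubring F} {W : Affine F}

/-- the kernel of reduction as an additive subgroup of the group of points. -/
def kerRedSubgroup (hB : IntegralB A W) : AddSubgroup W.Point where
  carrier := {Q | KerRed A W Q}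
  zero_mem' := kerRed_zero A W
  add_mem' := fun hQ hR => kerRed_add hB hQ hR
  neg_mem' := fun hQ => kerRed_neg A W hQ

theorem mem_kerRedSubgroup (hB : IntegralB A W) (Q : W.Point) :
    Q ∈ kerRedSubgroup hB ↔ KerRed A W Q := Iff.rfl

/-- **No `n`-torsion in the kernel of reduction**, membership form: a point `T` with `n • T = 0`
which is `0` or has non-integral `x`-coordinate is `0`, when `n` is a unit of `A`. -/
theorem eq_zero_of_nsmul_eq_zero_of_x_notMem (hB : IntegralB A W) {n : ℕ}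
    (hn : (n : F) ∉ A.nonunits) (T : W.Point) (hT : n • T = 0)
    (h : T = 0 ∨ ∃ (x y : F) (h : W.Nonsingular x y), T = Point.some x y h ∧ x ∉ A) : T = 0 :=
  kerRed_torsion_free hB ((kerRed_iff A W T).2 h) hn hT

/-- a torsion point of order prime to the residue characteristic has integral `x`-coordinate -/
theorem x_mem_of_nsmul_eq_zero (hB : IntegralB A W) {n : ℕ} (hn : (n : F) ∉ A.nonunits)
    {x y : F} (h : W.Nonsingular x y) (hT : n • Point.some x y h = 0) : x ∈ A := by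
  by_contra hx
  have := eq_zero_of_nsmul_eq_zero_of_x_notMem hB hn _ hT (Or.inr ⟨x, y, h, rfl, hx⟩)
  exact absurd this (by simp)

end Export

section YIntegral

variable {F : Type*} [Field F] {A : ValuationSubring F} {W : Affine F}

/-- on a Weierstrass curve with integral coefficients, an integral `x`-coordinate forces an
integral `y`-coordinate. -/
theorem y_mem_of_x_mem (h₁ : W.a₁ ∈ A) (h₂ : W.a₂ ∈ A) (h₃ : W.a₃ ∈ A) (h₄ : W.a₄ ∈ A)
    (h₆ : W.a₆ ∈ A) {x y : F} (h : W.Equation x y) (hx : x ∈ A) : y ∈ A := by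
  by_contra hy
  have hy0 : y ≠ 0 := by rintro rfl; exact hy A.zero_mem
  have hyi : y⁻¹ ∈ A.nonunits := (ValuationSubring.inv_mem_nonunits_iff A).2 (Or.inr hy)
  rw [equation_iff] at h
  have h1 : (1 : F) = (-(W.a₁ * x) - W.a₃ +
      (x ^ 3 + W.a₂ * x ^ 2 + W.a₄ * x + W.a₆) * y⁻¹) * y⁻¹ := by
    field_simp
    linear_combination h
  have hmem : (-(W.a₁ * x) - W.a₃ +
      (x ^ 3 + W.a₂ * x ^ 2 + W.a₄ * x + W.a₆) * y⁻¹) ∈ A := by
    refine A.add_mem _ _ (sub_mem (neg_mem (A.mul_mem _ _ h₁ hx)) h₃) (A.mul_mem _ _ ?_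
      (A.nonunits_subset hyi))
    exact A.add_mem _ _ (A.add_mem _ _ (A.add_mem _ _ (pow_mem hx 3)
      (A.mul_mem _ _ h₂ (pow_mem hx 2))) (A.mul_mem _ _ h₄ hx)) h₆
  have h1' : (1 : F) ∈ A.nonunits := by
    rw [h1]; exact mem_mul_nu A hmem hyi
  rw [ValuationSubring.mem_nonunits_iff, map_one] at h1'
  exact lt_irrefl _ h1'

end YIntegral

end Fermat.Agent.S05.KR
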