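import Mathlib
import Fermat.Agent.S05.Inertia

/-!
# Two integral points with the same nonsingular reduction differ by a point of the kernel of
reduction (piece G2 / I2 of the S05 plan)

`K` a field, `A` a valuation subring of `K`, `W` a Weierstrass curve over `K` with coefficients in
`A`.  If `P = (x₁, y₁)` and `Q = (x₂, y₂)` are two points with coordinates in `A` which are
congruent modulo the maximal ideal, and the common reduction is a nonsingular point of the reduced
cubic, then `P - Q` is either `0` or an affine point whose `x`-coordinate is not in `A`.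
-/

set_option autoImplicit false

namespace Fermat.Agent.S05

open WeierstrassCurve

namespace SameRed

section ValSub

variable {K : Type*} [Field K] (A : ValuationSubring K)

theorem nu_mem {x : K} (hx : x ∈ A.nonunits) : x ∈ A :=
  A.nonunits_subset hx

theorem nu_add {x y : K} (hx : x ∈ A.nonunits) (hy : y ∈ A.nonunits) : x + y ∈ A.nonunits := by
  rw [ValuationSubring.mem_nonunits_iff] at hx hy ⊢
  exact lt_of_le_of_lt (Valuation.map_add _ _ _) (max_lt hx hy)

theorem nu_neg {x : K} (hx : x ∈ A.nonunits) : -x ∈ A.nonunits := by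
  rw [ValuationSubring.mem_nonunits_iff] at hx ⊢
  rwa [Valuation.map_neg]

theorem nu_sub {x y : K} (hx : x ∈ A.nonunits) (hy : y ∈ A.nonunits) : x - y ∈ A.nonunits := by
  rw [sub_eq_add_neg]
  exact nu_add A hx (nu_neg A hy)

theorem nu_mul_left {x y : K} (hx : x ∈ A.nonunits) (hy : y ∈ A) : x * y ∈ A.nonunits := by
  rw [ValuationSubring.mem_nonunits_iff] at hx ⊢
  rw [map_mul]
  exact mul_lt_one_of_nonneg_of_lt_one_left zero_le hx
    ((ValuationSubring.valuation_le_one_iff A _).2 hy)

theorem nu_mul_right {x y : K} (hx : x ∈ A) (hy : y ∈ A.nonunits) : x * y ∈ A.nonunits := by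
  rw [mul_comm]
  exact nu_mul_left A hy hx

theorem nu_zero : (0 : K) ∈ A.nonunits := by
  rw [ValuationSubring.mem_nonunits_iff, map_zero]
  exact zero_lt_one

/-- Congruent elements are simultaneously units. -/
theorem notMem_nu_of_sub {x y : K} (hx : x ∉ A.nonunits) (hxy : x - y ∈ A.nonunits) :
    y ∉ A.nonunits := by
  intro hy
  apply hx
  have := nu_add A hxy hy
  rwa [sub_add_cancel] at this

/-- A quotient `unit / nonunit` is not integral. -/
theorem div_notMem {n d : K} (hn : n ∉ A.nonunits) (hd : d ∈ A.nonunits) (hd0 : d ≠ 0) :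
    n / d ∉ A := by
  intro h
  apply hn
  have := nu_mul_right A h hd
  rwa [div_mul_cancel₀ _ hd0] at this

/-- If `ℓ` is not integral, then neither is `ℓ² + c₁ ℓ - c₂` for integral `c₁, c₂`. -/
theorem quad_notMem {ℓ c₁ c₂ : K} (hℓ : ℓ ∉ A) (h₁ : c₁ ∈ A) (h₂ : c₂ ∈ A) :
    ℓ ^ 2 + c₁ * ℓ - c₂ ∉ A := by
  intro h
  apply hℓ
  have hℓ0 : ℓ ≠ 0 := by
    rintro rfl
    exact hℓ A.zero_mem
  have hinv : ℓ⁻¹ ∈ A := (A.mem_or_inv_mem ℓ).resolve_left hℓ
  have : ℓ = (ℓ ^ 2 + c₁ * ℓ - c₂ + c₂) * ℓ⁻¹ - c₁ := by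
    field_simp
    ring
  rw [this]
  exact sub_mem (mul_mem (add_mem h h₂) hinv) h₁

end ValSub

theorem addX_eq {K : Type*} [Field K] (W : WeierstrassCurve K) (x₁ x₂ ℓ : K) :
    W.toAffine.addX x₁ x₂ ℓ = ℓ ^ 2 + W.a₁ * ℓ - (W.a₂ + x₁ + x₂) := by
  simp only [Affine.addX]
  ring

end SameRed

section Main

variable {K : Type*} [Field K] (A : ValuationSubring K)

/-- The coefficients of the Weierstrass curve `W` lie in the valuation subring `A`. -/
structure IntegralCoeffs (W : WeierstrassCurve K) : Prop where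
  a₁ : W.a₁ ∈ A
  a₂ : W.a₂ ∈ A
  a₃ : W.a₃ ∈ A
  a₄ : W.a₄ ∈ A
  a₆ : W.a₆ ∈ A

/-- The reduction of the integral point `(x, y)` is a nonsingular point of the reduced cubic:
one of the two partial derivatives of the Weierstrass polynomial at `(x, y)` is a unit. -/
def NonsingularRed (W : WeierstrassCurve K) (x y : K) : Prop :=
  W.a₁ * y - (3 * x ^ 2 + 2 * W.a₂ * x + W.a₄) ∉ A.nonunits ∨
    2 * y + W.a₁ * x + W.a₃ ∉ A.nonunits

variable {A}
variable [DecidableEq K] {W : WeierstrassCurve K}

open SameRed in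
/-- **Same reduction lemma**.  Two integral points congruent modulo the maximal ideal whose common
reduction is nonsingular differ by `0` or by a point with non-integral `x`-coordinate. -/
theorem sub_eq_zero_or_x_notMem (hW : IntegralCoeffs A W) {x₁ y₁ x₂ y₂ : K}
    (h₁ : W.toAffine.Nonsingular x₁ y₁) (h₂ : W.toAffine.Nonsingular x₂ y₂)
    (hx₁ : x₁ ∈ A) (hx₂ : x₂ ∈ A)
    (hx : x₁ - x₂ ∈ A.nonunits) (hy : y₁ - y₂ ∈ A.nonunits)
    (hns : NonsingularRed A W x₁ y₁) :
    Affine.Point.some x₁ y₁ h₁ - Affine.Point.some x₂ y₂ h₂ = 0 ∨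
      ∃ (x y : K) (h : W.toAffine.Nonsingular x y),
        Affine.Point.some x₁ y₁ h₁ - Affine.Point.some x₂ y₂ h₂ = Affine.Point.some x y h ∧
          x ∉ A := by
  have e₁ := (Affine.equation_iff (W := W.toAffine) x₁ y₁).1 h₁.1
  have e₂ := (Affine.equation_iff (W := W.toAffine) x₂ y₂).1 h₂.1
  have ha₁ := hW.a₁
  have ha₂ := hW.a₂
  have ha₃ := hW.a₃
  have ha₄ := hW.a₄
  -- `Wy` is congruent to `y₁ - y₂' `, where `y₂'` is the `y`-coordinate of `-Q`
  have hc : W.a₂ + x₁ + x₂ ∈ A := add_mem (add_mem ha₂ hx₁) hx₂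
  have hD : (y₁ - y₂) + W.a₁ * (x₁ - x₂) ∈ A.nonunits :=
    nu_add A hy (nu_mul_right A ha₁ hx)
  rw [sub_eq_add_neg, Affine.Point.neg_some]
  by_cases hxe : x₁ = x₂
  · by_cases hye : y₁ = W.toAffine.negY x₂ (W.toAffine.negY x₂ y₂)
    · left
      exact Affine.Point.add_of_Y_eq hxe hye
    · right
      rw [Affine.Point.add_of_Y_ne hye]
      refine ⟨_, _, _, rfl, ?_⟩
      have hy₁' : y₁ = W.toAffine.negY x₂ y₂ :=
        Affine.Y_eq_of_Y_ne h₁.1 ((Affine.equation_neg x₂ y₂).2 h₂.1) hxe hye
      rw [Affine.slope_of_Y_ne hxe hye]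
      have hden : y₁ - W.toAffine.negY x₁ y₁ = y₁ - y₂ := by
        rw [hy₁', hxe]
        simp only [Affine.negY]
        ring
      have hden0 : y₁ - W.toAffine.negY x₁ y₁ ≠ 0 := by
        rw [sub_ne_zero]
        intro h
        apply hye
        rw [← hy₁', ← hxe, ← h]
      have hWy : 2 * y₁ + W.a₁ * x₁ + W.a₃ ∈ A.nonunits := by
        have : 2 * y₁ + W.a₁ * x₁ + W.a₃ = y₁ - W.toAffine.negY x₁ y₁ := by
          simp only [Affine.negY]
          ring
        rw [this, hden]
        exact hy
      have hWx : W.a₁ * y₁ - (3 * x₁ ^ 2 + 2 * W.a₂ * x₁ + W.a₄) ∉ A.nonunits :=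
        hns.resolve_right (not_not.2 hWy)
      have hnum : 3 * x₁ ^ 2 + 2 * W.a₂ * x₁ + W.a₄ - W.a₁ * y₁ ∉ A.nonunits := by
        intro h
        apply hWx
        have := nu_neg A h
        rwa [neg_sub] at this
      have hℓ := div_notMem A hnum (hden ▸ hy) hden0
      have := quad_notMem A hℓ ha₁ hc
      rwa [addX_eq]
  · right
    rw [Affine.Point.add_of_X_ne hxe]
    refine ⟨_, _, _, rfl, ?_⟩
    rw [Affine.slope_of_X_ne hxe]
    have hx0 : x₁ - x₂ ≠ 0 := sub_ne_zero.2 hxe
    have hℓ : (y₁ - W.toAffine.negY x₂ y₂) / (x₁ - x₂) ∉ A := by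
      by_cases hWy : 2 * y₁ + W.a₁ * x₁ + W.a₃ ∈ A.nonunits
      · -- use the alternative expression for the slope
        have hWx : W.a₁ * y₁ - (3 * x₁ ^ 2 + 2 * W.a₂ * x₁ + W.a₄) ∉ A.nonunits :=
          hns.resolve_right (not_not.2 hWy)
        set N : K := x₁ ^ 2 + x₁ * x₂ + x₂ ^ 2 + W.a₂ * (x₁ + x₂) + W.a₄ +
          W.a₁ * (y₂ + W.a₁ * x₂ + W.a₃) with hN
        set D : K := (y₁ - y₂) + W.a₁ * (x₁ - x₂) with hDdef
        have hkey : (y₁ - W.toAffine.negY x₂ y₂) * D = (x₁ - x₂) * N := by
          simp only [Affine.negY, hN, hDdef]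
          linear_combination e₁ - e₂
        have hNn : N ∉ A.nonunits := by
          -- `N + Wx ∈ nonunits`
          have h1 : N + (W.a₁ * y₁ - (3 * x₁ ^ 2 + 2 * W.a₂ * x₁ + W.a₄)) ∈ A.nonunits := by
            have : N + (W.a₁ * y₁ - (3 * x₁ ^ 2 + 2 * W.a₂ * x₁ + W.a₄)) =
                W.a₁ * (2 * y₁ + W.a₁ * x₁ + W.a₃) - W.a₁ * D
                  - (x₁ - x₂) * (2 * x₁ + x₂ + W.a₂) := by
              simp only [hN, hDdef]
              ring
            rw [this]
            refine nu_sub A (nu_sub A (nu_mul_right A ha₁ hWy) (nu_mul_right A ha₁ hD)) ?_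
            exact nu_mul_left A hx (add_mem (add_mem (mul_mem (ofNat_mem A 2) hx₁) hx₂) ha₂)
          intro hNn
          apply hWx
          have := nu_sub A h1 hNn
          rwa [add_sub_cancel_left] at this
        have hD0 : D ≠ 0 := by
          intro h0
          rw [h0, mul_zero] at hkey
          rcases mul_eq_zero.1 hkey.symm with h | h
          · exact hx0 h
          · exact hNn (h ▸ nu_zero A)
        have : (y₁ - W.toAffine.negY x₂ y₂) / (x₁ - x₂) = N / D := by
          rw [div_eq_div_iff hx0 hD0]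
          linear_combination hkey
        rw [this]
        exact div_notMem A hNn hD hD0
      · -- the numerator is congruent to `Wy`, hence a unit
        refine div_notMem A ?_ hx hx0
        refine notMem_nu_of_sub A hWy ?_
        have : 2 * y₁ + W.a₁ * x₁ + W.a₃ - (y₁ - W.toAffine.negY x₂ y₂) =
            (y₁ - y₂) + W.a₁ * (x₁ - x₂) := by
          simp only [Affine.negY]
          ring
        rw [this]
        exact hD
    have := quad_notMem A hℓ ha₁ hc
    rwa [addX_eq]

/-- The kernel of reduction `E₁ = {O} ∪ {(x, y) | x ∉ A}` as a predicate on points. -/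
def InKerRed (A : ValuationSubring K) {W : WeierstrassCurve K} : W.toAffine.Point → Prop
  | .zero => True
  | .some x _ _ => x ∉ A

omit [DecidableEq K] in
@[simp] theorem inKerRed_zero : InKerRed A (0 : W.toAffine.Point) := trivial

omit [DecidableEq K] in
@[simp] theorem inKerRed_some {x y : K} (h : W.toAffine.Nonsingular x y) :
    InKerRed A (Affine.Point.some x y h) ↔ x ∉ A := Iff.rfl

omit [DecidableEq K] in
theorem inKerRed_iff (P : W.toAffine.Point) :
    InKerRed A P ↔ P = 0 ∨ ∃ (x y : K) (h : W.toAffine.Nonsingular x y),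
      P = Affine.Point.some x y h ∧ x ∉ A := by
  rcases P with _ | ⟨x, y, h⟩
  · exact ⟨fun _ => Or.inl rfl, fun _ => trivial⟩
  · constructor
    · intro hx
      exact Or.inr ⟨x, y, h, rfl, hx⟩
    · rintro (h0 | ⟨x', y', h', he, hx'⟩)
      · exact absurd h0 (by simp [Affine.Point.zero_def])
      · cases he
        exact hx'

omit [DecidableEq K] in
theorem inKerRed_neg (P : W.toAffine.Point) : InKerRed A (-P) ↔ InKerRed A P := by
  rcases P with _ | ⟨x, y, h⟩
  · exact Iff.rfl
  · exact Iff.rfl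

/-- **Same reduction lemma**, in terms of the predicate `InKerRed`. -/
theorem inKerRed_sub (hW : IntegralCoeffs A W) {x₁ y₁ x₂ y₂ : K}
    (h₁ : W.toAffine.Nonsingular x₁ y₁) (h₂ : W.toAffine.Nonsingular x₂ y₂)
    (hx₁ : x₁ ∈ A) (hx₂ : x₂ ∈ A)
    (hx : x₁ - x₂ ∈ A.nonunits) (hy : y₁ - y₂ ∈ A.nonunits)
    (hns : NonsingularRed A W x₁ y₁) :
    InKerRed A (Affine.Point.some x₁ y₁ h₁ - Affine.Point.some x₂ y₂ h₂) :=
  (inKerRed_iff _).2 (sub_eq_zero_or_x_notMem hW h₁ h₂ hx₁ hx₂ hx hy hns)

end Main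

/-! ### The model `M(a, b) : y² = x³ + a x² + b x` -/

section Model

variable {K : Type*} [Field K] {A : ValuationSubring K}

open SameRed

/-- Node case: `b` in the maximal ideal, `2` a unit; an integral point of `M(a,b)` whose
`x`-coordinate is a unit has nonsingular reduction (the only singular point of the reduced curve
is the node `(0, 0)`). -/
theorem nonsingularRed_of_x_unit {a b : K} (hb : b ∈ A.nonunits)
    (h2 : (2 : K) ∉ A.nonunits) {x y : K}
    (h : (⟨0, a, 0, b, 0⟩ : WeierstrassCurve K).toAffine.Equation x y)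
    (hx : x ∈ A) (hxu : x ∉ A.nonunits) :
    NonsingularRed A (⟨0, a, 0, b, 0⟩ : WeierstrassCurve K) x y := by
  rw [Affine.equation_iff] at h
  simp only [zero_mul, add_zero] at h
  unfold NonsingularRed
  simp only [zero_mul, add_zero, zero_sub]
  by_cases hy : 2 * y ∈ A.nonunits
  · left
    intro hWx
    have h2A : (2 : K) ∈ A := ofNat_mem A 2
    have h2inv : (2 : K)⁻¹ ∈ A := by
      by_contra hcon
      exact h2 ((mem_nonunits_iff_inv_notMem (by
        rintro h0
        exact h2 (h0 ▸ nu_zero A))).2 hcon)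
    have hyn : y ∈ A.nonunits := by
      have := nu_mul_right A h2inv hy
      rwa [← mul_assoc, inv_mul_cancel₀ (by
        rintro h0
        exact h2 (h0 ▸ nu_zero A)), one_mul] at this
    -- `x * (x + a) ∈ m`
    have h1 : x * (x * (x + a)) ∈ A.nonunits := by
      have : x * (x * (x + a)) = y * y - b * x := by linear_combination -h
      rw [this]
      exact nu_sub A (nu_mul_left A hyn (nu_mem A hyn)) (nu_mul_left A hb hx)
    have hxinv : x⁻¹ ∈ A := by
      by_contra hcon
      have hx0 : x ≠ 0 := by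
        rintro rfl
        exact hxu (nu_zero A)
      exact hxu ((mem_nonunits_iff_inv_notMem hx0).2 hcon)
    have hx0 : x ≠ 0 := by
      rintro rfl
      exact hxu (nu_zero A)
    have h3 : x + a ∈ A.nonunits := by
      have := nu_mul_right A (mul_mem hxinv hxinv) h1
      have e : x⁻¹ * x⁻¹ * (x * (x * (x + a))) = x + a := by
        field_simp
      rwa [e] at this
    -- `3x² + 2ax + b = x² + 2x(x+a) + b`
    have h4 : x * x ∈ A.nonunits := by
      have : x * x = -(-(3 * x ^ 2 + 2 * a * x + b)) - 2 * x * (x + a) - b := by ring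
      rw [this]
      exact nu_sub A (nu_sub A (nu_neg A hWx)
        (nu_mul_right A (mul_mem h2A hx) h3)) hb
    have := nu_mul_right A hxinv h4
    rw [← mul_assoc, inv_mul_cancel₀ hx0, one_mul] at this
    exact hxu this
  · right
    exact hy

/-- Good reduction case: `b` and `a² - 4b` units, `2` a unit; every integral point of `M(a,b)` has
nonsingular reduction. -/
theorem nonsingularRed_of_disc_unit {a b : K} (ha : a ∈ A)
    (hbu : b ∉ A.nonunits) (hdu : a ^ 2 - 4 * b ∉ A.nonunits)
    (h2 : (2 : K) ∉ A.nonunits) {x y : K}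
    (h : (⟨0, a, 0, b, 0⟩ : WeierstrassCurve K).toAffine.Equation x y)
    (hx : x ∈ A) :
    NonsingularRed A (⟨0, a, 0, b, 0⟩ : WeierstrassCurve K) x y := by
  rw [Affine.equation_iff] at h
  simp only [zero_mul, add_zero] at h
  unfold NonsingularRed
  simp only [zero_mul, add_zero, zero_sub]
  by_cases hy : 2 * y ∈ A.nonunits
  · left
    intro hWx
    have h20 : (2 : K) ≠ 0 := by
      rintro h0
      exact h2 (h0 ▸ nu_zero A)
    have h2A : (2 : K) ∈ A := ofNat_mem A 2
    have h2inv : (2 : K)⁻¹ ∈ A := by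
      by_contra hcon
      exact h2 ((mem_nonunits_iff_inv_notMem h20).2 hcon)
    have hyn : y ∈ A.nonunits := by
      have := nu_mul_right A h2inv hy
      rwa [← mul_assoc, inv_mul_cancel₀ h20, one_mul] at this
    have hf' : 3 * x ^ 2 + 2 * a * x + b ∈ A.nonunits := by
      have := nu_neg A hWx
      rwa [neg_neg] at this
    -- `f(x) = x (x² + a x + b) ∈ m`
    have hf : x * (x ^ 2 + a * x + b) ∈ A.nonunits := by
      have : x * (x ^ 2 + a * x + b) = y * y := by linear_combination -h
      rw [this]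
      exact nu_mul_left A hyn (nu_mem A hyn)
    by_cases hxu : x ∈ A.nonunits
    · -- then `f'(x) ≡ b`
      apply hbu
      have : b = (3 * x ^ 2 + 2 * a * x + b) - x * (3 * x + 2 * a) := by ring
      rw [this]
      exact nu_sub A hf' (nu_mul_left A hxu
        (add_mem (mul_mem (ofNat_mem A 3) hx) (mul_mem h2A ha)))
    · -- `x` is a unit, so `g(x) = x² + a x + b ∈ m`, and `g'(x)² ≡ a² - 4b`
      have hx0 : x ≠ 0 := by
        rintro rfl
        exact hxu (nu_zero A)
      have hxinv : x⁻¹ ∈ A := by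
        by_contra hcon
        exact hxu ((mem_nonunits_iff_inv_notMem hx0).2 hcon)
      have hg : x ^ 2 + a * x + b ∈ A.nonunits := by
        have := nu_mul_right A hxinv hf
        rwa [← mul_assoc, inv_mul_cancel₀ hx0, one_mul] at this
      -- `x * g'(x) = f'(x) - g(x) ∈ m`, so `g'(x) ∈ m`
      have hg' : 2 * x + a ∈ A.nonunits := by
        have h1 : x * (2 * x + a) ∈ A.nonunits := by
          have : x * (2 * x + a) = (3 * x ^ 2 + 2 * a * x + b) - (x ^ 2 + a * x + b) := by ring
          rw [this]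
          exact nu_sub A hf' hg
        have := nu_mul_right A hxinv h1
        rwa [← mul_assoc, inv_mul_cancel₀ hx0, one_mul] at this
      apply hdu
      have : a ^ 2 - 4 * b = (2 * x + a) * (2 * x + a) - 4 * (x ^ 2 + a * x + b) := by ring
      rw [this]
      exact nu_sub A (nu_mul_left A hg' (nu_mem A hg')) (nu_mul_right A (ofNat_mem A 4) hg)
  · right
    exact hy

end Model

/-! ### Application to the inertia group -/

section Galois

open WeierstrassCurve.Affine WeierstrassCurve.Affine.Point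

variable {R : Type*} {S : Type*} {K : Type*} [CommRing R] [Field S] [Field K]
  [DecidableEq K] [Algebra R S] [Algebra R K] [Algebra S K] [IsScalarTower R S K]

/-- If `σ` moves the coordinates of the integral point `P = (x, y)` (with nonsingular reduction)
only within their residue classes, then `σ • P - P` lies in the kernel of reduction. -/
theorem inKerRed_smul_sub_of_congr {A : ValuationSubring K} (W' : Affine R)
    (hW : IntegralCoeffs A (W'.baseChange K)) (σ : K ≃ₐ[S] K) {x y : K}
    (h : (W'⁄K).Nonsingular x y) (hx : x ∈ A) (hσx : σ x ∈ A)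
    (hσx' : σ x - x ∈ A.nonunits) (hσy' : σ y - y ∈ A.nonunits)
    (hns : NonsingularRed A (W'.baseChange K) x y) :
    InKerRed A (σ • (Point.some x y h : (W'⁄K).Point) - Point.some x y h) := by
  have hns' : NonsingularRed A (W'.baseChange K) (σ x) (σ y) := by
    unfold NonsingularRed at hns ⊢
    have ha₁ := hW.a₁
    have ha₂ := hW.a₂
    have hy2 : σ y - y ∈ A := SameRed.nu_mem A hσy'
    rcases hns with hns | hns
    · left
      intro hcon
      apply hns
      have e : (W'.baseChange K).a₁ * y - (3 * x ^ 2 + 2 * (W'.baseChange K).a₂ * x +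
          (W'.baseChange K).a₄) =
          ((W'.baseChange K).a₁ * σ y - (3 * σ x ^ 2 + 2 * (W'.baseChange K).a₂ * σ x +
          (W'.baseChange K).a₄)) - (W'.baseChange K).a₁ * (σ y - y)
          + (σ x - x) * (3 * (σ x + x) + 2 * (W'.baseChange K).a₂) := by ring
      rw [e]
      refine SameRed.nu_add A (SameRed.nu_sub A hcon (SameRed.nu_mul_right A ha₁ hσy')) ?_
      exact SameRed.nu_mul_left A hσx' (add_mem (mul_mem (ofNat_mem A 3) (add_mem hσx hx))
        (mul_mem (ofNat_mem A 2) ha₂))
    · right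
      intro hcon
      apply hns
      have e : 2 * y + (W'.baseChange K).a₁ * x + (W'.baseChange K).a₃ =
          (2 * σ y + (W'.baseChange K).a₁ * σ x + (W'.baseChange K).a₃) - 2 * (σ y - y)
            - (W'.baseChange K).a₁ * (σ x - x) := by ring
      rw [e]
      exact SameRed.nu_sub A (SameRed.nu_sub A hcon
        (SameRed.nu_mul_right A (ofNat_mem A 2) hσy')) (SameRed.nu_mul_right A ha₁ hσx')
  exact inKerRed_sub hW _ h hσx hx hσx' hσy' hns'

/-- The kernel of reduction is stable under the decomposition group (in particular under the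
inertia group). -/
theorem inKerRed_smul_iff {A : ValuationSubring K} (W' : Affine R) {σ : K ≃ₐ[S] K}
    (hσ : ∀ x : K, σ x ∈ A ↔ x ∈ A) (P : (W'⁄K).Point) :
    InKerRed A (σ • P) ↔ InKerRed A P := by
  rcases P with _ | ⟨x, y, h⟩
  · exact Iff.rfl
  · exact not_congr (hσ x)

/-- For `σ` in the inertia group of `A` and `P = (x, y)` an integral point with nonsingular
reduction, `σ • P - P` lies in the kernel of reduction. -/
theorem inKerRed_smul_sub_of_mem_inertia {A : ValuationSubring K} (W' : Affine R)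
    (hW : IntegralCoeffs A (W'.baseChange K)) {σ : K ≃ₐ[S] K}
    (hσ : σ ∈ A.inertiaSubgroupIn S) {x y : K}
    (h : (W'⁄K).Nonsingular x y) (hx : x ∈ A) (hy : y ∈ A)
    (hns : NonsingularRed A (W'.baseChange K) x y) :
    InKerRed A (σ • (Point.some x y h : (W'⁄K).Point) - Point.some x y h) :=
  inKerRed_smul_sub_of_congr W' hW σ h hx
    ((apply_mem_iff_of_mem_inertiaSubgroupIn hσ x).2 hx)
    (apply_sub_mem_nonunits_of_mem_inertiaSubgroupIn hσ hx)
    (apply_sub_mem_nonunits_of_mem_inertiaSubgroupIn hσ hy) hns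

end Galois

end Fermat.Agent.S05
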