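import Mathlib.AlgebraicGeometry.EllipticCurve.Affine.Point

set_option autoImplicit false

namespace Fermat.Agent.S05

open WeierstrassCurve WeierstrassCurve.Affine

section Field

variable {F : Type*} [Field F] {W : Affine F}

/-- `x`-only sum formula, polynomial form (denominators cleared). -/
theorem xonly_sum_aux {x₁ y₁ x₂ y₂ : F} (h₁ : W.Equation x₁ y₁) (h₂ : W.Equation x₂ y₂) :
    ((y₁ - y₂) ^ 2 + W.a₁ * (y₁ - y₂) * (x₁ - x₂) - (W.a₂ + x₁ + x₂) * (x₁ - x₂) ^ 2) +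
      ((y₁ - W.negY x₂ y₂) ^ 2 + W.a₁ * (y₁ - W.negY x₂ y₂) * (x₁ - x₂)
        - (W.a₂ + x₁ + x₂) * (x₁ - x₂) ^ 2) =
    2 * x₁ * x₂ * (x₁ + x₂) + W.b₂ * x₁ * x₂ + W.b₄ * (x₁ + x₂) + W.b₆ := by
  rw [equation_iff] at h₁ h₂
  simp only [negY, b₂, b₄, b₆]
  linear_combination 2 * h₁ + 2 * h₂

/-- `x`-only product formula, polynomial form (denominators cleared). -/
theorem xonly_prod_aux {x₁ y₁ x₂ y₂ : F} (h₁ : W.Equation x₁ y₁) (h₂ : W.Equation x₂ y₂) :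
    ((y₁ - y₂) ^ 2 + W.a₁ * (y₁ - y₂) * (x₁ - x₂) - (W.a₂ + x₁ + x₂) * (x₁ - x₂) ^ 2) *
      ((y₁ - W.negY x₂ y₂) ^ 2 + W.a₁ * (y₁ - W.negY x₂ y₂) * (x₁ - x₂)
        - (W.a₂ + x₁ + x₂) * (x₁ - x₂) ^ 2) =
    (x₁ ^ 2 * x₂ ^ 2 - W.b₄ * x₁ * x₂ - W.b₆ * (x₁ + x₂) - W.b₈) * (x₁ - x₂) ^ 2 := by
  rw [equation_iff] at h₁ h₂
  simp only [negY, b₄, b₆, b₈]
  linear_combination
    (-x₁^3 + 2*x₁^2*x₂ - x₁^2*W.a₂ + x₁*y₁*W.a₁ + 2*x₁*x₂^2 + x₁*x₂*W.a₁^2 + 4*x₁*x₂*W.a₂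
      + x₁*W.a₁*W.a₃ + x₁*W.a₄ + y₁^2 + y₁*W.a₃ - 2*x₂^3 - x₂^2*W.a₁^2 - 2*x₂^2*W.a₂
      - 2*x₂*y₂*W.a₁ - x₂*W.a₁*W.a₃ - 2*y₂^2 - 2*y₂*W.a₃ + W.a₆) * h₁ +
    (-4*x₁^3 + 2*x₁^2*x₂ - x₁^2*W.a₁^2 - 4*x₁^2*W.a₂ + 2*x₁*x₂^2 + x₁*x₂*W.a₁^2 + 4*x₁*x₂*W.a₂
      - x₁*W.a₁*W.a₃ - 2*x₁*W.a₄ - x₂^3 - x₂^2*W.a₂ + x₂*y₂*W.a₁ + x₂*W.a₁*W.a₃ + x₂*W.a₄
      + y₂^2 + y₂*W.a₃ - W.a₆) * h₂

/-- `(2y + a₁x + a₃)² = 4x³ + b₂x² + 2b₄x + b₆` on the curve. -/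
theorem eta_sq {x₁ y₁ : F} (h₁ : W.Equation x₁ y₁) :
    (y₁ - W.negY x₁ y₁) ^ 2 = 4 * x₁ ^ 3 + W.b₂ * x₁ ^ 2 + 2 * W.b₄ * x₁ + W.b₆ := by
  rw [equation_iff] at h₁
  simp only [negY, b₂, b₄, b₆]
  linear_combination 4 * h₁

/-- duplication formula, polynomial form. -/
theorem xonly_dup_aux {x₁ y₁ : F} (h₁ : W.Equation x₁ y₁) :
    (3 * x₁ ^ 2 + 2 * W.a₂ * x₁ + W.a₄ - W.a₁ * y₁) ^ 2
      + W.a₁ * (3 * x₁ ^ 2 + 2 * W.a₂ * x₁ + W.a₄ - W.a₁ * y₁) * (y₁ - W.negY x₁ y₁)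
      - (W.a₂ + 2 * x₁) * (y₁ - W.negY x₁ y₁) ^ 2 =
    x₁ ^ 4 - W.b₄ * x₁ ^ 2 - 2 * W.b₆ * x₁ - W.b₈ := by
  rw [equation_iff] at h₁
  simp only [negY, b₄, b₆, b₈]
  linear_combination (-8 * x₁ - W.a₁ ^ 2 - 4 * W.a₂) * h₁

variable [DecidableEq F]

theorem addX_slope_mul_sq {x₁ x₂ : F} (y₁ y₂ : F) (hx : x₁ ≠ x₂) :
    W.addX x₁ x₂ (W.slope x₁ x₂ y₁ y₂) * (x₁ - x₂) ^ 2 =
      (y₁ - y₂) ^ 2 + W.a₁ * (y₁ - y₂) * (x₁ - x₂) - (W.a₂ + x₁ + x₂) * (x₁ - x₂) ^ 2 := by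
  have hd : x₁ - x₂ ≠ 0 := sub_ne_zero.mpr hx
  rw [slope_of_X_ne hx, addX]
  field_simp
  ring

/-- **The `x`-only addition/subtraction formulas.** For affine points `P = (x₁,y₁)`,
`Q = (x₂,y₂)` with `x₁ ≠ x₂`, both `P + Q` and `P - Q` are affine, and their `x`-coordinates
`xp`, `xm` satisfy the classical symmetric identities. -/
theorem exists_add_sub {x₁ y₁ x₂ y₂ : F} (h₁ : W.Nonsingular x₁ y₁) (h₂ : W.Nonsingular x₂ y₂)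
    (hx : x₁ ≠ x₂) :
    ∃ (xp yp xm ym : F) (hp : W.Nonsingular xp yp) (hm : W.Nonsingular xm ym),
      Point.some x₁ y₁ h₁ + Point.some x₂ y₂ h₂ = Point.some xp yp hp ∧
      Point.some x₁ y₁ h₁ - Point.some x₂ y₂ h₂ = Point.some xm ym hm ∧
      (xp + xm) * (x₁ - x₂) ^ 2 =
        2 * x₁ * x₂ * (x₁ + x₂) + W.b₂ * x₁ * x₂ + W.b₄ * (x₁ + x₂) + W.b₆ ∧
      xp * xm * (x₁ - x₂) ^ 2 =
        x₁ ^ 2 * x₂ ^ 2 - W.b₄ * x₁ * x₂ - W.b₆ * (x₁ + x₂) - W.b₈ := by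
  have h₂' : W.Nonsingular x₂ (W.negY x₂ y₂) := (nonsingular_neg ..).mpr h₂
  refine ⟨_, _, _, _, nonsingular_add h₁ h₂ fun hxy => hx hxy.left,
    nonsingular_add h₁ h₂' fun hxy => hx hxy.left, Point.add_of_X_ne hx, ?_, ?_, ?_⟩
  · rw [sub_eq_add_neg, Point.neg_some, Point.add_of_X_ne hx]
  · rw [add_mul, addX_slope_mul_sq y₁ y₂ hx, addX_slope_mul_sq y₁ (W.negY x₂ y₂) hx]
    exact xonly_sum_aux h₁.1 h₂.1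
  · have hd : (x₁ - x₂) ^ 2 ≠ 0 := pow_ne_zero 2 (sub_ne_zero.mpr hx)
    apply mul_right_cancel₀ hd
    have := xonly_prod_aux h₁.1 h₂.1
    rw [← addX_slope_mul_sq y₁ y₂ hx, ← addX_slope_mul_sq y₁ (W.negY x₂ y₂) hx] at this
    linear_combination this

/-- **Duplication formula** (`x`-coordinate) for a point which is not `2`-torsion. -/
theorem exists_double {x₁ y₁ : F} (h₁ : W.Nonsingular x₁ y₁) (hy : y₁ ≠ W.negY x₁ y₁) :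
    ∃ (x y : F) (h : W.Nonsingular x y),
      Point.some x₁ y₁ h₁ + Point.some x₁ y₁ h₁ = Point.some x y h ∧
      x * (4 * x₁ ^ 3 + W.b₂ * x₁ ^ 2 + 2 * W.b₄ * x₁ + W.b₆) =
        x₁ ^ 4 - W.b₄ * x₁ ^ 2 - 2 * W.b₆ * x₁ - W.b₈ := by
  refine ⟨_, _, nonsingular_add h₁ h₁ fun hxy => hy hxy.right, Point.add_self_of_Y_ne hy, ?_⟩
  have hd : y₁ - W.negY x₁ y₁ ≠ 0 := sub_ne_zero.mpr hy
  rw [← eta_sq h₁.1, ← xonly_dup_aux h₁.1, slope_of_Y_ne rfl hy, addX]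
  field_simp
  ring

/-- A point with `y = negY` is `2`-torsion. -/
theorem double_eq_zero {x₁ y₁ : F} (h₁ : W.Nonsingular x₁ y₁) (hy : y₁ = W.negY x₁ y₁) :
    Point.some x₁ y₁ h₁ + Point.some x₁ y₁ h₁ = 0 :=
  Point.add_self_of_Y_eq hy

end Field

end Fermat.Agent.S05
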