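import Mathlib
import Fermat.Agent.S05.SameRed
import Fermat.Agent.S05.XOnly

/-!
# The kernel of reduction has no torsion prime to the residue characteristic (x-only proof)

`K` a field, `A` a valuation subring, `W : y² = x³ + a x² + b x` (`a₁ = a₃ = a₆ = 0`) with
`a, b ∈ A` and `2 ≠ 0`.  With `τ(P) = 1 / x(P)` (`τ(O) = 0`), for `P, Q` in the kernel of
reduction `E₁ = {O} ∪ {x ∉ A}`:

* `τ(P+Q) τ(P-Q) (1 - b τP τQ)² = (τP - τQ)²`,
* `(τ(P+Q) + τ(P-Q)) (1 - b τP τQ)² = 2 (1 + b τP τQ)(τP + τQ) + 4 a τP τQ`,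

uniformly (also when `P = ± Q` or one of them is `O`).  Hence `E₁` is a subgroup, and
`τ(jP) = u_j τ(P)` with `u_j ∈ A`, `u_j ≡ j² mod m_A`; so `nP = O` forces `n ∈ m_A`.
-/

set_option autoImplicit false

namespace Fermat.Agent.S05.KerTors

open WeierstrassCurve Fermat.Agent.S05.SameRed

section Basic

variable {K : Type*} [Field K] (A : ValuationSubring K)

theorem one_add_notMem_nu {e : K} (he : e ∈ A.nonunits) : 1 + e ∉ A.nonunits := by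
  intro h
  have h1 : (1 : K) ∈ A.nonunits := by
    have := nu_sub A h he
    rwa [add_sub_cancel_right] at this
  rw [ValuationSubring.mem_nonunits_iff, map_one] at h1
  exact lt_irrefl _ h1

theorem one_add_ne_zero {e : K} (he : e ∈ A.nonunits) : 1 + e ≠ 0 := by
  intro h
  exact one_add_notMem_nu A he (h ▸ nu_zero A)

theorem inv_mem_of_notMem_nu {x : K} (_hx : x ∈ A) (hxu : x ∉ A.nonunits) : x⁻¹ ∈ A := by
  by_contra h
  apply hxu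
  rw [ValuationSubring.mem_nonunits_iff_or]
  exact Or.inr h

theorem inv_mem_nu_of_notMem {x : K} (hx : x ∉ A) : x⁻¹ ∈ A.nonunits := by
  rw [ValuationSubring.inv_mem_nonunits_iff]
  exact Or.inr hx

theorem notMem_of_inv_mem_nu {x : K} (hx0 : x ≠ 0) (hx : x⁻¹ ∈ A.nonunits) : x ∉ A := by
  rw [ValuationSubring.inv_mem_nonunits_iff] at hx
  exact hx.resolve_left hx0

/-- A root of `T² - s T + m` with `s, m ∈ m_A` lies in `m_A`. -/
theorem root_mem_nu {t s m : K} (hs : s ∈ A.nonunits) (hm : m ∈ A.nonunits)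
    (h : t ^ 2 = s * t - m) : t ∈ A.nonunits := by
  have htA : t ∈ A := by
    by_contra ht
    have ht0 : t ≠ 0 := by
      rintro rfl
      exact ht A.zero_mem
    have hinv : t⁻¹ ∈ A := (A.mem_or_inv_mem t).resolve_left ht
    apply ht
    have : t = s - m * t⁻¹ := by
      field_simp
      linear_combination h
    rw [this]
    exact sub_mem (nu_mem A hs) (mul_mem (nu_mem A hm) hinv)
  by_contra htu
  have hinv : t⁻¹ ∈ A := inv_mem_of_notMem_nu A htA htu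
  have ht0 : t ≠ 0 := by
    rintro rfl
    exact htu (nu_zero A)
  have : t = s - m * t⁻¹ := by
    field_simp
    linear_combination h
  apply htu
  rw [this]
  exact nu_sub A hs (nu_mul_left A hm hinv)

theorem mem_nu_of_sq_mem_nu {x : K} (h : x ^ 2 ∈ A.nonunits) : x ∈ A.nonunits := by
  rw [ValuationSubring.mem_nonunits_iff] at h ⊢
  rw [map_pow] at h
  exact (pow_lt_one_iff_of_nonneg zero_le two_ne_zero).mp h

end Basic

section Curve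

variable {K : Type*} [Field K] (A : ValuationSubring K) {W : WeierstrassCurve K}

/-- The standing hypotheses: `W : y² = x³ + a x² + b x` with `a, b ∈ A` and `2 ≠ 0`. -/
structure Hyp (W : WeierstrassCurve K) : Prop where
  h1 : W.a₁ = 0
  h3 : W.a₃ = 0
  h6 : W.a₆ = 0
  ha : W.a₂ ∈ A
  hb : W.a₄ ∈ A
  h2 : (2 : K) ≠ 0

/-- `τ(P) = 1 / x(P)`, `τ(O) = 0`. -/
def tau : W.toAffine.Point → K
  | .zero => 0
  | .some x _ _ => x⁻¹

@[simp] theorem tau_zero : tau (0 : W.toAffine.Point) = 0 := rfl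

@[simp] theorem tau_some {x y : K} (h : W.toAffine.Nonsingular x y) :
    tau (Affine.Point.some x y h) = x⁻¹ := rfl

theorem tau_neg (P : W.toAffine.Point) : tau (-P) = tau P := by
  rcases P with _ | ⟨x, y, h⟩
  · rfl
  · rfl

variable {A}

theorem tau_mem_nu {P : W.toAffine.Point} (hP : InKerRed A P) : tau P ∈ A.nonunits := by
  rcases P with _ | ⟨x, y, h⟩
  · exact nu_zero A
  · exact inv_mem_nu_of_notMem A hP

theorem tau_ne_zero {P : W.toAffine.Point} (hP : InKerRed A P) (h0 : P ≠ 0) : tau P ≠ 0 := by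
  rcases P with _ | ⟨x, y, h⟩
  · exact absurd rfl h0
  · have hx : x ∉ A := hP
    have hx0 : x ≠ 0 := by
      rintro rfl
      exact hx A.zero_mem
    exact inv_ne_zero hx0

theorem Hyp.b₂ (H : Hyp A W) : W.b₂ = 4 * W.a₂ := by
  simp [WeierstrassCurve.b₂, H.h1]

theorem Hyp.b₄ (H : Hyp A W) : W.b₄ = 2 * W.a₄ := by
  simp [WeierstrassCurve.b₄, H.h1, H.h3]

theorem Hyp.b₆ (H : Hyp A W) : W.b₆ = 0 := by
  simp [WeierstrassCurve.b₆, H.h3, H.h6]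

theorem Hyp.b₈ (H : Hyp A W) : W.b₈ = -W.a₄ ^ 2 := by
  simp [WeierstrassCurve.b₈, H.h1, H.h3, H.h6]

theorem Hyp.equation (H : Hyp A W) {x y : K} (h : W.toAffine.Equation x y) :
    y ^ 2 = x ^ 3 + W.a₂ * x ^ 2 + W.a₄ * x := by
  have := (Affine.equation_iff (W := W.toAffine) x y).1 h
  rw [H.h1, H.h3, H.h6] at this
  linear_combination this

/-- `1 - b t₁ t₂` is a unit for `t₁, t₂ ∈ m_A`. -/
theorem Hyp.E_props (H : Hyp A W) {t₁ t₂ : K} (h₁ : t₁ ∈ A.nonunits) (h₂ : t₂ ∈ A.nonunits) :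
    1 - W.a₄ * t₁ * t₂ ≠ 0 ∧ 1 - W.a₄ * t₁ * t₂ ∈ A ∧ (1 - W.a₄ * t₁ * t₂)⁻¹ ∈ A := by
  have he : -(W.a₄ * t₁ * t₂) ∈ A.nonunits :=
    nu_neg A (nu_mul_right A (mul_mem H.hb (nu_mem A h₁)) h₂)
  have h0 : 1 - W.a₄ * t₁ * t₂ = 1 + -(W.a₄ * t₁ * t₂) := by ring
  rw [h0]
  exact ⟨one_add_ne_zero A he, add_mem A.one_mem (nu_mem A he),
    inv_mem_of_notMem_nu A (add_mem A.one_mem (nu_mem A he)) (one_add_notMem_nu A he)⟩

end Curve

section Law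

variable {K : Type*} [Field K] [DecidableEq K] {A : ValuationSubring K} {W : WeierstrassCurve K}

omit [DecidableEq K] in
/-- A point of `E₁` is not `2`-torsion. -/
theorem Hyp.y_ne_negY (H : Hyp A W) {x y : K} (h : W.toAffine.Nonsingular x y) (hx : x ∉ A) :
    y ≠ W.toAffine.negY x y := by
  intro hy
  have hx0 : x ≠ 0 := by
    rintro rfl
    exact hx A.zero_mem
  have ht : x⁻¹ ∈ A.nonunits := inv_mem_nu_of_notMem A hx
  rw [Affine.negY, H.h1, H.h3] at hy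
  have hy0 : y = 0 := by
    have h2y : 2 * y = 0 := by linear_combination hy
    rcases mul_eq_zero.mp h2y with h2 | h2
    · exact absurd h2 H.h2
    · exact h2
  have heq := H.equation h.1
  rw [hy0] at heq
  have he : W.a₂ * x⁻¹ + W.a₄ * x⁻¹ ^ 2 ∈ A.nonunits :=
    nu_add A (nu_mul_right A H.ha ht) (nu_mul_right A H.hb (by
      rw [pow_two]; exact nu_mul_left A ht (nu_mem A ht)))
  apply one_add_ne_zero A he
  have h3 : x ^ 2 * (1 + (W.a₂ * x⁻¹ + W.a₄ * x⁻¹ ^ 2)) = x ^ 2 + W.a₂ * x + W.a₄ := by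
    field_simp
    ring
  have h4 : x * (x ^ 2 + W.a₂ * x + W.a₄) = 0 := by linear_combination -heq
  rcases mul_eq_zero.mp h4 with h5 | h5
  · exact absurd h5 hx0
  · rw [h5] at h3
    rcases mul_eq_zero.mp h3 with h6 | h6
    · exact absurd (pow_eq_zero_iff two_ne_zero |>.mp h6) hx0
    · exact h6

/-- Doubling in `E₁`. -/
theorem Hyp.double (H : Hyp A W) {x y : K} (h : W.toAffine.Nonsingular x y) (hx : x ∉ A) :
    InKerRed A (Affine.Point.some x y h + Affine.Point.some x y h) ∧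
      tau (Affine.Point.some x y h + Affine.Point.some x y h) * (1 - W.a₄ * x⁻¹ * x⁻¹) ^ 2 =
        4 * x⁻¹ * (1 + W.a₂ * x⁻¹ + W.a₄ * x⁻¹ * x⁻¹) := by
  have hx0 : x ≠ 0 := by
    rintro rfl
    exact hx A.zero_mem
  have ht : x⁻¹ ∈ A.nonunits := inv_mem_nu_of_notMem A hx
  obtain ⟨hE0, hEA, hEinv⟩ := H.E_props ht ht
  obtain ⟨x', y', h', hsum, hid⟩ := exists_double h (H.y_ne_negY h hx)
  rw [H.b₂, H.b₄, H.b₆, H.b₈] at hid
  have hnum : x ^ 2 - W.a₄ ≠ 0 := by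
    intro h0
    apply hE0
    field_simp
    linear_combination h0
  have hx'0 : x' ≠ 0 := by
    rintro rfl
    apply hnum
    have : (x ^ 2 - W.a₄) ^ 2 = 0 := by linear_combination -hid
    exact pow_eq_zero_iff (two_ne_zero) |>.mp this
  have hid2 : x'⁻¹ * (1 - W.a₄ * x⁻¹ * x⁻¹) ^ 2 =
      4 * x⁻¹ * (1 + W.a₂ * x⁻¹ + W.a₄ * x⁻¹ * x⁻¹) := by
    field_simp
    linear_combination -hid
  rw [hsum]
  refine ⟨?_, hid2⟩
  rw [inKerRed_some]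
  apply notMem_of_inv_mem_nu A hx'0
  have : x'⁻¹ = 4 * x⁻¹ * (1 + W.a₂ * x⁻¹ + W.a₄ * x⁻¹ * x⁻¹) *
      ((1 - W.a₄ * x⁻¹ * x⁻¹)⁻¹) ^ 2 := by
    rw [← hid2]
    field_simp
  rw [this]
  have h4 : (4 : K) ∈ A := by
    have : (4 : K) = ((4 : ℕ) : K) := by norm_num
    rw [this]
    exact natCast_mem A 4
  have h1 : 1 + W.a₂ * x⁻¹ + W.a₄ * x⁻¹ * x⁻¹ ∈ A :=
    add_mem (add_mem A.one_mem (mul_mem H.ha (nu_mem A ht)))
      (mul_mem (mul_mem H.hb (nu_mem A ht)) (nu_mem A ht))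
  exact nu_mul_left A (nu_mul_left A (nu_mul_right A h4 ht) h1) (pow_mem hEinv 2)

/-- The chord case of the pair law in `E₁`. -/
theorem Hyp.chord (H : Hyp A W) {x₁ y₁ x₂ y₂ : K} (h₁ : W.toAffine.Nonsingular x₁ y₁)
    (h₂ : W.toAffine.Nonsingular x₂ y₂) (hx₁ : x₁ ∉ A) (hx₂ : x₂ ∉ A) (hne : x₁ ≠ x₂) :
    InKerRed A (Affine.Point.some x₁ y₁ h₁ + Affine.Point.some x₂ y₂ h₂) ∧
    InKerRed A (Affine.Point.some x₁ y₁ h₁ - Affine.Point.some x₂ y₂ h₂) ∧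
    tau (Affine.Point.some x₁ y₁ h₁ + Affine.Point.some x₂ y₂ h₂) *
      tau (Affine.Point.some x₁ y₁ h₁ - Affine.Point.some x₂ y₂ h₂) *
        (1 - W.a₄ * x₁⁻¹ * x₂⁻¹) ^ 2 = (x₁⁻¹ - x₂⁻¹) ^ 2 ∧
    (tau (Affine.Point.some x₁ y₁ h₁ + Affine.Point.some x₂ y₂ h₂) +
      tau (Affine.Point.some x₁ y₁ h₁ - Affine.Point.some x₂ y₂ h₂)) *
        (1 - W.a₄ * x₁⁻¹ * x₂⁻¹) ^ 2 =
      2 * (1 + W.a₄ * x₁⁻¹ * x₂⁻¹) * (x₁⁻¹ + x₂⁻¹) + 4 * W.a₂ * x₁⁻¹ * x₂⁻¹ := by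
  have hx₁0 : x₁ ≠ 0 := by
    rintro rfl
    exact hx₁ A.zero_mem
  have hx₂0 : x₂ ≠ 0 := by
    rintro rfl
    exact hx₂ A.zero_mem
  have ht₁ : x₁⁻¹ ∈ A.nonunits := inv_mem_nu_of_notMem A hx₁
  have ht₂ : x₂⁻¹ ∈ A.nonunits := inv_mem_nu_of_notMem A hx₂
  obtain ⟨hE0, hEA, hEinv⟩ := H.E_props ht₁ ht₂
  obtain ⟨xp, yp, xm, ym, hp, hm, hadd, hsub, hS, hP⟩ := exists_add_sub h₁ h₂ hne
  rw [H.b₂, H.b₄, H.b₆] at hS
  rw [H.b₄, H.b₆, H.b₈] at hP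
  have hnum : x₁ * x₂ - W.a₄ ≠ 0 := by
    intro h0
    apply hE0
    field_simp
    linear_combination h0
  have hprod0 : xp * xm ≠ 0 := by
    intro h0
    apply hnum
    have : (x₁ * x₂ - W.a₄) ^ 2 = 0 := by
      have h3 := hP
      rw [h0] at h3
      linear_combination -h3
    exact pow_eq_zero_iff (two_ne_zero) |>.mp this
  have hxp0 : xp ≠ 0 := left_ne_zero_of_mul hprod0
  have hxm0 : xm ≠ 0 := right_ne_zero_of_mul hprod0
  have hd0 : x₁ - x₂ ≠ 0 := sub_ne_zero.mpr hne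
  -- the two identities in `t = 1/x`
  have hU1 : xp⁻¹ * xm⁻¹ * (1 - W.a₄ * x₁⁻¹ * x₂⁻¹) ^ 2 = (x₁⁻¹ - x₂⁻¹) ^ 2 := by
    field_simp
    linear_combination -hP
  have hU2 : (xp⁻¹ + xm⁻¹) * (1 - W.a₄ * x₁⁻¹ * x₂⁻¹) ^ 2 =
      2 * (1 + W.a₄ * x₁⁻¹ * x₂⁻¹) * (x₁⁻¹ + x₂⁻¹) + 4 * W.a₂ * x₁⁻¹ * x₂⁻¹ := by
    have h5 : (xp⁻¹ + xm⁻¹) * (xp * xm) = xp + xm := by
      field_simp
      ring
    have h6 : (x₁ * x₂) ^ 2 * (1 - W.a₄ * x₁⁻¹ * x₂⁻¹) ^ 2 = (x₁ * x₂ - W.a₄) ^ 2 := by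
      field_simp
    have h7 : (x₁ * x₂) ^ 2 * (2 * (1 + W.a₄ * x₁⁻¹ * x₂⁻¹) * (x₁⁻¹ + x₂⁻¹)
        + 4 * W.a₂ * x₁⁻¹ * x₂⁻¹) =
        2 * (x₁ * x₂ + W.a₄) * (x₁ + x₂) + 4 * W.a₂ * (x₁ * x₂) := by
      field_simp
      ring
    have hc : (x₁ * x₂) ^ 2 * (xp * xm) * (x₁ - x₂) ^ 2 ≠ 0 :=
      mul_ne_zero (mul_ne_zero (pow_ne_zero 2 (mul_ne_zero hx₁0 hx₂0)) hprod0)
        (pow_ne_zero 2 hd0)
    apply mul_left_cancel₀ hc
    have e1 : (x₁ * x₂) ^ 2 * (xp * xm) * (x₁ - x₂) ^ 2 *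
        ((xp⁻¹ + xm⁻¹) * (1 - W.a₄ * x₁⁻¹ * x₂⁻¹) ^ 2) =
        ((xp⁻¹ + xm⁻¹) * (xp * xm)) * (x₁ - x₂) ^ 2 *
          ((x₁ * x₂) ^ 2 * (1 - W.a₄ * x₁⁻¹ * x₂⁻¹) ^ 2) := by ring
    have e2 : (x₁ * x₂) ^ 2 * (xp * xm) * (x₁ - x₂) ^ 2 *
        (2 * (1 + W.a₄ * x₁⁻¹ * x₂⁻¹) * (x₁⁻¹ + x₂⁻¹) + 4 * W.a₂ * x₁⁻¹ * x₂⁻¹) =
        (xp * xm * (x₁ - x₂) ^ 2) * ((x₁ * x₂) ^ 2 * (2 * (1 + W.a₄ * x₁⁻¹ * x₂⁻¹) *
          (x₁⁻¹ + x₂⁻¹) + 4 * W.a₂ * x₁⁻¹ * x₂⁻¹)) := by ring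
    rw [e1, e2, h5, h6, h7, hS, hP]
    ring
  -- membership
  have hEinv2 : ((1 - W.a₄ * x₁⁻¹ * x₂⁻¹)⁻¹) ^ 2 ∈ A := pow_mem hEinv 2
  have hE20 : (1 - W.a₄ * x₁⁻¹ * x₂⁻¹) ^ 2 ≠ 0 := pow_ne_zero 2 hE0
  have h2A : (2 : K) ∈ A := by
    have : (2 : K) = ((2 : ℕ) : K) := by norm_num
    rw [this]
    exact natCast_mem A 2
  have h4A : (4 : K) ∈ A := by
    have : (4 : K) = ((4 : ℕ) : K) := by norm_num
    rw [this]
    exact natCast_mem A 4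
  set s : K := (2 * (1 + W.a₄ * x₁⁻¹ * x₂⁻¹) * (x₁⁻¹ + x₂⁻¹) + 4 * W.a₂ * x₁⁻¹ * x₂⁻¹) *
    ((1 - W.a₄ * x₁⁻¹ * x₂⁻¹)⁻¹) ^ 2 with hs
  set m : K := (x₁⁻¹ - x₂⁻¹) ^ 2 * ((1 - W.a₄ * x₁⁻¹ * x₂⁻¹)⁻¹) ^ 2 with hm'
  have hsum : xp⁻¹ + xm⁻¹ = s := by
    rw [hs, ← hU2]
    field_simp
  have hprod : xp⁻¹ * xm⁻¹ = m := by
    rw [hm', ← hU1]
    field_simp
  have hsnu : s ∈ A.nonunits := by
    rw [hs]
    refine nu_mul_left A (nu_add A ?_ ?_) hEinv2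
    · exact nu_mul_right A (mul_mem h2A (add_mem A.one_mem
        (mul_mem (mul_mem H.hb (nu_mem A ht₁)) (nu_mem A ht₂)))) (nu_add A ht₁ ht₂)
    · exact nu_mul_right A (mul_mem (mul_mem h4A H.ha) (nu_mem A ht₁)) ht₂
  have hmnu : m ∈ A.nonunits := by
    rw [hm', pow_two (x₁⁻¹ - x₂⁻¹)]
    exact nu_mul_left A (nu_mul_left A (nu_sub A ht₁ ht₂) (nu_mem A (nu_sub A ht₁ ht₂))) hEinv2
  have hp_nu : xp⁻¹ ∈ A.nonunits := by
    apply root_mem_nu A hsnu hmnu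
    rw [← hsum, ← hprod]
    ring
  have hm_nu : xm⁻¹ ∈ A.nonunits := by
    apply root_mem_nu A hsnu hmnu
    rw [← hsum, ← hprod]
    ring
  rw [hadd, hsub]
  exact ⟨notMem_of_inv_mem_nu A hxp0 hp_nu, notMem_of_inv_mem_nu A hxm0 hm_nu, hU1, hU2⟩

/-- **The uniform pair law in `E₁`.** -/
theorem Hyp.pair (H : Hyp A W) (P Q : W.toAffine.Point) (hP : InKerRed A P)
    (hQ : InKerRed A Q) :
    InKerRed A (P + Q) ∧ InKerRed A (P - Q) ∧
    tau (P + Q) * tau (P - Q) * (1 - W.a₄ * tau P * tau Q) ^ 2 = (tau P - tau Q) ^ 2 ∧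
    (tau (P + Q) + tau (P - Q)) * (1 - W.a₄ * tau P * tau Q) ^ 2 =
      2 * (1 + W.a₄ * tau P * tau Q) * (tau P + tau Q) + 4 * W.a₂ * tau P * tau Q := by
  rcases P with _ | ⟨x₁, y₁, h₁⟩
  · -- `P = O`
    change InKerRed A (0 + Q) ∧ InKerRed A (0 - Q) ∧
      tau (0 + Q) * tau (0 - Q) * (1 - W.a₄ * tau (0 : W.toAffine.Point) * tau Q) ^ 2 =
        (tau (0 : W.toAffine.Point) - tau Q) ^ 2 ∧
      (tau (0 + Q) + tau (0 - Q)) * (1 - W.a₄ * tau (0 : W.toAffine.Point) * tau Q) ^ 2 =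
        2 * (1 + W.a₄ * tau (0 : W.toAffine.Point) * tau Q) *
          (tau (0 : W.toAffine.Point) + tau Q) + 4 * W.a₂ * tau (0 : W.toAffine.Point) * tau Q
    rw [zero_add, zero_sub, tau_neg, tau_zero]
    refine ⟨hQ, (inKerRed_neg Q).mpr hQ, by ring, by ring⟩
  rcases Q with _ | ⟨x₂, y₂, h₂⟩
  · -- `Q = O`
    change InKerRed A (Affine.Point.some x₁ y₁ h₁ + 0) ∧
      InKerRed A (Affine.Point.some x₁ y₁ h₁ - 0) ∧
      tau (Affine.Point.some x₁ y₁ h₁ + 0) * tau (Affine.Point.some x₁ y₁ h₁ - 0) *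
        (1 - W.a₄ * tau (Affine.Point.some x₁ y₁ h₁) * tau (0 : W.toAffine.Point)) ^ 2 =
        (tau (Affine.Point.some x₁ y₁ h₁) - tau (0 : W.toAffine.Point)) ^ 2 ∧
      (tau (Affine.Point.some x₁ y₁ h₁ + 0) + tau (Affine.Point.some x₁ y₁ h₁ - 0)) *
        (1 - W.a₄ * tau (Affine.Point.some x₁ y₁ h₁) * tau (0 : W.toAffine.Point)) ^ 2 =
        2 * (1 + W.a₄ * tau (Affine.Point.some x₁ y₁ h₁) * tau (0 : W.toAffine.Point)) *
          (tau (Affine.Point.some x₁ y₁ h₁) + tau (0 : W.toAffine.Point)) +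
          4 * W.a₂ * tau (Affine.Point.some x₁ y₁ h₁) * tau (0 : W.toAffine.Point)
    rw [add_zero, sub_zero, tau_zero]
    refine ⟨hP, hP, by ring, by ring⟩
  have hx₁ : x₁ ∉ A := hP
  have hx₂ : x₂ ∉ A := hQ
  by_cases hne : x₁ = x₂
  · subst hne
    rcases Affine.Y_eq_of_X_eq h₁.1 h₂.1 rfl with hy | hy
    · -- `Q = P`
      subst hy
      obtain ⟨hd1, hd2⟩ := H.double h₁ hx₁
      rw [sub_self, tau_zero, tau_some]
      refine ⟨hd1, inKerRed_zero, by ring, ?_⟩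
      rw [add_zero, hd2]
      ring
    · -- `P = -Q`
      have hPQ : Affine.Point.some x₁ y₁ h₁ = -Affine.Point.some x₁ y₂ h₂ := by
        rw [Affine.Point.neg_some]
        congr 1
      obtain ⟨hd1, hd2⟩ := H.double h₂ hx₂
      rw [hPQ, neg_add_cancel, tau_zero, tau_neg, tau_some]
      have hsub : -Affine.Point.some x₁ y₂ h₂ - Affine.Point.some x₁ y₂ h₂ =
          -(Affine.Point.some x₁ y₂ h₂ + Affine.Point.some x₁ y₂ h₂) := by abel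
      rw [hsub, tau_neg]
      refine ⟨inKerRed_zero, (inKerRed_neg _).mpr hd1, by ring, ?_⟩
      rw [zero_add, hd2]
      ring
  · obtain ⟨c1, c2, c3, c4⟩ := H.chord h₁ h₂ hx₁ hx₂ hne
    exact ⟨c1, c2, c3, c4⟩

/-- The statement proved by induction: `jP ∈ E₁` and `τ(jP) = u τ(P)` with `u ≡ j²`. -/
def Good (A : ValuationSubring K) (P : W.toAffine.Point) (j : ℕ) : Prop :=
  InKerRed A (j • P) ∧ ∃ u ∈ A, tau (j • P) = u * tau P ∧ u - (j : K) ^ 2 ∈ A.nonunits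

theorem Hyp.good_step (H : Hyp A W) (P : W.toAffine.Point) (hP : InKerRed A P) (j : ℕ)
    (h0 : Good A P j) (h1 : Good A P (j + 1)) : Good A P (j + 2) := by
  obtain ⟨k0, u₀, hu₀A, hu₀, hd₀⟩ := h0
  obtain ⟨k1, u₁, hu₁A, hu₁, hd₁⟩ := h1
  obtain ⟨p1, -, -, p4⟩ := H.pair ((j + 1) • P) P k1 hP
  have e1 : (j + 1) • P + P = (j + 2) • P := (succ_nsmul P (j + 1)).symm
  have e2 : (j + 1) • P - P = j • P := by rw [succ_nsmul, add_sub_cancel_right]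
  rw [e1] at p1 p4
  rw [e2] at p4
  have ht : tau P ∈ A.nonunits := tau_mem_nu hP
  have ht' : tau ((j + 1) • P) ∈ A.nonunits := tau_mem_nu k1
  obtain ⟨hE0, hEA, hEinv⟩ := H.E_props ht' ht
  set t := tau P with htdef
  set E := 1 - W.a₄ * tau ((j + 1) • P) * t with hEdef
  set c := (E⁻¹) ^ 2 with hcdef
  have hcA : c ∈ A := pow_mem hEinv 2
  have hEc : E ^ 2 * c = 1 := by
    rw [hcdef]
    field_simp
  have h2A : (2 : K) ∈ A := by
    have : (2 : K) = ((2 : ℕ) : K) := by norm_num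
    rw [this]
    exact natCast_mem A 2
  have h4A : (4 : K) ∈ A := by
    have : (4 : K) = ((4 : ℕ) : K) := by norm_num
    rw [this]
    exact natCast_mem A 4
  have htA : t ∈ A := nu_mem A ht
  -- `c ≡ 1`
  have hc1 : c - 1 ∈ A.nonunits := by
    have : c - 1 = W.a₄ * tau ((j + 1) • P) * t * (2 - W.a₄ * tau ((j + 1) • P) * t) * c := by
      have : c - 1 = (1 - E ^ 2) * c := by rw [sub_mul, hEc, one_mul]
      rw [this, hEdef]
      ring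
    rw [this]
    have hbt : W.a₄ * tau ((j + 1) • P) * t ∈ A.nonunits :=
      nu_mul_right A (mul_mem H.hb (nu_mem A ht')) ht
    exact nu_mul_left A (nu_mul_left A hbt (sub_mem h2A (nu_mem A hbt))) hcA
  refine ⟨p1, (2 * (1 + W.a₄ * u₁ * t * t) * (u₁ + 1) + 4 * W.a₂ * u₁ * t) * c - u₀, ?_, ?_, ?_⟩
  · exact sub_mem (mul_mem (add_mem (mul_mem (mul_mem h2A (add_mem A.one_mem
      (mul_mem (mul_mem (mul_mem H.hb hu₁A) htA) htA))) (add_mem hu₁A A.one_mem))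
      (mul_mem (mul_mem (mul_mem h4A H.ha) hu₁A) htA)) hcA) hu₀A
  · have h5 : tau ((j + 2) • P) + tau (j • P) =
        (tau ((j + 2) • P) + tau (j • P)) * E ^ 2 * c := by
      rw [mul_assoc, hEc, mul_one]
    have h6 : tau ((j + 2) • P) = (tau ((j + 2) • P) + tau (j • P)) * E ^ 2 * c - tau (j • P) := by
      rw [← h5]
      ring
    rw [h6, p4, hu₁, hu₀]
    ring
  · have : (2 * (1 + W.a₄ * u₁ * t * t) * (u₁ + 1) + 4 * W.a₂ * u₁ * t) * c - u₀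
        - ((j + 2 : ℕ) : K) ^ 2 =
        2 * (u₁ + 1) * (c - 1) + 2 * (u₁ - ((j + 1 : ℕ) : K) ^ 2) - (u₀ - (j : K) ^ 2)
          + t * ((2 * W.a₄ * u₁ * t * (u₁ + 1) + 4 * W.a₂ * u₁) * c) := by
      push_cast
      ring
    rw [this]
    refine nu_add A (nu_sub A (nu_add A ?_ ?_) hd₀) ?_
    · exact nu_mul_right A (mul_mem h2A (add_mem hu₁A A.one_mem)) hc1
    · exact nu_mul_right A h2A hd₁
    · have hX : 2 * W.a₄ * u₁ * t * (u₁ + 1) ∈ A :=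
        mul_mem (mul_mem (mul_mem (mul_mem h2A H.hb) hu₁A) htA) (add_mem hu₁A A.one_mem)
      have hY : 4 * W.a₂ * u₁ ∈ A := mul_mem (mul_mem h4A H.ha) hu₁A
      exact nu_mul_left A ht (mul_mem (add_mem hX hY) hcA)

theorem Hyp.good (H : Hyp A W) (P : W.toAffine.Point) (hP : InKerRed A P) (j : ℕ) :
    Good A P j ∧ Good A P (j + 1) := by
  induction j with
  | zero =>
    refine ⟨⟨?_, 0, A.zero_mem, ?_, ?_⟩, ⟨?_, 1, A.one_mem, ?_, ?_⟩⟩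
    · rw [zero_nsmul]; exact inKerRed_zero
    · rw [zero_nsmul, tau_zero, zero_mul]
    · simp [nu_zero A]
    · rw [zero_add, one_nsmul]; exact hP
    · rw [zero_add, one_nsmul, one_mul]
    · simp [nu_zero A]
  | succ j ih => exact ⟨ih.2, H.good_step P hP j ih.1 ih.2⟩

/-- `E₁` is closed under addition. -/
theorem Hyp.inKerRed_add (H : Hyp A W) {P Q : W.toAffine.Point} (hP : InKerRed A P)
    (hQ : InKerRed A Q) : InKerRed A (P + Q) :=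
  (H.pair P Q hP hQ).1

/-- `E₁` is closed under subtraction. -/
theorem Hyp.inKerRed_sub (H : Hyp A W) {P Q : W.toAffine.Point} (hP : InKerRed A P)
    (hQ : InKerRed A Q) : InKerRed A (P - Q) :=
  (H.pair P Q hP hQ).2.1

/-- `E₁` is closed under multiples. -/
theorem Hyp.inKerRed_nsmul (H : Hyp A W) {P : W.toAffine.Point} (hP : InKerRed A P) (j : ℕ) :
    InKerRed A (j • P) :=
  (H.good P hP j).1.1

/-- **No torsion in the kernel of reduction** for `n` a unit of `A`. -/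
theorem Hyp.eq_zero_of_nsmul_eq_zero (H : Hyp A W) (n : ℕ) (hn : (n : K) ∉ A.nonunits)
    (P : W.toAffine.Point) (hker : InKerRed A P) (hP : n • P = 0) : P = 0 := by
  by_contra hP0
  obtain ⟨-, u, -, hu, hd⟩ := (H.good P hker n).1
  rw [hP, tau_zero] at hu
  have ht0 : tau P ≠ 0 := tau_ne_zero hker hP0
  have hu0 : u = 0 := by
    rcases mul_eq_zero.mp hu.symm with h | h
    · exact h
    · exact absurd h ht0
  rw [hu0, zero_sub] at hd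
  have : (n : K) ^ 2 ∈ A.nonunits := by
    have := nu_neg A hd
    rwa [neg_neg] at this
  exact hn (mem_nu_of_sq_mem_nu A this)

omit [DecidableEq K] in
/-- Packaging of the hypotheses. -/
theorem hyp_of {A : ValuationSubring K} {W : WeierstrassCurve K} (h1 : W.a₁ = 0) (h3 : W.a₃ = 0)
    (h6 : W.a₆ = 0) (ha : W.a₂ ∈ A) (hb : W.a₄ ∈ A) (h2 : (2 : K) ∉ A.nonunits) : Hyp A W :=
  ⟨h1, h3, h6, ha, hb, fun h => h2 (h ▸ nu_zero A)⟩

/-- **No torsion in the kernel of reduction**: for `W : y² = x³ + a₂ x² + a₄ x` with integral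
coefficients, `2` and `n` units of `A`, a point of `E₁ = {O} ∪ {x ∉ A}` killed by `n` is `O`. -/
theorem eq_zero_of_nsmul_eq_zero_of_inKerRed (A : ValuationSubring K) (W : WeierstrassCurve K)
    (h1 : W.a₁ = 0) (h3 : W.a₃ = 0) (h6 : W.a₆ = 0) (ha : W.a₂ ∈ A) (hb : W.a₄ ∈ A)
    (h2 : (2 : K) ∉ A.nonunits) (n : ℕ) (hn : (n : K) ∉ A.nonunits) (P : W.toAffine.Point)
    (hker : InKerRed A P) (hP : n • P = 0) : P = 0 :=
  (hyp_of h1 h3 h6 ha hb h2).eq_zero_of_nsmul_eq_zero n hn P hker hP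

/-- `E₁` is closed under addition. -/
theorem inKerRed_add (A : ValuationSubring K) (W : WeierstrassCurve K)
    (h1 : W.a₁ = 0) (h3 : W.a₃ = 0) (h6 : W.a₆ = 0) (ha : W.a₂ ∈ A) (hb : W.a₄ ∈ A)
    (h2 : (2 : K) ∉ A.nonunits) {P Q : W.toAffine.Point} (hP : InKerRed A P)
    (hQ : InKerRed A Q) : InKerRed A (P + Q) :=
  (hyp_of h1 h3 h6 ha hb h2).inKerRed_add hP hQ

/-- `E₁` is closed under subtraction. -/
theorem inKerRed_sub' (A : ValuationSubring K) (W : WeierstrassCurve K)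
    (h1 : W.a₁ = 0) (h3 : W.a₃ = 0) (h6 : W.a₆ = 0) (ha : W.a₂ ∈ A) (hb : W.a₄ ∈ A)
    (h2 : (2 : K) ∉ A.nonunits) {P Q : W.toAffine.Point} (hP : InKerRed A P)
    (hQ : InKerRed A Q) : InKerRed A (P - Q) :=
  (hyp_of h1 h3 h6 ha hb h2).inKerRed_sub hP hQ

/-- `E₁` is closed under multiples. -/
theorem inKerRed_nsmul (A : ValuationSubring K) (W : WeierstrassCurve K)
    (h1 : W.a₁ = 0) (h3 : W.a₃ = 0) (h6 : W.a₆ = 0) (ha : W.a₂ ∈ A) (hb : W.a₄ ∈ A)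
    (h2 : (2 : K) ∉ A.nonunits) {P : W.toAffine.Point} (hP : InKerRed A P) (j : ℕ) :
    InKerRed A (j • P) :=
  (hyp_of h1 h3 h6 ha hb h2).inKerRed_nsmul hP j

end Law

end Fermat.Agent.S05.KerTors
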