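import Mathlib.AlgebraicGeometry.EllipticCurve.Affine.Point
import Fermat.Prelude.Def_FLTPrelim_GaloisRep

set_option autoImplicit false

namespace Fermat.Agent.S05

open WeierstrassCurve WeierstrassCurve.Affine

section

variable {F : Type*} [Field F] (W : WeierstrassCurve F) (C : WeierstrassCurve.VariableChange F)

/-- The `X`-coordinate map of the variable change. -/
def vcX (x : F) : F := (C.u : F) ^ 2 * x + C.r

/-- The `Y`-coordinate map of the variable change. -/
def vcY (x y : F) : F := (C.u : F) ^ 3 * y + (C.u : F) ^ 2 * C.s * x + C.t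

theorem vc_u_ne_zero : (C.u : F) ≠ 0 := C.u.ne_zero

theorem vc_inv_eq : ((C.u⁻¹ : Fˣ) : F) = ((C.u : F))⁻¹ := by simp

theorem vc_polynomial_eq (x y : F) :
    (vcY C x y) ^ 2 + W.a₁ * (vcX C x) * (vcY C x y) + W.a₃ * (vcY C x y)
        - ((vcX C x) ^ 3 + W.a₂ * (vcX C x) ^ 2 + W.a₄ * (vcX C x) + W.a₆) =
      (C.u : F) ^ 6 * (y ^ 2 + (C • W).a₁ * x * y + (C • W).a₃ * y
        - (x ^ 3 + (C • W).a₂ * x ^ 2 + (C • W).a₄ * x + (C • W).a₆)) := by
  have hu := vc_u_ne_zero C
  simp only [variableChange_a₁, variableChange_a₂, variableChange_a₃, variableChange_a₄,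
    variableChange_a₆, vc_inv_eq, vcX, vcY]
  field_simp
  ring

theorem vc_equation_iff (x y : F) :
    (C • W).toAffine.Equation x y ↔ W.toAffine.Equation (vcX C x) (vcY C x y) := by
  rw [Affine.equation_iff', Affine.equation_iff', vc_polynomial_eq]
  constructor
  · intro h; rw [h, mul_zero]
  · intro h
    rcases mul_eq_zero.1 h with h | h
    · exact absurd (pow_eq_zero_iff (by norm_num) |>.1 h) (vc_u_ne_zero C)
    · exact h

theorem vc_polyY_eq (x y : F) :
    2 * (vcY C x y) + W.a₁ * (vcX C x) + W.a₃ =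
      (C.u : F) ^ 3 * (2 * y + (C • W).a₁ * x + (C • W).a₃) := by
  have hu := vc_u_ne_zero C
  simp only [variableChange_a₁, variableChange_a₃, vc_inv_eq, vcX, vcY]
  field_simp
  ring

theorem vc_polyX_eq (x y : F) :
    W.a₁ * (vcY C x y) - (3 * (vcX C x) ^ 2 + 2 * W.a₂ * (vcX C x) + W.a₄) =
      (C.u : F) ^ 4 * ((C • W).a₁ * y - (3 * x ^ 2 + 2 * (C • W).a₂ * x + (C • W).a₄))
        - C.s * ((C.u : F) ^ 3 * (2 * y + (C • W).a₁ * x + (C • W).a₃)) := by
  have hu := vc_u_ne_zero C
  simp only [variableChange_a₁, variableChange_a₂, variableChange_a₃, variableChange_a₄,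
    vc_inv_eq, vcX, vcY]
  field_simp
  ring

theorem vc_nonsingular_iff (x y : F) :
    (C • W).toAffine.Nonsingular x y ↔ W.toAffine.Nonsingular (vcX C x) (vcY C x y) := by
  have hu := vc_u_ne_zero C
  rw [Affine.nonsingular_iff', Affine.nonsingular_iff', vc_equation_iff, vc_polyX_eq, vc_polyY_eq]
  refine and_congr_right fun _ => ?_
  set A := (C • W).a₁ * y - (3 * x ^ 2 + 2 * (C • W).a₂ * x + (C • W).a₄) with hA
  set B := 2 * y + (C • W).a₁ * x + (C • W).a₃ with hB
  constructor
  · rintro (h | h)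
    · by_cases hB0 : B = 0
      · left
        rw [hB0, mul_zero, mul_zero, sub_zero]
        exact mul_ne_zero (pow_ne_zero _ hu) h
      · right
        exact mul_ne_zero (pow_ne_zero _ hu) hB0
    · right
      exact mul_ne_zero (pow_ne_zero _ hu) h
  · rintro (h | h)
    · by_cases hB0 : B = 0
      · left
        rw [hB0, mul_zero, mul_zero, sub_zero] at h
        exact (mul_ne_zero_iff.1 h).2
      · right; exact hB0
    · right
      exact (mul_ne_zero_iff.1 h).2

theorem vc_negY (x y : F) :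
    W.toAffine.negY (vcX C x) (vcY C x y) = vcY C x ((C • W).toAffine.negY x y) := by
  have hu := vc_u_ne_zero C
  simp only [Affine.negY, variableChange_a₁, variableChange_a₃, vc_inv_eq, vcX, vcY]
  field_simp
  ring

theorem vcX_injective : Function.Injective (vcX C) := by
  intro x x' h
  have hu := vc_u_ne_zero C
  simp only [vcX] at h
  have : (C.u : F) ^ 2 * x = (C.u : F) ^ 2 * x' := by linear_combination h
  exact mul_left_cancel₀ (pow_ne_zero _ hu) this

theorem vcY_injective (x : F) : Function.Injective (vcY C x) := by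
  intro y y' h
  have hu := vc_u_ne_zero C
  simp only [vcY] at h
  have : (C.u : F) ^ 3 * y = (C.u : F) ^ 3 * y' := by linear_combination h
  exact mul_left_cancel₀ (pow_ne_zero _ hu) this

theorem vc_addX (x₁ x₂ ℓ : F) :
    W.toAffine.addX (vcX C x₁) (vcX C x₂) ((C.u : F) * ℓ + C.s) =
      vcX C ((C • W).toAffine.addX x₁ x₂ ℓ) := by
  have hu := vc_u_ne_zero C
  simp only [Affine.addX, variableChange_a₁, variableChange_a₂, vc_inv_eq, vcX]
  field_simp
  ring

theorem vc_negAddY (x₁ x₂ y₁ ℓ : F) :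
    W.toAffine.negAddY (vcX C x₁) (vcX C x₂) (vcY C x₁ y₁) ((C.u : F) * ℓ + C.s) =
      vcY C ((C • W).toAffine.addX x₁ x₂ ℓ) ((C • W).toAffine.negAddY x₁ x₂ y₁ ℓ) := by
  have hu := vc_u_ne_zero C
  simp only [Affine.negAddY, Affine.addX, variableChange_a₁, variableChange_a₂, vc_inv_eq, vcX,
    vcY]
  field_simp
  ring

theorem vc_addY (x₁ x₂ y₁ ℓ : F) :
    W.toAffine.addY (vcX C x₁) (vcX C x₂) (vcY C x₁ y₁) ((C.u : F) * ℓ + C.s) =
      vcY C ((C • W).toAffine.addX x₁ x₂ ℓ) ((C • W).toAffine.addY x₁ x₂ y₁ ℓ) := by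
  rw [Affine.addY, Affine.addY, vc_negAddY, vc_addX, vc_negY]

section Slope

variable [DecidableEq F]

theorem vc_slope {x₁ x₂ y₁ y₂ : F} (h₁ : (C • W).toAffine.Equation x₁ y₁)
    (h₂ : (C • W).toAffine.Equation x₂ y₂)
    (hxy : ¬(x₁ = x₂ ∧ y₁ = (C • W).toAffine.negY x₂ y₂)) :
    W.toAffine.slope (vcX C x₁) (vcX C x₂) (vcY C x₁ y₁) (vcY C x₂ y₂) =
      (C.u : F) * (C • W).toAffine.slope x₁ x₂ y₁ y₂ + C.s := by
  have hu := vc_u_ne_zero C
  by_cases hx : x₁ = x₂
  · subst hx
    have hy : y₁ ≠ (C • W).toAffine.negY x₁ y₂ := fun h => hxy ⟨rfl, h⟩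
    have hyy : y₁ = y₂ := Affine.Y_eq_of_Y_ne h₁ h₂ rfl hy
    subst hyy
    have hy' : vcY C x₁ y₁ ≠ W.toAffine.negY (vcX C x₁) (vcY C x₁ y₁) := by
      rw [vc_negY]
      exact fun h => hy (vcY_injective C x₁ h)
    rw [Affine.slope_of_Y_ne rfl hy', Affine.slope_of_Y_ne rfl hy]
    have hden : y₁ - (C • W).toAffine.negY x₁ y₁ ≠ 0 := sub_ne_zero.2 hy
    have hden' : vcY C x₁ y₁ - W.toAffine.negY (vcX C x₁) (vcY C x₁ y₁) ≠ 0 := sub_ne_zero.2 hy'
    have e1 : vcY C x₁ y₁ - W.toAffine.negY (vcX C x₁) (vcY C x₁ y₁) =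
        (C.u : F) ^ 3 * (y₁ - (C • W).toAffine.negY x₁ y₁) := by
      have := vc_polyY_eq W C x₁ y₁
      simp only [Affine.negY]
      linear_combination this
    have e2 : 3 * (vcX C x₁) ^ 2 + 2 * W.a₂ * (vcX C x₁) + W.a₄ - W.a₁ * (vcY C x₁ y₁) =
        (C.u : F) ^ 4 * (3 * x₁ ^ 2 + 2 * (C • W).a₂ * x₁ + (C • W).a₄ - (C • W).a₁ * y₁)
          + C.s * ((C.u : F) ^ 3 * (y₁ - (C • W).toAffine.negY x₁ y₁)) := by
      have := vc_polyX_eq W C x₁ y₁
      simp only [Affine.negY]
      linear_combination -this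
    rw [e1, e2]
    generalize y₁ - (C • W).toAffine.negY x₁ y₁ = d at hden
    field_simp
  · have hx' : vcX C x₁ ≠ vcX C x₂ := fun h => hx (vcX_injective C h)
    rw [Affine.slope_of_X_ne hx', Affine.slope_of_X_ne hx]
    have h1 : x₁ - x₂ ≠ 0 := sub_ne_zero.2 hx
    have e1 : vcX C x₁ - vcX C x₂ = (C.u : F) ^ 2 * (x₁ - x₂) := by simp only [vcX]; ring
    have e2 : vcY C x₁ y₁ - vcY C x₂ y₂ =
        (C.u : F) ^ 3 * (y₁ - y₂) + (C.u : F) ^ 2 * C.s * (x₁ - x₂) := by
      simp only [vcY]; ring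
    rw [e1, e2]
    generalize x₁ - x₂ = d at h1
    field_simp

end Slope

section PointMap

/-- The map on points induced by a variable change: a point `(x, y)` of `C • W` is sent to the point
`(u²x + r, u³y + u²sx + t)` of `W`. -/
def vcPointFun : (C • W).toAffine.Point → W.toAffine.Point
  | 0 => 0
  | .some x y h => .some (vcX C x) (vcY C x y) ((vc_nonsingular_iff W C x y).1 h)

theorem vcPointFun_zero : vcPointFun W C 0 = 0 := rfl

theorem vcPointFun_some {x y : F} (h : (C • W).toAffine.Nonsingular x y) :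
    vcPointFun W C (.some x y h) =
      .some (vcX C x) (vcY C x y) ((vc_nonsingular_iff W C x y).1 h) := rfl

variable [DecidableEq F]

theorem vcPointFun_add (P Q : (C • W).toAffine.Point) :
    vcPointFun W C (P + Q) = vcPointFun W C P + vcPointFun W C Q := by
  rcases P with _ | ⟨x₁, y₁, h₁⟩ <;> rcases Q with _ | ⟨x₂, y₂, h₂⟩
  · rfl
  · rfl
  · rfl
  · by_cases hxy : x₁ = x₂ ∧ y₁ = (C • W).toAffine.negY x₂ y₂
    · rw [Affine.Point.add_of_Y_eq hxy.1 hxy.2]
      rw [vcPointFun_some, vcPointFun_some,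
        Affine.Point.add_of_Y_eq (congrArg (vcX C) hxy.1)
          (by rw [vc_negY, hxy.2, hxy.1])]
      rfl
    · have hxy' : ¬(vcX C x₁ = vcX C x₂ ∧
          vcY C x₁ y₁ = W.toAffine.negY (vcX C x₂) (vcY C x₂ y₂)) := by
        rintro ⟨hx, hy⟩
        have hx' := vcX_injective C hx
        subst hx'
        rw [vc_negY] at hy
        exact hxy ⟨rfl, vcY_injective C x₁ hy⟩
      rw [Affine.Point.add_some hxy, vcPointFun_some, vcPointFun_some, vcPointFun_some,
        Affine.Point.add_some hxy']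
      simp only [vc_slope W C h₁.1 h₂.1 hxy, vc_addX, vc_addY]

/-- The additive group homomorphism on points induced by a variable change. -/
def vcPointHom : (C • W).toAffine.Point →+ W.toAffine.Point where
  toFun := vcPointFun W C
  map_zero' := rfl
  map_add' := vcPointFun_add W C

theorem vcPointHom_some {x y : F} (h : (C • W).toAffine.Nonsingular x y) :
    vcPointHom W C (.some x y h) =
      .some (vcX C x) (vcY C x y) ((vc_nonsingular_iff W C x y).1 h) := rfl

theorem vcPointHom_injective : Function.Injective (vcPointHom W C) := by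
  rintro (_ | ⟨x₁, y₁, h₁⟩) (_ | ⟨x₂, y₂, h₂⟩) h
  · rfl
  · exact absurd h (by rw [vcPointHom_some]; exact (Affine.Point.some_ne_zero _).symm)
  · exact absurd h (by rw [vcPointHom_some]; exact Affine.Point.some_ne_zero _)
  · rw [vcPointHom_some, vcPointHom_some] at h
    have hx : vcX C x₁ = vcX C x₂ := (Affine.Point.some.inj h).1
    have hy : vcY C x₁ y₁ = vcY C x₂ y₂ := (Affine.Point.some.inj h).2
    have hx' := vcX_injective C hx
    subst hx'
    have hy' := vcY_injective C x₁ hy
    subst hy'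
    rfl

theorem vcPointHom_surjective : Function.Surjective (vcPointHom W C) := by
  have hu := vc_u_ne_zero C
  rintro (_ | ⟨X, Y, h⟩)
  · exact ⟨0, rfl⟩
  · set x : F := (X - C.r) / (C.u : F) ^ 2 with hx
    set y : F := (Y - (C.u : F) ^ 2 * C.s * x - C.t) / (C.u : F) ^ 3 with hy
    have hX : vcX C x = X := by
      simp only [vcX, hx]; field_simp; ring
    have hY : vcY C x y = Y := by
      simp only [vcY, hy]; field_simp; ring
    have h' : (C • W).toAffine.Nonsingular x y := by
      rw [vc_nonsingular_iff, hX, hY]; exact h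
    refine ⟨.some x y h', ?_⟩
    rw [vcPointHom_some]
    simp only [hX, hY]

/-- The additive equivalence on points induced by a variable change. -/
noncomputable def vcPointEquiv : (C • W).toAffine.Point ≃+ W.toAffine.Point :=
  AddEquiv.ofBijective (vcPointHom W C) ⟨vcPointHom_injective W C, vcPointHom_surjective W C⟩

theorem vcPointEquiv_some {x y : F} (h : (C • W).toAffine.Nonsingular x y) :
    vcPointEquiv W C (.some x y h) =
      .some (vcX C x) (vcY C x y) ((vc_nonsingular_iff W C x y).1 h) := rfl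

theorem vcPointEquiv_zero : vcPointEquiv W C 0 = 0 := rfl

/-- The shape requested in the T05 blueprint. -/
theorem exists_vcPointEquiv :
    ∃ e : (C • W).toAffine.Point ≃+ W.toAffine.Point,
      ∀ x y (h : (C • W).toAffine.Nonsingular x y), ∃ h',
        e (.some x y h) =
          .some ((C.u : F) ^ 2 * x + C.r) ((C.u : F) ^ 3 * y + (C.u : F) ^ 2 * C.s * x + C.t) h' :=
  ⟨vcPointEquiv W C, fun x y h => ⟨(vc_nonsingular_iff W C x y).1 h, rfl⟩⟩

end PointMap

end

section Congr

variable {F : Type*} [Field F]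

/-- Transport of points along an equality of Weierstrass curves. -/
def pointCongrFun {W₁ W₂ : WeierstrassCurve F} (h : W₁ = W₂) :
    W₁.toAffine.Point → W₂.toAffine.Point
  | 0 => 0
  | .some x y hxy => .some x y (h ▸ hxy)

theorem pointCongrFun_some {W₁ W₂ : WeierstrassCurve F} (h : W₁ = W₂) {x y : F}
    (hxy : W₁.toAffine.Nonsingular x y) :
    pointCongrFun h (.some x y hxy) = .some x y (h ▸ hxy) := rfl

variable [DecidableEq F]

/-- Transport of points along an equality of Weierstrass curves, as an additive equivalence. -/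
def pointCongr {W₁ W₂ : WeierstrassCurve F} (h : W₁ = W₂) :
    W₁.toAffine.Point ≃+ W₂.toAffine.Point where
  toFun := pointCongrFun h
  invFun := pointCongrFun h.symm
  left_inv := by subst h; rintro (_ | _) <;> rfl
  right_inv := by subst h; rintro (_ | _) <;> rfl
  map_add' := by
    subst h
    intro P Q
    have hid : ∀ R : W₁.toAffine.Point, pointCongrFun (rfl : W₁ = W₁) R = R := by
      rintro (_ | _) <;> rfl
    rw [hid, hid, hid]

theorem pointCongr_some {W₁ W₂ : WeierstrassCurve F} (h : W₁ = W₂) {x y : F}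
    (hxy : W₁.toAffine.Nonsingular x y) :
    pointCongr h (.some x y hxy) = .some x y (h ▸ hxy) := rfl

theorem pointCongr_zero {W₁ W₂ : WeierstrassCurve F} (h : W₁ = W₂) :
    pointCongr h (0 : W₁.toAffine.Point) = 0 := rfl

end Congr

section BaseChange

variable {R : Type*} {S : Type*} {K : Type*} [CommRing R] [CommRing S] [Field K] [DecidableEq K]
  [Algebra R S] [Algebra R K] [Algebra S K] [IsScalarTower R S K]
  (W' : WeierstrassCurve R) (C' : WeierstrassCurve.VariableChange R)

/-- For a curve `W'` and a variable change `C'` over `R`, the points of `C' • W'` over `K` are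
identified with the points of `W'` over `K`. -/
noncomputable def vcBaseChangeEquiv : ((C' • W')⁄K).toAffine.Point ≃+ (W'⁄K).toAffine.Point :=
  (pointCongr (WeierstrassCurve.map_variableChange W' C' (algebraMap R K)).symm).trans
    (vcPointEquiv (W'.map (algebraMap R K)) (C'.map (algebraMap R K)))

theorem vcBaseChangeEquiv_zero : vcBaseChangeEquiv (K := K) W' C' 0 = 0 := rfl

theorem vcBaseChangeEquiv_some {x y : K} (h : ((C' • W')⁄K).toAffine.Nonsingular x y) :
    ∃ h', vcBaseChangeEquiv (K := K) W' C' (.some x y h) =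
      .some (algebraMap R K (C'.u : R) ^ 2 * x + algebraMap R K C'.r)
        (algebraMap R K (C'.u : R) ^ 3 * y
          + algebraMap R K (C'.u : R) ^ 2 * algebraMap R K C'.s * x + algebraMap R K C'.t) h' :=
  ⟨_, rfl⟩

theorem vcBaseChangeEquiv_map (σ : K →ₐ[S] K) (P : ((C' • W')⁄K).toAffine.Point) :
    vcBaseChangeEquiv (K := K) W' C' (Affine.Point.map (W' := C' • W') σ P) =
      Affine.Point.map (W' := W') σ (vcBaseChangeEquiv (K := K) W' C' P) := by
  rcases P with _ | ⟨x, y, h⟩
  · rfl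
  · have hc : ∀ c : R, σ (algebraMap R K c) = algebraMap R K c := fun c => by
      rw [IsScalarTower.algebraMap_apply R S K, σ.commutes]
    obtain ⟨h₁, e₁⟩ := vcBaseChangeEquiv_some W' C' h
    rw [e₁, Affine.Point.map_some, Affine.Point.map_some]
    obtain ⟨h₂, e₂⟩ := vcBaseChangeEquiv_some W' C'
      ((WeierstrassCurve.Affine.baseChange_nonsingular (C' • W') σ.injective x y).2 h)
    rw [e₂]
    congr 1 <;> simp only [map_add, map_mul, map_pow, hc]

theorem vcBaseChangeEquiv_smul (σ : K ≃ₐ[S] K) (P : ((C' • W')⁄K).toAffine.Point) :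
    vcBaseChangeEquiv (K := K) W' C' (σ • P) = σ • vcBaseChangeEquiv (K := K) W' C' P :=
  vcBaseChangeEquiv_map W' C' σ.toAlgHom P

theorem vcBaseChangeEquiv_symm_smul (σ : K ≃ₐ[S] K) (Q : (W'⁄K).toAffine.Point) :
    (vcBaseChangeEquiv (K := K) W' C').symm (σ • Q) =
      σ • (vcBaseChangeEquiv (K := K) W' C').symm Q := by
  apply (vcBaseChangeEquiv (K := K) W' C').injective
  rw [vcBaseChangeEquiv_smul, AddEquiv.apply_symm_apply, AddEquiv.apply_symm_apply]

/-- Galois-fixedness of all `n`-torsion points can be checked on the model `C' • W'`. -/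
theorem smul_eq_self_of_model (σ : K ≃ₐ[S] K) (n : ℕ)
    (h : ∀ P : ((C' • W')⁄K).toAffine.Point, n • P = 0 → σ • P = P)
    (Q : (W'⁄K).toAffine.Point) (hQ : n • Q = 0) : σ • Q = Q := by
  set e := vcBaseChangeEquiv (K := K) W' C' with he
  have h1 : n • e.symm Q = 0 := by rw [← map_nsmul, hQ, map_zero]
  have h2 := h (e.symm Q) h1
  have h3 := congrArg e h2
  rwa [he, vcBaseChangeEquiv_smul, AddEquiv.apply_symm_apply] at h3

end BaseChange

end Fermat.Agent.S05
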