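import Mathlib
import Fermat.Prelude.Def_FLTPrelim_FreyPackage

/-!
# S05, step 0: the Frey curve is a variable change of `y² = x³ + αx² + π^p x`

`modelM R α β` is the Weierstrass curve `y² = x³ + αx² + βx`.
For a Frey package `P` and an odd prime `q`, the Frey curve over `ℚ` equals `C • modelM ℚ α (π ^ p)`
for integers `α π` and a variable change `C` over `ℚ`, where either
* (good)  `q ∤ π` and `q ∤ α² - 4π^p` (so the discriminant `16 β² (α² - 4β)` is a `q`-unit), or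
* (node)  `q ∣ π` and `q ∤ α`.
-/

set_option autoImplicit false

open WeierstrassCurve

namespace Fermat.Agent.S05

/-- The Weierstrass curve `y² = x³ + αx² + βx`. -/
def modelM (R : Type*) [CommRing R] (α β : R) : WeierstrassCurve R := ⟨0, α, 0, β, 0⟩

section modelM

variable {R : Type*} [CommRing R] (α β : R)

@[simp] lemma modelM_a₁ : (modelM R α β).a₁ = 0 := rfl
@[simp] lemma modelM_a₂ : (modelM R α β).a₂ = α := rfl
@[simp] lemma modelM_a₃ : (modelM R α β).a₃ = 0 := rfl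
@[simp] lemma modelM_a₄ : (modelM R α β).a₄ = β := rfl
@[simp] lemma modelM_a₆ : (modelM R α β).a₆ = 0 := rfl

lemma modelM_b₂ : (modelM R α β).b₂ = 4 * α := by simp [WeierstrassCurve.b₂]
lemma modelM_b₄ : (modelM R α β).b₄ = 2 * β := by simp [WeierstrassCurve.b₄]
lemma modelM_b₆ : (modelM R α β).b₆ = 0 := by simp [WeierstrassCurve.b₆]
lemma modelM_b₈ : (modelM R α β).b₈ = -β ^ 2 := by simp [WeierstrassCurve.b₈]

lemma modelM_c₄ : (modelM R α β).c₄ = 16 * (α ^ 2 - 3 * β) := by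
  simp only [WeierstrassCurve.c₄, modelM_b₂, modelM_b₄]; ring

lemma modelM_Δ : (modelM R α β).Δ = 16 * β ^ 2 * (α ^ 2 - 4 * β) := by
  simp only [WeierstrassCurve.Δ, modelM_b₂, modelM_b₄, modelM_b₆, modelM_b₈]; ring

lemma modelM_map {S : Type*} [CommRing S] (φ : R →+* S) :
    (modelM R α β).map φ = modelM S (φ α) (φ β) := by
  ext <;> simp [modelM]

lemma modelM_baseChange {S : Type*} [CommRing S] [Algebra R S] :
    (modelM R α β)⁄S = modelM S (algebraMap R S α) (algebraMap R S β) :=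
  modelM_map α β _

lemma modelM_equation_iff (x y : R) :
    (modelM R α β).toAffine.Equation x y ↔ y ^ 2 = x ^ 3 + α * x ^ 2 + β * x := by
  rw [WeierstrassCurve.Affine.equation_iff]
  simp [modelM]

end modelM

/-- The variable change `(X, Y) ↦ (4X + r, 8Y + 4X)` over `ℚ`. -/
def freyChange (r : ℚ) : VariableChange ℚ := ⟨Units.mk0 2 two_ne_zero, r, 1, 0⟩

@[simp] lemma freyChange_u (r : ℚ) : ((freyChange r).u : ℚ) = 2 := rfl
@[simp] lemma freyChange_u_inv (r : ℚ) : (((freyChange r).u⁻¹ : ℚˣ) : ℚ) = 2⁻¹ := by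
  simp [freyChange]
@[simp] lemma freyChange_r (r : ℚ) : (freyChange r).r = r := rfl
@[simp] lemma freyChange_s (r : ℚ) : (freyChange r).s = 1 := rfl
@[simp] lemma freyChange_t (r : ℚ) : (freyChange r).t = 0 := rfl

/-- Model `M1`: the Frey curve is `Y² = X (X - a^p) (X + b^p)` after `(X, Y) = (4x, 8y + 4x)`. -/
theorem freyCurve_eq_M1 (P : FreyPackage) :
    P.freyCurve = freyChange 0 •
      modelM ℚ (((P.b ^ P.p - P.a ^ P.p : ℤ) : ℚ)) ((((-(P.a * P.b) : ℤ) : ℚ)) ^ P.p) := by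
  have hodd : Odd P.p := P.hp_odd
  ext
  · simp [FreyPackage.freyCurve, variableChange_a₁]
  · simp only [FreyPackage.freyCurve, variableChange_a₂, freyChange_u_inv, freyChange_s,
      freyChange_r, modelM_a₁, modelM_a₂]
    push_cast
    ring
  · simp [FreyPackage.freyCurve, variableChange_a₃]
  · simp only [FreyPackage.freyCurve, variableChange_a₄, freyChange_u_inv, freyChange_s,
      freyChange_r, freyChange_t, modelM_a₁, modelM_a₂, modelM_a₃, modelM_a₄]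
    push_cast
    rw [hodd.neg_pow, mul_pow]
    ring
  · simp [FreyPackage.freyCurve, variableChange_a₆]

/-- Model `M2`: the Frey curve is `Y² = X (X + a^p) (X + c^p)` after
`(X, Y) = (4x - a^p, 8y + 4x)`. -/
theorem freyCurve_eq_M2 (P : FreyPackage) :
    P.freyCurve = freyChange (-(P.a : ℚ) ^ P.p) •
      modelM ℚ (((P.a ^ P.p + P.c ^ P.p : ℤ) : ℚ)) ((((P.a * P.c : ℤ) : ℚ)) ^ P.p) := by
  have hc : (P.c : ℚ) ^ P.p = (P.a : ℚ) ^ P.p + (P.b : ℚ) ^ P.p := by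
    exact_mod_cast P.hFLT.symm
  ext
  · simp [FreyPackage.freyCurve, variableChange_a₁]
  · simp only [FreyPackage.freyCurve, variableChange_a₂, freyChange_u_inv, freyChange_s,
      freyChange_r, modelM_a₁, modelM_a₂]
    push_cast
    rw [hc]
    ring
  · simp [FreyPackage.freyCurve, variableChange_a₃]
  · simp only [FreyPackage.freyCurve, variableChange_a₄, freyChange_u_inv, freyChange_s,
      freyChange_r, freyChange_t, modelM_a₁, modelM_a₂, modelM_a₃, modelM_a₄]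
    push_cast
    rw [mul_pow, hc]
    ring
  · simp only [FreyPackage.freyCurve, variableChange_a₆, freyChange_u_inv,
      freyChange_r, freyChange_t, modelM_a₁, modelM_a₂, modelM_a₃, modelM_a₄, modelM_a₆]
    push_cast
    rw [mul_pow, hc]
    ring


theorem not_dvd_both_of_gcd_eq_one {q : ℕ} (hq : q.Prime) {x y : ℤ} (h : gcd x y = 1)
    (hx : (q : ℤ) ∣ x) (hy : (q : ℤ) ∣ y) : False := by
  have h1 : (q : ℤ) ∣ gcd x y := dvd_gcd hx hy
  rw [h] at h1
  exact (Nat.prime_iff_prime_int.mp hq).not_dvd_one h1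

/-- The arithmetic of step 0: integers `α, π` and a rational shift `r` such that the Frey curve is
`freyChange r • modelM ℚ α (π ^ p)` with either good or nodal behaviour at the odd prime `q`. -/
theorem frey_model_aux (P : FreyPackage) {q : ℕ} (hq : q.Prime) :
    ∃ (α π : ℤ) (r : ℚ),
      P.freyCurve = freyChange r • modelM ℚ (α : ℚ) ((π : ℚ) ^ P.p) ∧
      ((¬ (q : ℤ) ∣ π ∧ ¬ (q : ℤ) ∣ α ^ 2 - 4 * π ^ P.p) ∨ ((q : ℤ) ∣ π ∧ ¬ (q : ℤ) ∣ α)) := by
  have hqZ : Prime (q : ℤ) := Nat.prime_iff_prime_int.mp hq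
  have hodd : Odd P.p := P.hp_odd
  by_cases hc : (q : ℤ) ∣ P.c
  · -- `q ∣ c`: model `M2`
    refine ⟨P.a ^ P.p + P.c ^ P.p, P.a * P.c, -(P.a : ℚ) ^ P.p, freyCurve_eq_M2 P, Or.inr ⟨?_, ?_⟩⟩
    · exact hc.mul_left _
    · intro h
      have hcp : (q : ℤ) ∣ P.c ^ P.p := dvd_pow hc P.hp0
      have hap : (q : ℤ) ∣ P.a ^ P.p := (dvd_add_left hcp).mp h
      exact not_dvd_both_of_gcd_eq_one hq P.hgcdac (hqZ.dvd_of_dvd_pow hap) hc
  · by_cases hab : (q : ℤ) ∣ P.a * P.b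
    · -- `q ∣ ab`: model `M1`, nodal
      refine ⟨P.b ^ P.p - P.a ^ P.p, -(P.a * P.b), 0, freyCurve_eq_M1 P, Or.inr ⟨?_, ?_⟩⟩
      · exact (dvd_neg).mpr hab
      · intro h
        rcases hqZ.dvd_or_dvd hab with ha | hb
        · have hap : (q : ℤ) ∣ P.a ^ P.p := dvd_pow ha P.hp0
          have hbp : (q : ℤ) ∣ P.b ^ P.p := (dvd_sub_left hap).mp h
          exact not_dvd_both_of_gcd_eq_one hq P.hgcdab ha (hqZ.dvd_of_dvd_pow hbp)
        · have hbp : (q : ℤ) ∣ P.b ^ P.p := dvd_pow hb P.hp0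
          have hap : (q : ℤ) ∣ P.a ^ P.p := (dvd_sub_right hbp).mp h
          exact not_dvd_both_of_gcd_eq_one hq P.hgcdab (hqZ.dvd_of_dvd_pow hap) hb
    · -- `q ∤ abc`: model `M1`, good
      refine ⟨P.b ^ P.p - P.a ^ P.p, -(P.a * P.b), 0, freyCurve_eq_M1 P, Or.inl ⟨?_, ?_⟩⟩
      · rwa [dvd_neg]
      · have hid : (P.b ^ P.p - P.a ^ P.p) ^ 2 - 4 * (-(P.a * P.b)) ^ P.p = (P.c ^ P.p) ^ 2 := by
          rw [hodd.neg_pow, mul_pow, ← P.hFLT]
          ring
        rw [hid]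
        intro h
        exact hc (hqZ.dvd_of_dvd_pow (hqZ.dvd_of_dvd_pow h))


/-- Step 0 of S05 in the announced shape. -/
theorem frey_model (P : FreyPackage) {q : ℕ} (hq : q.Prime) :
    ∃ (α π : ℤ) (C : VariableChange ℚ),
      P.freyCurve = C • modelM ℚ (α : ℚ) ((π : ℚ) ^ P.p) ∧
      ((¬ (q : ℤ) ∣ π ∧ ¬ (q : ℤ) ∣ α ^ 2 - 4 * π ^ P.p) ∨ ((q : ℤ) ∣ π ∧ ¬ (q : ℤ) ∣ α)) := by
  obtain ⟨α, π, r, h, h'⟩ := frey_model_aux P hq
  exact ⟨α, π, freyChange r, h, h'⟩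

/-- Step 0 of S05, base-changed to a field extension `K` of `ℚ`. -/
theorem frey_model_baseChange (P : FreyPackage) {q : ℕ} (hq : q.Prime)
    (K : Type*) [Field K] [Algebra ℚ K] :
    ∃ (α π : ℤ) (C : VariableChange ℚ),
      P.freyCurve = C • modelM ℚ (α : ℚ) ((π : ℚ) ^ P.p) ∧
      (P.freyCurve)⁄K = (C.baseChange K) • modelM K (α : K) ((π : K) ^ P.p) ∧
      ((¬ (q : ℤ) ∣ π ∧ ¬ (q : ℤ) ∣ α ^ 2 - 4 * π ^ P.p) ∨ ((q : ℤ) ∣ π ∧ ¬ (q : ℤ) ∣ α)) := by
  obtain ⟨α, π, C, h, h'⟩ := frey_model P hq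
  refine ⟨α, π, C, h, ?_, h'⟩
  have h1 : (P.freyCurve)⁄K = (C.baseChange K) • ((modelM ℚ (α : ℚ) ((π : ℚ) ^ P.p))⁄K) := by
    rw [h]
    exact (map_variableChange _ C (algebraMap ℚ K)).symm
  rw [h1, modelM_baseChange]
  simp


end Fermat.Agent.S05
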