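import Mathlib
import Fermat.Prelude.Def_FLTPrelim_FreyPackage
import Fermat.Prelude.Def_FLTPrelim_GaloisRep
import Fermat.Prelude.Def_FLTPrelim_Ramification
import Fermat.Agent.S05.FreyArith
import Fermat.Agent.S05.VarChange

/-!
# S05 assembly: reduction of `P.GaloisRepUnramifiedAt q` to the model curve
`y² = x³ + αx² + π^p x` over `AlgebraicClosure ℚ`.
-/

set_option autoImplicit false

open WeierstrassCurve WeierstrassCurve.Affine WeierstrassCurve.Affine.Point

namespace Fermat.Agent.S05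

/-- The endgame statement for the model curve `y² = x³ + αx² + π^p x`: inertia at an odd prime
`q ≠ p` acts trivially on the `p`-torsion, in the good case (`q ∤ π (α² - 4π^p)`) and in the
nodal case (`q ∣ π`, `q ∤ α`). -/
def ModelUnramified : Prop :=
  ∀ (α π : ℤ) (p q : ℕ), p.Prime → p ≠ 2 → q.Prime → q ≠ 2 → q ≠ p →
    ((¬ (q : ℤ) ∣ π ∧ ¬ (q : ℤ) ∣ α ^ 2 - 4 * π ^ p) ∨ ((q : ℤ) ∣ π ∧ ¬ (q : ℤ) ∣ α)) →
    ∀ A : ValuationSubring (AlgebraicClosure ℚ), A.LiesOverPrime q →
    ∀ σ ∈ A.inertiaSubgroupIn ℚ,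
    ∀ T : ((modelM ℚ (α : ℚ) ((π : ℚ) ^ p))⁄(AlgebraicClosure ℚ)).toAffine.Point,
      p • T = 0 → σ • T = T

section Transfer

variable {R : Type*} {S : Type*} {K : Type*} [CommRing R] [CommRing S] [Field K] [DecidableEq K]
  [Algebra R S] [Algebra R K] [Algebra S K] [IsScalarTower R S K]
  (W' : WeierstrassCurve R) (C' : WeierstrassCurve.VariableChange R)

/-- Galois-fixedness of all `n`-torsion points of `C' • W'` can be checked on `W'`. -/
theorem smul_eq_self_of_model' (σ : K ≃ₐ[S] K) (n : ℕ)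
    (h : ∀ Q : (W'⁄K).toAffine.Point, n • Q = 0 → σ • Q = Q)
    (P : ((C' • W')⁄K).toAffine.Point) (hP : n • P = 0) : σ • P = P := by
  have h1 : n • vcBaseChangeEquiv (K := K) W' C' P = 0 := by rw [← map_nsmul, hP, _root_.map_zero]
  have h2 := h _ h1
  rw [← vcBaseChangeEquiv_smul] at h2
  exact (vcBaseChangeEquiv (K := K) W' C').injective h2

end Transfer

/-- S05 follows from the endgame statement for the model curve. -/
theorem unramified_of_model (hmodel : ModelUnramified) (P : FreyPackage) {q : ℕ} (hq : q.Prime)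
    (hq2 : q ≠ 2) (hqp : q ≠ P.p) : P.GaloisRepUnramifiedAt q := by
  intro A hA σ hσ x
  obtain ⟨α, π, C, hC, hcase⟩ := frey_model P hq
  have hp2 : P.p ≠ 2 := by have := P.hp5; omega
  have key : ∀ T : ((P.freyCurve)⁄(AlgebraicClosure ℚ)).toAffine.Point,
      P.p • T = 0 → σ • T = T := by
    rw [hC]
    intro T hT
    exact smul_eq_self_of_model' (S := ℚ) (modelM ℚ (α : ℚ) ((π : ℚ) ^ P.p)) C σ P.p
      (hmodel α π P.p q P.pp hp2 hq hq2 hqp hcase A hA σ hσ) T hT
  apply Subtype.ext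
  have hx : P.p • x.1 = 0 := by
    have := x.2
    rw [Submodule.mem_torsionBy_iff] at this
    rw [← Nat.cast_smul_eq_nsmul ℤ]
    exact this
  exact key x.1 hx

end Fermat.Agent.S05
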