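import Mathlib.Algebra.Order.Field.Rat
import Mathlib.Algebra.Order.Ring.Rat
import Mathlib.Algebra.Order.AbsoluteValue.Basic
import Mathlib.Algebra.Module.NatInt
import Mathlib.Tactic.Linarith
import Mathlib.Tactic.Ring
import Mathlib.Tactic.Abel
import Mathlib.Tactic.Push

/-!
# S05: abstract induction on the component function

From the *pair law* for a function `μ : G → ℚ` with values in `[0, n]`
(`{μ (P + Q), μ (P - Q)} = {fold n (μ P + μ Q), |μ P - μ Q|}` as unordered pairs)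
we deduce `μ (k • P) ≡ ± k * μ P mod 2n` for all `k`, hence `p * μ P ∈ 2nℤ` whenever `p • P = 0`.
-/

set_option autoImplicit false

namespace Fermat.Agent.S05.CompInd

/-- Folding of `[0, 2n]` onto `[0, n]`. -/
def fold (n t : ℚ) : ℚ := if t ≤ n then t else 2 * n - t

theorem fold_of_le {n t : ℚ} (h : t ≤ n) : fold n t = t := if_pos h

theorem fold_of_lt {n t : ℚ} (h : n < t) : fold n t = 2 * n - t := if_neg (not_le.mpr h)

theorem fold_mem {n t : ℚ} (h0 : 0 ≤ t) (h1 : t ≤ 2 * n) : 0 ≤ fold n t ∧ fold n t ≤ n := by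
  unfold fold
  split_ifs with h
  · exact ⟨h0, h⟩
  · rw [not_le] at h
    constructor <;> linarith

theorem abs_sub_mem {n c m : ℚ} (hc : 0 ≤ c ∧ c ≤ n) (hm : 0 ≤ m ∧ m ≤ n) :
    0 ≤ |c - m| ∧ |c - m| ≤ n := by
  refine ⟨abs_nonneg _, abs_le.mpr ⟨?_, ?_⟩⟩ <;> linarith [hc.1, hc.2, hm.1, hm.2]

/-- `u ≡ ± t mod 2n`. -/
def Cong (n u t : ℚ) : Prop := ∃ j : ℤ, u = t - 2 * n * j ∨ u = 2 * n * j - t

theorem cong_uniq {n u u' t : ℚ} (hn : 0 < n) (hu : 0 ≤ u ∧ u ≤ n) (hu' : 0 ≤ u' ∧ u' ≤ n)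
    (h : Cong n u t) (h' : Cong n u' t) : u = u' := by
  obtain ⟨j, hj⟩ := h
  obtain ⟨j', hj'⟩ := h'
  -- a helper: an integer multiple of `2n` in `[-n, n]` vanishes
  have key0 : ∀ k : ℤ, -n ≤ 2 * n * k → 2 * n * (k : ℚ) ≤ n → (k : ℚ) = 0 := by
    intro k h1 h2
    rcases lt_trichotomy k 0 with hk | hk | hk
    · have : (k : ℚ) ≤ -1 := by exact_mod_cast Int.le_sub_one_of_lt hk
      nlinarith
    · exact_mod_cast hk
    · have : (1 : ℚ) ≤ k := by exact_mod_cast hk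
      nlinarith
  -- an integer multiple of `2n` in `[0, 2n]` is `0` or `2n`
  have key1 : ∀ k : ℤ, 0 ≤ 2 * n * (k : ℚ) → 2 * n * (k : ℚ) ≤ 2 * n →
      (k : ℚ) = 0 ∨ (k : ℚ) = 1 := by
    intro k h1 h2
    rcases lt_trichotomy k 0 with hk | hk | hk
    · have : (k : ℚ) ≤ -1 := by exact_mod_cast Int.le_sub_one_of_lt hk
      nlinarith
    · left; exact_mod_cast hk
    · rcases eq_or_lt_of_le (Int.add_one_le_iff.mpr hk) with h1' | h1'
      · right
        have : k = 1 := by omega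
        exact_mod_cast this
      · have : (2 : ℚ) ≤ k := by exact_mod_cast (by omega : (2 : ℤ) ≤ k)
        nlinarith
  rcases hj with hj | hj <;> rcases hj' with hj' | hj'
  · have e : u - u' = 2 * n * ((j' - j : ℤ) : ℚ) := by push_cast; rw [hj, hj']; ring
    have := key0 (j' - j) (by rw [← e]; linarith [hu.1, hu'.2]) (by rw [← e]; linarith [hu.2, hu'.1])
    rw [this, mul_zero] at e
    linarith
  · have e : u + u' = 2 * n * ((j' - j : ℤ) : ℚ) := by push_cast; rw [hj, hj']; ring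
    rcases key1 (j' - j) (by rw [← e]; linarith [hu.1, hu'.1])
      (by rw [← e]; linarith [hu.2, hu'.2]) with h0 | h1
    · rw [h0, mul_zero] at e; linarith [hu.1, hu'.1]
    · rw [h1, mul_one] at e; linarith [hu.2, hu'.2]
  · have e : u + u' = 2 * n * ((j - j' : ℤ) : ℚ) := by push_cast; rw [hj, hj']; ring
    rcases key1 (j - j') (by rw [← e]; linarith [hu.1, hu'.1])
      (by rw [← e]; linarith [hu.2, hu'.2]) with h0 | h1
    · rw [h0, mul_zero] at e; linarith [hu.1, hu'.1]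
    · rw [h1, mul_one] at e; linarith [hu.2, hu'.2]
  · have e : u - u' = 2 * n * ((j - j' : ℤ) : ℚ) := by push_cast; rw [hj, hj']; ring
    have := key0 (j - j') (by rw [← e]; linarith [hu.1, hu'.2]) (by rw [← e]; linarith [hu.2, hu'.1])
    rw [this, mul_zero] at e
    linarith

theorem cong_fold {n t s : ℚ} (h : Cong n t s) : Cong n (fold n t) s := by
  obtain ⟨j, hj⟩ := h
  unfold fold
  split_ifs
  · exact ⟨j, hj⟩
  · rcases hj with hj | hj
    · exact ⟨j + 1, Or.inr (by push_cast; rw [hj]; ring)⟩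
    · exact ⟨j - 1, Or.inl (by push_cast; rw [hj]; ring)⟩

theorem cong_abs {n t s : ℚ} (h : Cong n t s) : Cong n |t| s := by
  obtain ⟨j, hj⟩ := h
  rcases abs_choice t with ht | ht
  · rw [ht]; exact ⟨j, hj⟩
  · rw [ht]
    rcases hj with hj | hj
    · exact ⟨j, Or.inr (by rw [hj]; ring)⟩
    · exact ⟨j, Or.inl (by rw [hj]; ring)⟩

/-- One step: if `c ≡ ± s` then `{fold (c + m), |c - m|} ≡ {±(s + m), ±(s - m)}`. -/
theorem cong_step {n c m s : ℚ} (h : Cong n c s) :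
    (Cong n (fold n (c + m)) (s + m) ∧ Cong n |c - m| (s - m)) ∨
      (Cong n (fold n (c + m)) (s - m) ∧ Cong n |c - m| (s + m)) := by
  obtain ⟨j, hj | hj⟩ := h
  · left
    exact ⟨cong_fold ⟨j, Or.inl (by rw [hj]; ring)⟩, cong_abs ⟨j, Or.inl (by rw [hj]; ring)⟩⟩
  · right
    exact ⟨cong_fold ⟨j, Or.inr (by rw [hj]; ring)⟩, cong_abs ⟨j, Or.inr (by rw [hj]; ring)⟩⟩

variable {G : Type*} [AddCommGroup G] (μ : G → ℚ) (n : ℚ)

/-- The pair law, as a hypothesis on `μ`. -/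
def PairLaw : Prop :=
  ∀ P Q : G, (μ (P + Q) = fold n (μ P + μ Q) ∧ μ (P - Q) = |μ P - μ Q|) ∨
    (μ (P + Q) = |μ P - μ Q| ∧ μ (P - Q) = fold n (μ P + μ Q))

variable {μ n}

theorem cong_nsmul (hn : 0 < n) (h0 : μ 0 = 0) (hrange : ∀ P, 0 ≤ μ P ∧ μ P ≤ n)
    (hpair : PairLaw μ n) (P : G) (k : ℕ) :
    Cong n (μ (k • P)) (k * μ P) ∧ Cong n (μ ((k + 1) • P)) ((k + 1 : ℕ) * μ P) := by
  induction k with
  | zero =>
    refine ⟨⟨0, Or.inl ?_⟩, ⟨0, Or.inl ?_⟩⟩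
    · simp [h0]
    · simp
  | succ k ih =>
    obtain ⟨ihk, ihk1⟩ := ih
    refine ⟨ihk1, ?_⟩
    have hadd : (k + 1) • P + P = (k + 1 + 1) • P := by rw [add_smul (k + 1) 1 P, one_smul]
    have hsub : (k + 1) • P - P = k • P := by rw [add_smul k 1 P, one_smul]; abel
    have hc := hrange ((k + 1) • P)
    have hm := hrange P
    have hB := hrange (k • P)
    have hX := fold_mem (n := n) (t := μ ((k + 1) • P) + μ P) (by linarith [hc.1, hm.1])
      (by linarith [hc.2, hm.2])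
    have hY := abs_sub_mem hc hm
    have e1 : ((k + 1 : ℕ) : ℚ) * μ P + μ P = ((k + 1 + 1 : ℕ) : ℚ) * μ P := by push_cast; ring
    have e2 : ((k + 1 : ℕ) : ℚ) * μ P - μ P = (k : ℚ) * μ P := by push_cast; ring
    have hstep := cong_step (m := μ P) ihk1
    rw [e1, e2] at hstep
    have hp := hpair ((k + 1) • P) P
    rw [hadd, hsub] at hp
    rcases hp with ⟨hA, hBe⟩ | ⟨hA, hBe⟩ <;> rcases hstep with ⟨hXc, hYc⟩ | ⟨hXc, hYc⟩
    · rw [hA]; exact hXc
    · -- `B = Y`, `X ~ k μ`, so `B = X`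
      have : μ (k • P) = fold n (μ ((k + 1) • P) + μ P) := cong_uniq hn hB hX ihk hXc
      rw [hA, ← this, hBe]; exact hYc
    · have : μ (k • P) = |μ ((k + 1) • P) - μ P| := cong_uniq hn hB hY ihk hYc
      rw [hA, ← this, hBe]; exact hXc
    · rw [hA]; exact hYc

/-- **Main corollary**: a `p`-torsion point has `p * μ P ∈ 2nℤ`. -/
theorem torsion_of_pairLaw (hn : 0 < n) (h0 : μ 0 = 0) (hrange : ∀ P, 0 ≤ μ P ∧ μ P ≤ n)
    (hpair : ∀ P Q : G, (μ (P + Q) = fold n (μ P + μ Q) ∧ μ (P - Q) = |μ P - μ Q|) ∨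
      (μ (P + Q) = |μ P - μ Q| ∧ μ (P - Q) = fold n (μ P + μ Q)))
    (P : G) (p : ℕ) (hp : p • P = 0) : ∃ j : ℤ, (p : ℚ) * μ P = 2 * n * j := by
  obtain ⟨⟨j, hj⟩, -⟩ := cong_nsmul hn h0 hrange hpair P p
  rw [hp, h0] at hj
  rcases hj with hj | hj
  · exact ⟨j, by linarith⟩
  · exact ⟨j, by linarith⟩

/-- Variant: if moreover `n = p * m` with `p ≠ 0` then `μ P = 2 * m * j` for an integer `j`. -/
theorem torsion_of_pairLaw' (hn : 0 < n) (h0 : μ 0 = 0) (hrange : ∀ P, 0 ≤ μ P ∧ μ P ≤ n)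
    (hpair : ∀ P Q : G, (μ (P + Q) = fold n (μ P + μ Q) ∧ μ (P - Q) = |μ P - μ Q|) ∨
      (μ (P + Q) = |μ P - μ Q| ∧ μ (P - Q) = fold n (μ P + μ Q)))
    (P : G) (p : ℕ) (hp0 : p ≠ 0) (m : ℚ) (hnm : n = p * m) (hp : p • P = 0) :
    ∃ j : ℤ, μ P = 2 * m * j := by
  obtain ⟨j, hj⟩ := torsion_of_pairLaw hn h0 hrange hpair P p hp
  refine ⟨j, ?_⟩
  have hp' : (p : ℚ) ≠ 0 := Nat.cast_ne_zero.mpr hp0
  apply mul_left_cancel₀ hp'
  rw [hj, hnm]; ring

end Fermat.Agent.S05.CompInd
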