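import Mathlib.AlgebraicGeometry.EllipticCurve.Affine.Point

set_option autoImplicit false

namespace Fermat.Agent.S05

open WeierstrassCurve WeierstrassCurve.Affine

section

variable {k : Type*} [Field k] (W : WeierstrassCurve k)

/-- The hypotheses saying that `W` is the cuspidal cubic `y² = x³`. -/
structure IsCuspCubic : Prop where
  a₁ : W.a₁ = 0
  a₂ : W.a₂ = 0
  a₃ : W.a₃ = 0
  a₄ : W.a₄ = 0
  a₆ : W.a₆ = 0

variable {W}

theorem IsCuspCubic.equation (hW : IsCuspCubic W) {x y : k} (h : W.toAffine.Equation x y) :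
    y ^ 2 = x ^ 3 := by
  have := (Affine.equation_iff (W := W.toAffine) x y).mp h
  simpa [hW.a₁, hW.a₂, hW.a₃, hW.a₄, hW.a₆] using this

theorem IsCuspCubic.y_ne_zero (hW : IsCuspCubic W) {x y : k}
    (h : W.toAffine.Nonsingular x y) : y ≠ 0 := by
  intro hy
  have h1 := (Affine.nonsingular_iff' (W := W.toAffine) x y).mp h
  have heq := hW.equation h1.1
  subst hy
  have hx : x = 0 := by
    have : x ^ 3 = 0 := by rw [← heq]; ring
    exact pow_eq_zero_iff (by norm_num) |>.mp this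
  subst hx
  rcases h1.2 with h2 | h2
  · apply h2; simp [hW.a₁, hW.a₂, hW.a₄]
  · apply h2; simp [hW.a₁, hW.a₃]

theorem IsCuspCubic.x_ne_zero (hW : IsCuspCubic W) {x y : k}
    (h : W.toAffine.Nonsingular x y) : x ≠ 0 := by
  intro hx
  have h1 := (Affine.nonsingular_iff' (W := W.toAffine) x y).mp h
  have heq := hW.equation h1.1
  subst hx
  apply hW.y_ne_zero h
  exact pow_eq_zero_iff (n := 2) (by norm_num) |>.mp (by rw [heq]; ring)

/-- Uniformising parameter: a nonsingular point of the cusp is `(u², u³)` with `u ≠ 0`. -/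
theorem IsCuspCubic.exists_param (hW : IsCuspCubic W) {x y : k}
    (h : W.toAffine.Nonsingular x y) : ∃ u : k, u ≠ 0 ∧ x = u ^ 2 ∧ y = u ^ 3 := by
  have hx := hW.x_ne_zero h
  have hy := hW.y_ne_zero h
  have heq := hW.equation h.1
  refine ⟨y / x, div_ne_zero hy hx, ?_, ?_⟩
  · field_simp
    rw [heq]
  · field_simp
    exact heq.symm


variable [DecidableEq k]

/-- The map `(x, y) ↦ x / y` on the nonsingular points of the cuspidal cubic. -/
noncomputable def cuspFun (W : WeierstrassCurve k) : W.toAffine.Point → k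
  | .zero => 0
  | .some x y _ => x / y

omit [DecidableEq k] in
@[simp] theorem cuspFun_zero : cuspFun W (0 : W.toAffine.Point) = 0 := rfl

omit [DecidableEq k] in
@[simp] theorem cuspFun_some {x y : k} (h : W.toAffine.Nonsingular x y) :
    cuspFun W (.some x y h) = x / y := rfl

theorem cuspFun_add (h2 : (2 : k) ≠ 0) (hW : IsCuspCubic W) (P Q : W.toAffine.Point) :
    cuspFun W (P + Q) = cuspFun W P + cuspFun W Q := by
  rcases P with _ | ⟨x₁, y₁, h₁⟩
  · change cuspFun W (0 + Q) = cuspFun W 0 + _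
    simp
  rcases Q with _ | ⟨x₂, y₂, h₂⟩
  · change cuspFun W (_ + 0) = _ + cuspFun W 0
    simp
  obtain ⟨u₁, hu₁, rfl, rfl⟩ := hW.exists_param h₁
  obtain ⟨u₂, hu₂, rfl, rfl⟩ := hW.exists_param h₂
  by_cases hxy : u₁ ^ 2 = u₂ ^ 2 ∧ u₁ ^ 3 = W.toAffine.negY (u₂ ^ 2) (u₂ ^ 3)
  · rw [Point.add_of_Y_eq hxy.1 hxy.2]
    have hy : u₁ ^ 3 = - u₂ ^ 3 := by
      have := hxy.2
      simpa [hW.a₁, hW.a₃] using this
    simp only [cuspFun_zero, cuspFun_some]
    have hu : u₁ = -u₂ := by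
      have h3 : u₁ * u₁ ^ 2 = -(u₂ * u₂ ^ 2) := by linear_combination hy
      rw [hxy.1] at h3
      have : (u₁ + u₂) * u₂ ^ 2 = 0 := by linear_combination h3
      rcases mul_eq_zero.mp this with h | h
      · linear_combination h
      · exact absurd (pow_eq_zero_iff (by norm_num) |>.mp h) hu₂
    subst hu
    field_simp
    ring
  · rw [Point.add_some hxy]
    have hns := Affine.nonsingular_add h₁ h₂ hxy
    have hy3 := hW.y_ne_zero hns
    simp only [cuspFun_some]
    by_cases hx : u₁ ^ 2 = u₂ ^ 2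
    · -- doubling
      have hy : u₁ ^ 3 ≠ W.toAffine.negY (u₂ ^ 2) (u₂ ^ 3) := fun h => hxy ⟨hx, h⟩
      have hy' : u₁ ^ 3 ≠ - u₂ ^ 3 := by simpa [hW.a₁, hW.a₃] using hy
      have hu : u₁ = u₂ := by
        have : (u₁ - u₂) * (u₁ + u₂) = 0 := by linear_combination hx
        rcases mul_eq_zero.mp this with h | h
        · linear_combination h
        · exfalso
          apply hy'
          have : u₁ = -u₂ := by linear_combination h
          rw [this]; ring
      subst hu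
      rw [Affine.slope_of_Y_ne rfl hy] at hy3 ⊢
      simp only [Affine.addY, Affine.negAddY, Affine.addX, Affine.negY, hW.a₁, hW.a₂, hW.a₃,
        hW.a₄] at hy3 ⊢
      have hℓ : (3 * (u₁ ^ 2) ^ 2 + 2 * 0 * u₁ ^ 2 + 0 - 0 * u₁ ^ 3) /
          (u₁ ^ 3 - (-u₁ ^ 3 - 0 * u₁ ^ 2 - 0)) = 3 * u₁ / 2 := by
        rw [show u₁ ^ 3 - (-u₁ ^ 3 - 0 * u₁ ^ 2 - 0) = 2 * u₁ ^ 3 by ring]
        field_simp
        ring
      rw [hℓ] at hy3 ⊢
      rw [div_add_div _ _ (pow_ne_zero 3 hu₁) (pow_ne_zero 3 hu₁),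
        div_eq_div_iff hy3 (mul_ne_zero (pow_ne_zero 3 hu₁) (pow_ne_zero 3 hu₁))]
      field_simp
      ring
    · rw [Affine.slope_of_X_ne hx] at hy3 ⊢
      simp only [Affine.addY, Affine.negAddY, Affine.addX, Affine.negY, hW.a₁, hW.a₂,
        hW.a₃] at hy3 ⊢
      have hd : u₁ ^ 2 - u₂ ^ 2 ≠ 0 := sub_ne_zero.mpr hx
      rw [div_add_div _ _ (pow_ne_zero 3 hu₁) (pow_ne_zero 3 hu₂),
        div_eq_div_iff hy3 (mul_ne_zero (pow_ne_zero 3 hu₁) (pow_ne_zero 3 hu₂))]
      field_simp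
      ring


/-- The group homomorphism `(x, y) ↦ x / y` from the nonsingular points of the cuspidal cubic
`y² = x³` to the additive group of the field. -/
noncomputable def cuspHom (h2 : (2 : k) ≠ 0) (hW : IsCuspCubic W) : W.toAffine.Point →+ k where
  toFun := cuspFun W
  map_zero' := rfl
  map_add' := cuspFun_add h2 hW

@[simp] theorem cuspHom_some (h2 : (2 : k) ≠ 0) (hW : IsCuspCubic W) {x y : k}
    (h : W.toAffine.Nonsingular x y) : cuspHom h2 hW (.some x y h) = x / y := rfl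

/-- Deliverable (P2) of the S05 plan. -/
theorem exists_cusp_hom (h2 : (2 : k) ≠ 0) (W : WeierstrassCurve k) (h1 : W.a₁ = 0)
    (h2' : W.a₂ = 0) (h3 : W.a₃ = 0) (h4 : W.a₄ = 0) (h6 : W.a₆ = 0) :
    ∃ χ : W.toAffine.Point →+ k, ∀ (x y : k) (h : W.toAffine.Nonsingular x y),
      χ (.some x y h) = x / y :=
  ⟨cuspHom h2 ⟨h1, h2', h3, h4, h6⟩, fun _ _ _ => rfl⟩

/-- On the cusp, a nonsingular affine point has nonzero parameter `x / y`. -/
theorem cuspHom_some_ne_zero (h2 : (2 : k) ≠ 0) (hW : IsCuspCubic W) {x y : k}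
    (h : W.toAffine.Nonsingular x y) : cuspHom h2 hW (.some x y h) ≠ 0 := by
  rw [cuspHom_some]
  exact div_ne_zero (hW.x_ne_zero h) (hW.y_ne_zero h)

/-- The cusp has no `p`-torsion for `p` invertible in `k`: `n • P = 0` with `(n : k) ≠ 0`
forces `P = 0`. -/
theorem eq_zero_of_nsmul_eq_zero (h2 : (2 : k) ≠ 0) (hW : IsCuspCubic W) {n : ℕ}
    (hn : (n : k) ≠ 0) {P : W.toAffine.Point} (hP : n • P = 0) : P = 0 := by
  rcases P with _ | ⟨x, y, h⟩
  · rfl
  · exfalso
    have := congrArg (cuspHom h2 hW) hP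
    rw [map_nsmul, map_zero, nsmul_eq_mul] at this
    rcases mul_eq_zero.mp this with h' | h'
    · exact hn h'
    · exact cuspHom_some_ne_zero h2 hW h h'

end

end Fermat.Agent.S05
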