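import Mathlib.AlgebraicGeometry.EllipticCurve.Affine.Point
import Mathlib.RingTheory.Valuation.ValuationSubring

/-!
# Endgame for S05 on the model `y² = x³ + a x² + b x`

Everything is stated for a Weierstrass curve `W` over a field `K` with `a₁ = a₃ = a₆ = 0`
and an arbitrary valuation `v` on `K` (multiplicative notation: `v x ≤ 1` means integral,
`v x < 1` means in the maximal ideal, `1 < v x` means non-integral).

Main results:
* `IsABModel.same_red`  : an integral point with nonsingular reduction and its image under an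
  inertia-like ring hom differ by an element of the kernel of reduction.
* `IsABModel.node_step` : the same conclusion for a point reducing to the node whose
  `x`-coordinate is a fixed element times a unit.
* `IsABModel.endgame`   : inertia acts trivially on the `p`-torsion, given that the kernel of
  reduction has no `p`-torsion and the component statement for `p`-torsion points.
-/

set_option autoImplicit false

namespace Fermat.Agent.S05.Endgame

open WeierstrassCurve

section val

variable {K : Type*} [Field K] {Γ : Type*} [LinearOrderedCommGroupWithZero Γ] (v : Valuation K Γ)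

lemma val_le_one_of_sq {y : K} (h : v (y ^ 2) ≤ 1) : v y ≤ 1 := by
  by_contra hlt
  push Not at hlt
  have : 1 < v y ^ 2 := one_lt_pow₀ hlt (by norm_num)
  rw [v.map_pow] at h
  exact absurd h (not_le.mpr this)

lemma val_lt_one_of_sq {y : K} (h : v (y ^ 2) < 1) : v y < 1 := by
  by_contra hlt
  push Not at hlt
  have : 1 ≤ v y ^ 2 := one_le_pow₀ hlt
  rw [v.map_pow] at h
  exact absurd h (not_lt.mpr this)

lemma val_eq_one_of_sq {y : K} (h : v (y ^ 2) = 1) : v y = 1 := by
  rw [v.map_pow] at h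
  exact sq_eq_one.mp h

lemma one_lt_val_sq {y : K} (h : 1 < v y) : 1 < v (y ^ 2) := by
  rw [v.map_pow]
  exact one_lt_pow₀ h (by norm_num)

lemma val_three_le (h2 : v 2 ≤ 1) : v (3 : K) ≤ 1 := by
  have : (3 : K) = 2 + 1 := by norm_num
  rw [this]
  exact v.map_add_le h2 (by rw [v.map_one])

lemma val_four_le (h2 : v 2 ≤ 1) : v (4 : K) ≤ 1 := by
  have : (4 : K) = 2 * 2 := by norm_num
  rw [this, v.map_mul]
  exact mul_le_one' h2 h2

lemma val_pos {z : K} (hz : z ≠ 0) : 0 < v z :=
  zero_lt_iff.mpr (v.ne_zero_iff.mpr hz)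

lemma val_mul_le_one {x y : K} (hx : v x ≤ 1) (hy : v y ≤ 1) : v (x * y) ≤ 1 := by
  rw [v.map_mul]
  exact mul_le_one' hx hy

lemma val_mul_lt_one {x y : K} (hx : v x < 1) (hy : v y ≤ 1) : v (x * y) < 1 := by
  rw [v.map_mul]
  exact mul_lt_one_of_lt_of_le hx hy

lemma val_mul_lt_one' {x y : K} (hx : v x ≤ 1) (hy : v y < 1) : v (x * y) < 1 := by
  rw [mul_comm]
  exact val_mul_lt_one v hy hx

/-- image of an integral element under an inertia-like map is integral -/
lemma val_map_le_one {s : K →+* K} (hs : ∀ z, v z ≤ 1 → v (s z - z) < 1) {z : K}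
    (hz : v z ≤ 1) : v (s z) ≤ 1 := by
  have : s z = (s z - z) + z := by ring
  rw [this]
  exact v.map_add_le (hs z hz).le hz

end val

variable {K : Type*} [Field K] [DecidableEq K] {Γ : Type*} [LinearOrderedCommGroupWithZero Γ]
  (v : Valuation K Γ) {W : Affine K}

/-- The curve has the shape `y² = x³ + a₂ x² + a₄ x`. -/
structure IsABModel (W : Affine K) : Prop where
  a₁ : W.a₁ = 0
  a₃ : W.a₃ = 0
  a₆ : W.a₆ = 0

/-- Kernel of reduction: the point at infinity together with the points with non-integral `x`. -/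
def InE1 (T : W.Point) : Prop :=
  T = 0 ∨ ∃ x y, ∃ h : W.Nonsingular x y, T = Affine.Point.some x y h ∧ 1 < v x

namespace IsABModel

variable {v}
variable (hW : IsABModel W)
include hW

omit [DecidableEq K] in
lemma equation_iff {x y : K} :
    W.Equation x y ↔ y ^ 2 = x ^ 3 + W.a₂ * x ^ 2 + W.a₄ * x := by
  rw [WeierstrassCurve.Affine.equation_iff, hW.a₁, hW.a₃, hW.a₆]
  constructor <;> intro h <;> linear_combination h

omit [DecidableEq K] in
lemma negY_eq (x y : K) : W.negY x y = -y := by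
  simp [WeierstrassCurve.Affine.negY, hW.a₁, hW.a₃]

omit [DecidableEq K] in
lemma val_y_le (ha : v W.a₂ ≤ 1) (hb : v W.a₄ ≤ 1) {x y : K} (he : W.Equation x y)
    (hx : v x ≤ 1) : v y ≤ 1 := by
  apply val_le_one_of_sq v
  rw [hW.equation_iff.1 he]
  refine v.map_add_le (v.map_add_le ?_ ?_) ?_
  · rw [v.map_pow]; exact pow_le_one' hx 3
  · rw [v.map_mul, v.map_pow]; exact mul_le_one' ha (pow_le_one' hx 2)
  · rw [v.map_mul]; exact mul_le_one' hb hx

/-- If the slope of the chord/tangent is non-integral (and the two `x`-coordinates are integral)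
then the sum has non-integral `x`-coordinate. -/
lemma exists_add_some_of_one_lt_slope {x₁ x₂ y₁ y₂ : K} (h₁ : W.Nonsingular x₁ y₁)
    (h₂ : W.Nonsingular x₂ y₂) (hxy : ¬(x₁ = x₂ ∧ y₁ = W.negY x₂ y₂)) (ha : v W.a₂ ≤ 1)
    (hx₁ : v x₁ ≤ 1) (hx₂ : v x₂ ≤ 1) (hℓ : 1 < v (W.slope x₁ x₂ y₁ y₂)) :
    InE1 v (Affine.Point.some x₁ y₁ h₁ + Affine.Point.some x₂ y₂ h₂) := by
  refine Or.inr ⟨_, _, _, Affine.Point.add_some hxy, ?_⟩
  rw [WeierstrassCurve.Affine.addX, hW.a₁]
  set ℓ := W.slope x₁ x₂ y₁ y₂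
  have h1 : 1 < v (ℓ ^ 2) := one_lt_val_sq v hℓ
  have h2 : v (W.a₂ + x₁ + x₂) ≤ 1 := v.map_add_le (v.map_add_le ha hx₁) hx₂
  have : ℓ ^ 2 + 0 * ℓ - W.a₂ - x₁ - x₂ = ℓ ^ 2 - (W.a₂ + x₁ + x₂) := by ring
  rw [this, v.map_sub_eq_of_lt_left (lt_of_le_of_lt h2 h1)]
  exact h1

/-- Nonsingular reduction of integral points away from the node. -/
lemma nonsing_red (h2 : v 2 = 1) (ha : v W.a₂ ≤ 1) (hb : v W.a₄ ≤ 1)
    (hD : v (W.a₂ ^ 2 - 4 * W.a₄) = 1) {x y : K} (he : W.Equation x y) (hx : v x ≤ 1)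
    (hE0 : v x = 1 ∨ v W.a₄ = 1) :
    v (2 * y) = 1 ∨ v (3 * x ^ 2 + 2 * W.a₂ * x + W.a₄) = 1 := by
  by_contra hcon
  push Not at hcon
  obtain ⟨h2y, hf'⟩ := hcon
  have hy : v y ≤ 1 := hW.val_y_le ha hb he hx
  have hylt : v y < 1 := by
    have : v (2 * y) ≤ 1 := by rw [v.map_mul, h2, one_mul]; exact hy
    have := lt_of_le_of_ne this h2y
    rwa [v.map_mul, h2, one_mul] at this
  have h3 : v (3 : K) ≤ 1 := val_three_le v h2.le
  have h4 : v (4 : K) ≤ 1 := val_four_le v h2.le
  have hf'le : v (3 * x ^ 2 + 2 * W.a₂ * x + W.a₄) ≤ 1 := by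
    refine v.map_add_le (v.map_add_le ?_ ?_) hb
    · exact val_mul_le_one v h3 (by rw [v.map_pow]; exact pow_le_one' hx 2)
    · exact val_mul_le_one v (val_mul_le_one v h2.le ha) hx
  have hf'lt := lt_of_le_of_ne hf'le hf'
  have e := hW.equation_iff.1 he
  by_cases hxlt : v x < 1
  · have hb1 : v W.a₄ = 1 := hE0.resolve_left (ne_of_lt hxlt)
    have hrew : 3 * x ^ 2 + 2 * W.a₂ * x + W.a₄ = W.a₄ + x * (3 * x + 2 * W.a₂) := by ring
    have hsmall : v (x * (3 * x + 2 * W.a₂)) < v W.a₄ := by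
      rw [hb1]
      refine val_mul_lt_one v hxlt (v.map_add_le ?_ ?_)
      · exact val_mul_le_one v h3 hx
      · exact val_mul_le_one v h2.le ha
    rw [hrew, v.map_add_eq_of_lt_left hsmall, hb1] at hf'lt
    exact lt_irrefl _ hf'lt
  · have hx1 : v x = 1 := le_antisymm hx (not_lt.mp hxlt)
    -- g₀ = x² + a₂ x + a₄ has positive valuation
    have hg : v (x ^ 2 + W.a₂ * x + W.a₄) < 1 := by
      have h1 : v (x * (x ^ 2 + W.a₂ * x + W.a₄)) < 1 := by
        have : x * (x ^ 2 + W.a₂ * x + W.a₄) = y ^ 2 := by rw [e]; ring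
        rw [this, v.map_pow]
        exact pow_lt_one' hylt (by norm_num)
      rwa [v.map_mul, hx1, one_mul] at h1
    -- 2x + a₂ has positive valuation
    have hl : v (2 * x + W.a₂) < 1 := by
      have h1 : v (x * (2 * x + W.a₂)) < 1 := by
        have : x * (2 * x + W.a₂) =
            (3 * x ^ 2 + 2 * W.a₂ * x + W.a₄) - (x ^ 2 + W.a₂ * x + W.a₄) := by ring
        rw [this]
        exact v.map_sub_lt hf'lt hg
      rwa [v.map_mul, hx1, one_mul] at h1
    have : W.a₂ ^ 2 - 4 * W.a₄ = (2 * x + W.a₂) ^ 2 - 4 * (x ^ 2 + W.a₂ * x + W.a₄) := by ring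
    rw [this] at hD
    have : v ((2 * x + W.a₂) ^ 2 - 4 * (x ^ 2 + W.a₂ * x + W.a₄)) < 1 := by
      refine v.map_sub_lt ?_ (val_mul_lt_one' v h4 hg)
      rw [v.map_pow]
      exact pow_lt_one' hl (by norm_num)
    rw [hD] at this
    exact lt_irrefl _ this

/-- **Same reduction**: an integral point with nonsingular reduction and its image under an
inertia-like ring homomorphism differ by an element of the kernel of reduction. -/
lemma same_red (s : K →+* K) (hs : ∀ z, v z ≤ 1 → v (s z - z) < 1)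
    (h2 : v 2 = 1) (ha : v W.a₂ ≤ 1) (hb : v W.a₄ ≤ 1)
    {x y : K} (h : W.Nonsingular x y) (h' : W.Nonsingular (s x) (s y))
    (hx : v x ≤ 1) (hns : v (2 * y) = 1 ∨ v (3 * x ^ 2 + 2 * W.a₂ * x + W.a₄) = 1) :
    InE1 v (Affine.Point.some _ _ h' - Affine.Point.some _ _ h) := by
  have hy : v y ≤ 1 := hW.val_y_le ha hb h.1 hx
  have hx' : v (s x - x) < 1 := hs x hx
  have hy' : v (s y - y) < 1 := hs y hy
  have hsx : v (s x) ≤ 1 := val_map_le_one v hs hx
  have e := hW.equation_iff.1 h.1
  have e' := hW.equation_iff.1 h'.1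
  have h20 : (2 : K) ≠ 0 := by
    intro h0
    rw [h0, v.map_zero] at h2
    exact zero_ne_one h2
  rw [sub_eq_add_neg, Affine.Point.neg_some]
  by_cases hxy : s x = x ∧ s y = W.negY x (W.negY x y)
  · left
    rw [Affine.negY_negY] at hxy
    exact Affine.Point.add_of_Y_eq hxy.1 (by rw [Affine.negY_negY]; exact hxy.2)
  · apply hW.exists_add_some_of_one_lt_slope h' _ hxy ha hsx hx
    rw [Affine.negY_negY] at hxy
    by_cases hne : s x = x
    · -- tangent case: `s y = -y ≠ y`
      have hyne : s y ≠ y := fun hy0 => hxy ⟨hne, hy0⟩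
      have hsq : (s y - y) * (s y + y) = 0 := by
        rw [hne] at e'
        linear_combination e' - e
      have hsy : s y = -y := by
        rcases mul_eq_zero.1 hsq with h0 | h0
        · exact absurd (sub_eq_zero.1 h0) hyne
        · exact eq_neg_of_add_eq_zero_left h0
      have hy0 : y ≠ 0 := by
        intro h0
        apply hyne
        rw [hsy, h0, neg_zero]
      have h2y : v (2 * y) < 1 := by
        have : s y - y = -(2 * y) := by rw [hsy]; ring
        rwa [this, v.map_neg] at hy'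
      have hf1 : v (3 * x ^ 2 + 2 * W.a₂ * x + W.a₄) = 1 := hns.resolve_left (ne_of_lt h2y)
      rw [Affine.slope_of_Y_ne hne (by rw [Affine.negY_negY]; exact hyne), hW.a₁, hW.negY_eq, hne,
        hsy]
      have : (3 * x ^ 2 + 2 * W.a₂ * x + W.a₄ - 0 * -y) / (-y - - -y) =
          (3 * x ^ 2 + 2 * W.a₂ * x + W.a₄) / (-(2 * y)) := by
        congr 1 <;> ring
      rw [this, v.map_div, hf1, v.map_neg, one_div]
      exact (one_lt_inv₀ (val_pos v (mul_ne_zero h20 hy0))).2 h2y
    · rw [Affine.slope_of_X_ne hne, hW.negY_eq, sub_neg_eq_add, v.map_div]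
      have hsub : s x - x ≠ 0 := sub_ne_zero.2 hne
      rw [one_lt_div₀ (val_pos v hsub)]
      -- `(s y - y)(s y + y) = (s x - x) g`
      have hkey : (s y - y) * (s y + y) =
          (s x - x) * ((s x) ^ 2 + s x * x + x ^ 2 + W.a₂ * (s x + x) + W.a₄) := by
        linear_combination e' - e
      rcases hns with h2y | hf1
      · have : s y + y = 2 * y + (s y - y) := by ring
        rw [this, v.map_add_eq_of_lt_left (by rw [h2y]; exact hy'), h2y]
        exact hx'
      · have hg : v ((s x) ^ 2 + s x * x + x ^ 2 + W.a₂ * (s x + x) + W.a₄) = 1 := by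
          have : (s x) ^ 2 + s x * x + x ^ 2 + W.a₂ * (s x + x) + W.a₄ =
              (3 * x ^ 2 + 2 * W.a₂ * x + W.a₄) + (s x - x) * (s x + 2 * x + W.a₂) := by ring
          rw [this, v.map_add_eq_of_lt_left, hf1]
          rw [hf1]
          refine val_mul_lt_one v hx' (v.map_add_le (v.map_add_le hsx ?_) ha)
          exact val_mul_le_one v h2.le hx
        have hv : v (s y - y) * v (s y + y) = v (s x - x) := by
          rw [← v.map_mul, hkey, v.map_mul, hg, mul_one]
        have hpos : 0 < v (s y + y) := by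
          rcases eq_or_ne (v (s y + y)) 0 with h0 | h0
          · rw [h0, mul_zero] at hv
            exact absurd hv.symm (ne_of_gt (val_pos v hsub))
          · exact zero_lt_iff.mpr h0
        rw [← hv]
        calc v (s y - y) * v (s y + y) < 1 * v (s y + y) := mul_lt_mul_of_pos_right hy' hpos
          _ = v (s y + y) := one_mul _

/-- **Node step**: a point reducing to the node, whose `x`-coordinate is a fixed element times
a unit, and its image under an inertia-like ring homomorphism differ by an element of the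
kernel of reduction. -/
lemma node_step (s : K →+* K) (hs : ∀ z, v z ≤ 1 → v (s z - z) < 1)
    (h2 : v 2 = 1) (ha : v W.a₂ = 1)
    {x y : K} (h : W.Nonsingular x y) (h' : W.Nonsingular (s x) (s y))
    (hx0 : x ≠ 0) (hx : v x < 1) (hbx : v W.a₄ < v x)
    {c w : K} (hxc : x = c * w) (hc : s c = c) (hw : v w = 1) :
    InE1 v (Affine.Point.some _ _ h' - Affine.Point.some _ _ h) := by
  have e := hW.equation_iff.1 h.1
  have e' := hW.equation_iff.1 h'.1
  have hc0 : c ≠ 0 := fun h0 => hx0 (by rw [hxc, h0, zero_mul])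
  have hvx : v x = v c := by rw [hxc, v.map_mul, hw, mul_one]
  -- `v (s x - x) < v x`
  have hsx_sub : v (s x - x) < v x := by
    have : s x - x = c * (s w - w) := by rw [hxc, map_mul, hc]; ring
    rw [this, v.map_mul, hvx]
    calc v c * v (s w - w) < v c * 1 :=
          mul_lt_mul_of_pos_left (hs w hw.le) (val_pos v hc0)
      _ = v c := mul_one _
  have hvsx : v (s x) = v x := by
    have : s x = x + (s x - x) := by ring
    rw [this, v.map_add_eq_of_lt_left hsx_sub]
  -- `μ = y / x` is a unit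
  set μ := y / x with hμ
  have hyμ : y = x * μ := by rw [hμ]; field_simp
  have hμ2 : μ ^ 2 = W.a₂ + (x + W.a₄ / x) := by
    rw [hμ, div_pow, e]; field_simp; ring
  have hvμ : v μ = 1 := by
    apply val_eq_one_of_sq v
    rw [hμ2, v.map_add_eq_of_lt_left, ha]
    rw [ha]
    refine v.map_add_lt hx ?_
    rw [v.map_div]
    exact (div_lt_one₀ (val_pos v hx0)).2 hbx
  have hsμ : v (s μ - μ) < 1 := hs μ hvμ.le
  have hsy : s y = s x * s μ := by rw [hyμ, map_mul]
  have h2μ : v (2 * x * μ) = v x := by rw [v.map_mul, v.map_mul, h2, hvμ, one_mul, mul_one]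
  -- `v (s y + y) = v x`
  have hsum : v (s y + y) = v x := by
    have : s y + y = 2 * x * μ + (s x * (s μ - μ) + (s x - x) * μ) := by
      rw [hsy, hyμ]; ring
    rw [this, v.map_add_eq_of_lt_left, h2μ]
    rw [h2μ]
    refine v.map_add_lt ?_ ?_
    · rw [v.map_mul, hvsx]
      calc v x * v (s μ - μ) < v x * 1 := mul_lt_mul_of_pos_left hsμ (val_pos v hx0)
        _ = v x := mul_one _
    · rw [v.map_mul, hvμ, mul_one]; exact hsx_sub
  have hsum0 : s y + y ≠ 0 := by
    intro h0
    rw [h0, v.map_zero] at hsum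
    exact (ne_of_gt (val_pos v hx0)) hsum.symm
  rw [sub_eq_add_neg, Affine.Point.neg_some]
  by_cases hne : s x = x
  · -- then `s y = y`
    left
    have hsq : (s y - y) * (s y + y) = 0 := by
      rw [hne] at e'
      linear_combination e' - e
    have hsyy : s y = y := by
      rcases mul_eq_zero.1 hsq with h0 | h0
      · exact sub_eq_zero.1 h0
      · exact absurd h0 hsum0
    exact Affine.Point.add_of_Y_eq hne (by rw [Affine.negY_negY]; exact hsyy)
  · have hxy : ¬(s x = x ∧ s y = W.negY x (W.negY x y)) := fun hh => hne hh.1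
    apply hW.exists_add_some_of_one_lt_slope h' _ hxy ha.le (hvsx ▸ hx.le) hx.le
    rw [Affine.slope_of_X_ne hne, hW.negY_eq, sub_neg_eq_add, v.map_div,
      one_lt_div₀ (val_pos v (sub_ne_zero.2 hne)), hsum]
    exact hsx_sub

/-- Translation by the 2-torsion point `(0,0)`. -/
lemma add_zero_zero {x y : K} (h : W.Nonsingular x y) (h₀ : W.Nonsingular 0 0) (hx0 : x ≠ 0) :
    ∃ X Y, ∃ H : W.Nonsingular X Y,
      Affine.Point.some _ _ h + Affine.Point.some _ _ h₀ = Affine.Point.some X Y H ∧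
        X = W.a₄ / x := by
  refine ⟨_, _, _, Affine.Point.add_of_X_ne hx0, ?_⟩
  rw [Affine.slope_of_X_ne hx0, WeierstrassCurve.Affine.addX, hW.a₁]
  have e := hW.equation_iff.1 h.1
  simp only [sub_zero, zero_mul, add_zero]
  rw [div_pow, e]
  field_simp
  ring

/-- `(0,0)` has order two. -/
lemma zero_zero_add_self (h₀ : W.Nonsingular 0 0) :
    Affine.Point.some _ _ h₀ + Affine.Point.some _ _ h₀ = 0 :=
  Affine.Point.add_self_of_Y_eq (by rw [hW.negY_eq, neg_zero])

lemma odd_nsmul_zero_zero (h₀ : W.Nonsingular 0 0) {p : ℕ} (hp : Odd p) :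
    p • Affine.Point.some _ _ h₀ = Affine.Point.some _ _ h₀ := by
  obtain ⟨k, rfl⟩ := hp
  rw [add_smul, one_smul, mul_comm, mul_smul, two_smul, hW.zero_zero_add_self h₀, smul_zero,
    zero_add]

/-- **Endgame.**  Let `s` be an inertia-like ring homomorphism inducing `τ` on points.
Assume the kernel of reduction has no `p`-torsion (`hKer`), that for `p`-torsion points `T`
reducing to the node, `T + (0,0)` is not a nonzero element of the kernel of reduction
(`hBdry`), and that `p`-torsion points strictly inside the node region have `x`-coordinate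
equal to a fixed element times a unit (`hNode`).  Then `τ` fixes every `p`-torsion point. -/
theorem endgame (h2 : v 2 = 1) (ha : v W.a₂ ≤ 1) (hb : v W.a₄ ≤ 1)
    (hD : v (W.a₂ ^ 2 - 4 * W.a₄) = 1)
    (s : K →+* K) (hs : ∀ z, v z ≤ 1 → v (s z - z) < 1)
    (τ : W.Point →+ W.Point)
    (hτ : ∀ x y (h : W.Nonsingular x y), ∃ h' : W.Nonsingular (s x) (s y),
      τ (Affine.Point.some x y h) = Affine.Point.some (s x) (s y) h')
    (p : ℕ)
    (hKer : ∀ T : W.Point, InE1 v T → p • T = 0 → T = 0)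
    (hBdry : v W.a₄ < 1 → ∀ x y (h : W.Nonsingular x y), p • Affine.Point.some x y h = 0 →
      v x < 1 → x ≠ 0 → ¬ 1 < v (W.a₄ / x))
    (hNode : v W.a₄ < 1 → ∀ x y (h : W.Nonsingular x y), p • Affine.Point.some x y h = 0 →
      v x < 1 → x ≠ 0 → v W.a₄ < v x → ∃ c w : K, x = c * w ∧ s c = c ∧ v w = 1)
    (T : W.Point) (hT : p • T = 0) : τ T = T := by
  -- it suffices to show `τ T - T` lies in the kernel of reduction
  suffices key : InE1 v (τ T - T) by
    have h0 : p • (τ T - T) = 0 := by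
      rw [smul_sub, ← map_nsmul, hT, map_zero, sub_zero]
    exact sub_eq_zero.1 (hKer _ key h0)
  rcases T with _ | ⟨x, y, h⟩
  · left
    change τ 0 - 0 = 0
    rw [map_zero, sub_zero]
  obtain ⟨h', hτT⟩ := hτ x y h
  rw [hτT]
  by_cases hx1 : 1 < v x
  · exact absurd (hKer _ (Or.inr ⟨x, y, h, rfl, hx1⟩) hT) (Affine.Point.some_ne_zero h)
  have hx : v x ≤ 1 := not_lt.mp hx1
  by_cases hE0 : v x = 1 ∨ v W.a₄ = 1
  · exact hW.same_red s hs h2 ha hb h h' hx (hW.nonsing_red h2 ha hb hD h.1 hx hE0)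
  push Not at hE0
  have hxlt : v x < 1 := lt_of_le_of_ne hx hE0.1
  have hblt : v W.a₄ < 1 := lt_of_le_of_ne hb hE0.2
  -- `a₂` is a unit
  have ha1 : v W.a₂ = 1 := by
    apply val_eq_one_of_sq v
    have : W.a₂ ^ 2 = (W.a₂ ^ 2 - 4 * W.a₄) + 4 * W.a₄ := by ring
    rw [this, v.map_add_eq_of_lt_left, hD]
    rw [hD]
    exact val_mul_lt_one' v (val_four_le v h2.le) hblt
  have e := hW.equation_iff.1 h.1
  by_cases hx0 : x = 0
  · -- the point `(0,0)` is fixed
    left
    subst hx0
    have hy0 : y = 0 := by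
      have : y ^ 2 = 0 := by rw [e]; ring
      exact pow_eq_zero_iff (by norm_num) |>.1 this
    subst hy0
    rw [sub_eq_zero]
    simp only [map_zero]
  by_cases hbx : v W.a₄ < v x
  · obtain ⟨c, w, hxc, hc, hw⟩ := hNode hblt x y h hT hxlt hx0 hbx
    exact hW.node_step s hs h2 ha1 h h' hx0 hxlt hbx hxc hc hw
  -- boundary case: `T + (0,0)` has unit `x`-coordinate
  have hb0 : W.a₄ ≠ 0 := by
    intro h0
    rw [h0, v.map_zero] at hbx
    exact hbx (val_pos v hx0)
  have h₀ : W.Nonsingular 0 0 := by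
    rw [WeierstrassCurve.Affine.nonsingular_zero]
    exact ⟨hW.a₆, Or.inr hb0⟩
  obtain ⟨X, Y, H, hsum, hXeq⟩ := hW.add_zero_zero h h₀ hx0
  have hX1 : v X = 1 := by
    apply le_antisymm
    · rw [hXeq]; exact not_lt.mp (hBdry hblt x y h hT hxlt hx0)
    · rw [hXeq, v.map_div, one_le_div₀ (val_pos v hx0)]
      exact not_lt.mp hbx
  obtain ⟨H', hτX⟩ := hτ X Y H
  have key' := hW.same_red s hs h2 ha hb H H' hX1.le
    (hW.nonsing_red h2 ha hb hD H.1 hX1.le (Or.inl hX1))
  -- `τ (T + T₀) - (T + T₀) = τ T - T`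
  obtain ⟨h₀', hτ0⟩ := hτ 0 0 h₀
  have hτ0' : τ (Affine.Point.some 0 0 h₀) = Affine.Point.some 0 0 h₀ := by
    rw [hτ0]
    simp only [map_zero]
  have : Affine.Point.some (s X) (s Y) H' - Affine.Point.some X Y H =
      Affine.Point.some (s x) (s y) h' - Affine.Point.some x y h := by
    rw [← hτX, ← hsum, map_add, hτ0', hτT]
    abel
  rw [← this]
  exact key'

/-- The boundary hypothesis of `endgame` follows from the strong form of
"the kernel of reduction is a torsion-free subgroup". -/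
lemma bdry_of_strong {p : ℕ} (hp : Odd p)
    (hstrong : ∀ T : W.Point, InE1 v T → T ≠ 0 → InE1 v (p • T))
    {x y : K} (h : W.Nonsingular x y) (hT : p • Affine.Point.some x y h = 0)
    (hx0 : x ≠ 0) (hb0 : W.a₄ ≠ 0) : ¬ 1 < v (W.a₄ / x) := by
  intro hlt
  have h₀ : W.Nonsingular 0 0 := by
    rw [WeierstrassCurve.Affine.nonsingular_zero]
    exact ⟨hW.a₆, Or.inr hb0⟩
  obtain ⟨X, Y, H, hsum, hXeq⟩ := hW.add_zero_zero h h₀ hx0
  have h1 : InE1 v (Affine.Point.some X Y H) := Or.inr ⟨X, Y, H, rfl, hXeq ▸ hlt⟩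
  have h2 := hstrong _ h1 (Affine.Point.some_ne_zero H)
  rw [← hsum, smul_add, hT, zero_add, hW.odd_nsmul_zero_zero h₀ hp] at h2
  rcases h2 with h0 | ⟨x', y', h'', heq, hlt'⟩
  · exact Affine.Point.some_ne_zero h₀ h0
  · have hx' : (0 : K) = x' := by
      have := heq
      simp only [Affine.Point.some.injEq] at this
      exact this.1
    rw [← hx', v.map_zero] at hlt'
    exact not_lt_zero hlt'

end IsABModel

end Fermat.Agent.S05.Endgame
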