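import Fermat.Agent.S05.Endgame
import Fermat.Agent.S05.Inertia
import Fermat.Agent.S05.KernelRedX
import Fermat.Agent.S05.Assembly

/-!
# S05: from the node-shape statement to `ModelUnramified`

`NodeShape` is the only input which is not proved here: for a `p`-torsion point of the model
curve `y² = x³ + αx² + π^p x` whose `x`-coordinate lies strictly between `0` and `π^p`
(in the valuation of `A`), the `x`-coordinate is a power of `q` times a unit of `A`.
-/

set_option autoImplicit false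

open WeierstrassCurve WeierstrassCurve.Affine WeierstrassCurve.Affine.Point

namespace Fermat.Agent.S05.EndgameFinal

open Fermat.Agent.S05.Endgame

/-- The node-shape statement (output of the component analysis). -/
def NodeShape : Prop :=
  ∀ (α π : ℤ) (p q : ℕ), p.Prime → p ≠ 2 → q.Prime → q ≠ 2 → q ≠ p → π ≠ 0 →
    (q : ℤ) ∣ π → ¬ (q : ℤ) ∣ α →
    ∀ A : ValuationSubring (AlgebraicClosure ℚ), A.LiesOverPrime q →
    ∀ (x y : AlgebraicClosure ℚ)
      (h : ((modelM ℚ (α : ℚ) ((π : ℚ) ^ p))⁄(AlgebraicClosure ℚ)).toAffine.Nonsingular x y),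
      p • Point.some x y h = 0 → x ∈ A.nonunits → x ≠ 0 →
      ((π : AlgebraicClosure ℚ) ^ p / x) ∈ A.nonunits →
      ∃ (j : ℕ) (w : AlgebraicClosure ℚ), x = (q : AlgebraicClosure ℚ) ^ j * w ∧ w ∈ A ∧ w⁻¹ ∈ A

/-- `ModelUnramified` with the extra hypothesis `π ≠ 0`. -/
def ModelUnramifiedNZ : Prop :=
  ∀ (α π : ℤ) (p q : ℕ), p.Prime → p ≠ 2 → q.Prime → q ≠ 2 → q ≠ p → π ≠ 0 →
    ((¬ (q : ℤ) ∣ π ∧ ¬ (q : ℤ) ∣ α ^ 2 - 4 * π ^ p) ∨ ((q : ℤ) ∣ π ∧ ¬ (q : ℤ) ∣ α)) →
    ∀ A : ValuationSubring (AlgebraicClosure ℚ), A.LiesOverPrime q →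
    ∀ σ ∈ A.inertiaSubgroupIn ℚ,
    ∀ T : ((modelM ℚ (α : ℚ) ((π : ℚ) ^ p))⁄(AlgebraicClosure ℚ)).toAffine.Point,
      p • T = 0 → σ • T = T

section vs

variable {L : Type*} [Field L] (A : ValuationSubring L)

lemma val_eq_one_of_mem_of_inv_mem {x : L} (hx0 : x ≠ 0) (hx : x ∈ A) (hxi : x⁻¹ ∈ A) :
    A.valuation x = 1 := by
  have h1 : A.valuation x ≤ 1 := (A.valuation_le_one_iff x).2 hx
  have h2 : A.valuation x⁻¹ ≤ 1 := (A.valuation_le_one_iff _).2 hxi
  rw [map_inv₀] at h2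
  have hpos : 0 < A.valuation x := zero_lt_iff.mpr ((A.valuation.ne_zero_iff).mpr hx0)
  exact le_antisymm h1 ((inv_le_one₀ hpos).1 h2)

lemma val_eq_one_of_mem_of_notMem_nonunits {x : L} (hx : x ∈ A) (hxn : x ∉ A.nonunits) :
    A.valuation x = 1 := by
  have h1 : A.valuation x ≤ 1 := (A.valuation_le_one_iff x).2 hx
  rw [ValuationSubring.mem_nonunits_iff, not_lt] at hxn
  exact le_antisymm h1 hxn

lemma one_lt_val_iff {x : L} : 1 < A.valuation x ↔ x ∉ A := by
  rw [← A.valuation_le_one_iff, not_le]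

end vs

section main

variable (α π : ℤ) (p q : ℕ)

/-- the model curve over `Qbar`. -/
noncomputable abbrev MW : Affine (AlgebraicClosure ℚ) :=
  ((modelM ℚ (α : ℚ) ((π : ℚ) ^ p))⁄(AlgebraicClosure ℚ)).toAffine

lemma MW_a₁ : (MW α π p).a₁ = 0 := by simp [MW, modelM]
lemma MW_a₂ : (MW α π p).a₂ = (α : AlgebraicClosure ℚ) := by simp [MW, modelM]
lemma MW_a₃ : (MW α π p).a₃ = 0 := by simp [MW, modelM]
lemma MW_a₄ : (MW α π p).a₄ = (π : AlgebraicClosure ℚ) ^ p := by simp [MW, modelM]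
lemma MW_a₆ : (MW α π p).a₆ = 0 := by simp [MW, modelM]

lemma MW_isABModel : IsABModel (MW α π p) := ⟨MW_a₁ α π p, MW_a₃ α π p, MW_a₆ α π p⟩

variable {α π p q}

/-- **Plumbing theorem**: the node-shape statement implies `ModelUnramifiedNZ`. -/
theorem modelUnramifiedNZ_of_nodeShape (hNS : NodeShape) : ModelUnramifiedNZ := by
  intro α π p q hp hp2 hq hq2 hqp hπ0 hcase A hA σ hσ T hT
  -- notation
  set W : Affine (AlgebraicClosure ℚ) := MW α π p with hWdef
  have hW : IsABModel W := MW_isABModel α π p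
  set v := A.valuation with hv
  -- integrality facts
  have hqdvd2 : ¬ q ∣ 2 := fun h => hq2 ((Nat.prime_dvd_prime_iff_eq hq Nat.prime_two).1 h)
  have hqdvdp : ¬ q ∣ p := fun h => hqp ((Nat.prime_dvd_prime_iff_eq hq hp).1 h)
  have h2 : v 2 = 1 := by
    have h2A : ((2 : ℕ) : AlgebraicClosure ℚ) ∈ A := natCast_mem A 2
    have h2i : ((2 : ℕ) : AlgebraicClosure ℚ)⁻¹ ∈ A := natCast_inv_mem_of_not_dvd hq hA hqdvd2
    have := val_eq_one_of_mem_of_inv_mem A (by norm_num) h2A h2i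
    simpa using this
  have ha : v W.a₂ ≤ 1 := by
    rw [hWdef, MW_a₂]
    exact (A.valuation_le_one_iff _).2 (intCast_mem A α)
  have hbA : W.a₄ ∈ A := by
    rw [hWdef, MW_a₄]
    exact pow_mem (intCast_mem A π) p
  have hb : v W.a₄ ≤ 1 := (A.valuation_le_one_iff _).2 hbA
  -- the discriminant is a unit
  have hDdvd : ¬ (q : ℤ) ∣ α ^ 2 - 4 * π ^ p := by
    rcases hcase with hc | hc
    · exact hc.2
    · intro hdvd
      have h1 : (q : ℤ) ∣ 4 * π ^ p :=
        Dvd.dvd.mul_left (dvd_pow hc.1 hp.ne_zero) 4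
      have h2 : (q : ℤ) ∣ α ^ 2 := by
        have := dvd_add hdvd h1
        simpa using this
      exact hc.2 ((Nat.prime_iff_prime_int.1 hq).dvd_of_dvd_pow h2)
  have hD : v (W.a₂ ^ 2 - 4 * W.a₄) = 1 := by
    have hcast : W.a₂ ^ 2 - 4 * W.a₄ = ((α ^ 2 - 4 * π ^ p : ℤ) : AlgebraicClosure ℚ) := by
      rw [hWdef, MW_a₂, MW_a₄]
      push_cast
      ring
    rw [hcast]
    apply val_eq_one_of_mem_of_notMem_nonunits A (intCast_mem A _)
    rw [intCast_mem_nonunits_iff hq hA]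
    exact hDdvd
  -- the inertia-like ring hom
  set s : AlgebraicClosure ℚ →+* AlgebraicClosure ℚ := (σ.toAlgHom : _ →ₐ[ℚ] _).toRingHom with hsdef
  have hs : ∀ z, v z ≤ 1 → v (s z - z) < 1 := by
    intro z hz
    have hzA : z ∈ A := (A.valuation_le_one_iff z).1 hz
    have := apply_sub_mem_nonunits_of_mem_inertiaSubgroupIn hσ hzA
    exact (ValuationSubring.mem_nonunits_iff A).1 this
  -- the induced map on points
  set τ : W.Point →+ W.Point := Point.map (W' := modelM ℚ (α : ℚ) ((π : ℚ) ^ p)) σ.toAlgHom with hτdef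
  have hτ : ∀ x y (h : W.Nonsingular x y), ∃ h' : W.Nonsingular (s x) (s y),
      τ (Point.some x y h) = Point.some (s x) (s y) h' := fun x y h => ⟨_, rfl⟩
  -- the kernel of reduction
  have hB : KR.IntegralB A W := by
    apply KR.integralB_of_a A W
    · rw [hW.a₁]; exact A.zero_mem
    · exact (A.valuation_le_one_iff _).1 ha
    · rw [hW.a₃]; exact A.zero_mem
    · exact hbA
    · rw [hW.a₆]; exact A.zero_mem
  have hpn : ((p : ℕ) : AlgebraicClosure ℚ) ∉ A.nonunits := by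
    rw [natCast_mem_nonunits_iff hq hA]
    exact hqdvdp
  have hE1 : ∀ T : W.Point, InE1 v T ↔
      (T = 0 ∨ ∃ (x y : AlgebraicClosure ℚ) (h : W.Nonsingular x y),
        T = Point.some x y h ∧ x ∉ A) := by
    intro T
    unfold InE1
    simp only [hv, one_lt_val_iff]
  have hKer : ∀ T : W.Point, InE1 v T → p • T = 0 → T = 0 := by
    intro T hT1 hpT
    exact KR.eq_zero_of_nsmul_eq_zero_of_x_notMem hB hpn T hpT ((hE1 T).1 hT1)
  have hstrong : ∀ T : W.Point, InE1 v T → T ≠ 0 → InE1 v (p • T) := by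
    intro T hT1 _
    rw [hE1, ← KR.kerRed_iff]
    exact KR.kerRed_nsmul hB ((KR.kerRed_iff A W T).2 ((hE1 T).1 hT1)) p
  have hpodd : Odd p := hp.odd_of_ne_two hp2
  have hb0 : W.a₄ ≠ 0 := by
    rw [hWdef, MW_a₄]
    exact pow_ne_zero p (Int.cast_ne_zero.2 hπ0)
  have hBdry : v W.a₄ < 1 → ∀ x y (h : W.Nonsingular x y), p • Point.some x y h = 0 →
      v x < 1 → x ≠ 0 → ¬ 1 < v (W.a₄ / x) := by
    intro _ x y h hpT _ hx0
    exact hW.bdry_of_strong hpodd hstrong h hpT hx0 hb0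
  have hNode : v W.a₄ < 1 → ∀ x y (h : W.Nonsingular x y), p • Point.some x y h = 0 →
      v x < 1 → x ≠ 0 → v W.a₄ < v x → ∃ c w : AlgebraicClosure ℚ, x = c * w ∧ s c = c ∧ v w = 1 := by
    intro hblt x y h hpT hxlt hx0 hbx
    -- we are in the node case
    have hqπ : (q : ℤ) ∣ π := by
      have h1 : ((π ^ p : ℤ) : AlgebraicClosure ℚ) ∈ A.nonunits := by
        rw [ValuationSubring.mem_nonunits_iff]
        have : W.a₄ = ((π ^ p : ℤ) : AlgebraicClosure ℚ) := by
          rw [hWdef, MW_a₄]; push_cast; rfl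
        rw [← this]; exact hblt
      rw [intCast_mem_nonunits_iff hq hA] at h1
      exact (Nat.prime_iff_prime_int.1 hq).dvd_of_dvd_pow h1
    have hqα : ¬ (q : ℤ) ∣ α := by
      rcases hcase with hc | hc
      · exact absurd hqπ hc.1
      · exact hc.2
    have hxm : x ∈ A.nonunits := (ValuationSubring.mem_nonunits_iff A).2 hxlt
    have hbxm : ((π : AlgebraicClosure ℚ) ^ p / x) ∈ A.nonunits := by
      rw [ValuationSubring.mem_nonunits_iff, map_div₀]
      rw [hWdef, MW_a₄] at hbx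
      exact (div_lt_one₀ (zero_lt_iff.mpr ((A.valuation.ne_zero_iff).mpr hx0))).2 hbx
    obtain ⟨j, w, hxw, hwA, hwiA⟩ := hNS α π p q hp hp2 hq hq2 hqp hπ0 hqπ hqα A hA x y h hpT
      hxm hx0 hbxm
    refine ⟨(q : AlgebraicClosure ℚ) ^ j, w, hxw, ?_, ?_⟩
    · rw [hsdef]
      change σ ((q : AlgebraicClosure ℚ) ^ j) = _
      rw [map_pow, map_natCast]
    · have hw0 : w ≠ 0 := by
        intro h0
        apply hx0
        rw [hxw, h0, mul_zero]
      exact val_eq_one_of_mem_of_inv_mem A hw0 hwA hwiA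
  exact hW.endgame h2 ha hb hD s hs τ hτ p hKer hBdry hNode T hT

end main

end Fermat.Agent.S05.EndgameFinal
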