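import Fermat.Agent.S05.EndgameFinal

/-!
# S05: `ModelUnramifiedNZ` (the model statement with `π ≠ 0`) implies the frozen statement
-/

set_option autoImplicit false

open WeierstrassCurve WeierstrassCurve.Affine WeierstrassCurve.Affine.Point

namespace Fermat.Agent.S05.Final

open Fermat.Agent.S05 Fermat.Agent.S05.EndgameFinal

/-- Step 0 with the extra information `π ≠ 0`. -/
theorem frey_model_nz (P : FreyPackage) {q : ℕ} (hq : q.Prime) :
    ∃ (α π : ℤ) (C : VariableChange ℚ), π ≠ 0 ∧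
      P.freyCurve = C • modelM ℚ (α : ℚ) ((π : ℚ) ^ P.p) ∧
      ((¬ (q : ℤ) ∣ π ∧ ¬ (q : ℤ) ∣ α ^ 2 - 4 * π ^ P.p) ∨ ((q : ℤ) ∣ π ∧ ¬ (q : ℤ) ∣ α)) := by
  have hqZ : Prime (q : ℤ) := Nat.prime_iff_prime_int.mp hq
  have hodd : Odd P.p := P.hp_odd
  by_cases hc : (q : ℤ) ∣ P.c
  · refine ⟨P.a ^ P.p + P.c ^ P.p, P.a * P.c, freyChange (-(P.a : ℚ) ^ P.p),
      mul_ne_zero P.ha0 P.hc0, freyCurve_eq_M2 P, Or.inr ⟨?_, ?_⟩⟩
    · exact hc.mul_left _
    · intro h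
      have hcp : (q : ℤ) ∣ P.c ^ P.p := dvd_pow hc P.hp0
      have hap : (q : ℤ) ∣ P.a ^ P.p := (dvd_add_left hcp).mp h
      exact not_dvd_both_of_gcd_eq_one hq P.hgcdac (hqZ.dvd_of_dvd_pow hap) hc
  · by_cases hab : (q : ℤ) ∣ P.a * P.b
    · refine ⟨P.b ^ P.p - P.a ^ P.p, -(P.a * P.b), freyChange 0,
        neg_ne_zero.mpr (mul_ne_zero P.ha0 P.hb0), freyCurve_eq_M1 P, Or.inr ⟨?_, ?_⟩⟩
      · exact (dvd_neg).mpr hab
      · intro h
        rcases hqZ.dvd_or_dvd hab with ha | hb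
        · have hap : (q : ℤ) ∣ P.a ^ P.p := dvd_pow ha P.hp0
          have hbp : (q : ℤ) ∣ P.b ^ P.p := (dvd_sub_left hap).mp h
          exact not_dvd_both_of_gcd_eq_one hq P.hgcdab ha (hqZ.dvd_of_dvd_pow hbp)
        · have hbp : (q : ℤ) ∣ P.b ^ P.p := dvd_pow hb P.hp0
          have hap : (q : ℤ) ∣ P.a ^ P.p := (dvd_sub_right hbp).mp h
          exact not_dvd_both_of_gcd_eq_one hq P.hgcdab (hqZ.dvd_of_dvd_pow hap) hb
    · refine ⟨P.b ^ P.p - P.a ^ P.p, -(P.a * P.b), freyChange 0,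
        neg_ne_zero.mpr (mul_ne_zero P.ha0 P.hb0), freyCurve_eq_M1 P, Or.inl ⟨?_, ?_⟩⟩
      · rwa [dvd_neg]
      · have hid : (P.b ^ P.p - P.a ^ P.p) ^ 2 - 4 * (-(P.a * P.b)) ^ P.p = (P.c ^ P.p) ^ 2 := by
          rw [hodd.neg_pow, mul_pow, ← P.hFLT]
          ring
        rw [hid]
        intro h
        exact hc (hqZ.dvd_of_dvd_pow (hqZ.dvd_of_dvd_pow h))

/-- S05 follows from the endgame statement for the model curve (with `π ≠ 0`). -/
theorem unramified_of_modelNZ (hmodel : ModelUnramifiedNZ) (P : FreyPackage) {q : ℕ}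
    (hq : q.Prime) (hq2 : q ≠ 2) (hqp : q ≠ P.p) : P.GaloisRepUnramifiedAt q := by
  intro A hA σ hσ x
  obtain ⟨α, π, C, hπ0, hC, hcase⟩ := frey_model_nz P hq
  have hp2 : P.p ≠ 2 := by have := P.hp5; omega
  have key : ∀ T : ((P.freyCurve)⁄(AlgebraicClosure ℚ)).toAffine.Point,
      P.p • T = 0 → σ • T = T := by
    rw [hC]
    intro T hT
    exact smul_eq_self_of_model' (S := ℚ) (modelM ℚ (α : ℚ) ((π : ℚ) ^ P.p)) C σ P.p
      (hmodel α π P.p q P.pp hp2 hq hq2 hqp hπ0 hcase A hA σ hσ) T hT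
  apply Subtype.ext
  have hx : P.p • x.1 = 0 := by
    have := x.2
    rw [Submodule.mem_torsionBy_iff] at this
    rw [← Nat.cast_smul_eq_nsmul ℤ]
    exact this
  exact key x.1 hx

/-- S05 follows from the node-shape statement. -/
theorem unramified_of_nodeShape (hNS : NodeShape) (P : FreyPackage) {q : ℕ}
    (hq : q.Prime) (hq2 : q ≠ 2) (hqp : q ≠ P.p) : P.GaloisRepUnramifiedAt q :=
  unramified_of_modelNZ (modelUnramifiedNZ_of_nodeShape hNS) P hq hq2 hqp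

end Fermat.Agent.S05.Final
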