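import Mathlib.AlgebraicGeometry.EllipticCurve.Affine.Point
import Mathlib.RingTheory.Valuation.ValuationSubring

/-!
# The node case of S05: the signed component map

For the curve `y² = x³ + a x² + b x` over a field `K` with a valuation `v` such that `2, a` are
units and `0 < v b < 1` (multiplicative notation), and a square root `ρ` of `a`, we define the
component map `comp : E(K) → Γ₀ˣ / ⟨v(b)²⟩` and prove that it is additive (`comp_add`).
Consequence (`torsion_val`): an odd-order torsion point `(x, y)` with `v x < 1` has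
`v b < v x` and `(v x)^n ∈ ⟨v(b)²⟩`.

Everything works for an arbitrary valuation (no rank-one hypothesis).
-/

set_option autoImplicit false
set_option linter.unusedSectionVars false

namespace Fermat.Agent.S05.Node

open WeierstrassCurve WeierstrassCurve.Affine

section Algebra

variable {K : Type*} [Field K]

theorem slope_chord (x₁ x₂ y₁ y₂ a b : K) (hx₁ : x₁ ≠ 0) (hx₂ : x₂ ≠ 0) (hx : x₁ ≠ x₂)
    (hm : y₁ / x₁ + y₂ / x₂ ≠ 0)
    (e₁ : y₁ ^ 2 = x₁ ^ 3 + a * x₁ ^ 2 + b * x₁) (e₂ : y₂ ^ 2 = x₂ ^ 3 + a * x₂ ^ 2 + b * x₂) :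
    (y₁ - y₂) / (x₁ - x₂) =
      y₁ / x₁ + x₂ * ((1 - b / (x₁ * x₂)) / (y₁ / x₁ + y₂ / x₂)) := by
  have hx' : x₁ - x₂ ≠ 0 := sub_ne_zero.mpr hx
  have hb : b = (y₁ ^ 2 - x₁ ^ 3 - a * x₁ ^ 2) / x₁ := by
    rw [eq_div_iff hx₁]; linear_combination -e₁
  have ha : a = (y₁ ^ 2 * x₂ - y₂ ^ 2 * x₁ - x₁ * x₂ * (x₁ ^ 2 - x₂ ^ 2)) /
      (x₁ * x₂ * (x₁ - x₂)) := by
    rw [eq_div_iff (by simp [hx₁, hx₂, hx'])]; linear_combination -x₂ * e₁ + x₁ * e₂
  rw [← mul_div_assoc, ← sub_eq_iff_eq_add', eq_div_iff hm]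
  rw [hb, ha]
  field_simp
  ring

theorem slope_tangent (x y a b : K) (hx : x ≠ 0) (hy : y ≠ 0) (h2 : (2 : K) ≠ 0)
    (e : y ^ 2 = x ^ 3 + a * x ^ 2 + b * x) :
    (3 * x ^ 2 + 2 * a * x + b) / (y - -y) =
      y / x + x * ((1 - b / (x * x)) / (y / x + y / x)) := by
  have hb : b = (y ^ 2 - x ^ 3 - a * x ^ 2) / x := by
    rw [eq_div_iff hx]; linear_combination -e
  have h1 : y - -y = 2 * y := by ring
  have h3 : y / x + y / x = 2 * y / x := by ring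
  rw [hb, h1, h3]
  field_simp
  ring

theorem addX_chord (x₁ x₂ y₁ y₂ a b : K) (hx₁ : x₁ ≠ 0) (hx₂ : x₂ ≠ 0) (hx : x₁ ≠ x₂)
    (e₁ : y₁ ^ 2 = x₁ ^ 3 + a * x₁ ^ 2 + b * x₁) (e₂ : y₂ ^ 2 = x₂ ^ 3 + a * x₂ ^ 2 + b * x₂) :
    ((y₁ - y₂) / (x₁ - x₂)) ^ 2 - a - x₁ - x₂ =
      x₁ * ((y₁ - y₂) / (x₁ - x₂) - y₁ / x₁) ^ 2 / x₂ := by
  have hx' : x₁ - x₂ ≠ 0 := sub_ne_zero.mpr hx
  have ha : a = (y₁ ^ 2 * x₂ - y₂ ^ 2 * x₁ - x₁ * x₂ * (x₁ ^ 2 - x₂ ^ 2)) /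
      (x₁ * x₂ * (x₁ - x₂)) := by
    rw [eq_div_iff (by simp [hx₁, hx₂, hx'])]; linear_combination -x₂ * e₁ + x₁ * e₂
  rw [ha]
  field_simp
  ring

theorem addX_tangent (x y a b : K) (hx : x ≠ 0) (hy : y ≠ 0) (h2 : (2 : K) ≠ 0)
    (e : y ^ 2 = x ^ 3 + a * x ^ 2 + b * x) :
    ((3 * x ^ 2 + 2 * a * x + b) / (y - -y)) ^ 2 - a - x - x =
      x * ((3 * x ^ 2 + 2 * a * x + b) / (y - -y) - y / x) ^ 2 / x := by
  have hb : b = (y ^ 2 - x ^ 3 - a * x ^ 2) / x := by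
    rw [eq_div_iff hx]; linear_combination -e
  have h1 : y - -y = 2 * y := by ring
  rw [hb, h1]
  field_simp
  ring

end Algebra

section Chord

variable {K : Type*} [Field K] {W : WeierstrassCurve K}

/-- The curve is of the shape `y² = x³ + a x² + b x`. -/
structure IsNodeShape (W : WeierstrassCurve K) : Prop where
  a₁ : W.a₁ = 0
  a₃ : W.a₃ = 0
  a₆ : W.a₆ = 0

theorem IsNodeShape.equation (hW : IsNodeShape W) {x y : K} (h : W.toAffine.Equation x y) :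
    y ^ 2 = x ^ 3 + W.a₂ * x ^ 2 + W.a₄ * x := by
  have := (Affine.equation_iff (W := W.toAffine) x y).mp h
  simpa [hW.a₁, hW.a₃, hW.a₆] using this

theorem IsNodeShape.negY (hW : IsNodeShape W) (x y : K) : W.toAffine.negY x y = -y := by
  simp [Affine.negY, hW.a₁, hW.a₃]

/-- `m² = x + a + b/x` for `m = y/x`. -/
theorem IsNodeShape.m_sq (hW : IsNodeShape W) {x y : K} (h : W.toAffine.Equation x y)
    (hx : x ≠ 0) : (y / x) ^ 2 = x + W.a₂ + W.a₄ / x := by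
  have := hW.equation h
  field_simp
  rw [this]; ring

variable [DecidableEq K]

/-- The chord-and-tangent formula in the coordinates `(x, m = y/x)`: with
`κ = (1 - b/(x₁x₂)) / (m₁ + m₂)` the sum has `x₃ = x₁ x₂ κ²` and
`y₃ = -(m₁ + x₂ κ) x₃ + x₁ x₂ κ`. Covers both the chord and the tangent case. -/
theorem IsNodeShape.add_formula (hW : IsNodeShape W) (h2 : (2 : K) ≠ 0) {x₁ y₁ x₂ y₂ : K}
    (h₁ : W.toAffine.Nonsingular x₁ y₁) (h₂ : W.toAffine.Nonsingular x₂ y₂)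
    (hx₁ : x₁ ≠ 0) (hx₂ : x₂ ≠ 0) (hm : y₁ / x₁ + y₂ / x₂ ≠ 0) :
    ∃ (x₃ y₃ : K) (h₃ : W.toAffine.Nonsingular x₃ y₃),
      Point.some x₁ y₁ h₁ + Point.some x₂ y₂ h₂ = Point.some x₃ y₃ h₃ ∧
      x₃ = x₁ * x₂ * ((1 - W.a₄ / (x₁ * x₂)) / (y₁ / x₁ + y₂ / x₂)) ^ 2 ∧
      y₃ = -(y₁ / x₁ + x₂ * ((1 - W.a₄ / (x₁ * x₂)) / (y₁ / x₁ + y₂ / x₂))) * x₃ +
        x₁ * x₂ * ((1 - W.a₄ / (x₁ * x₂)) / (y₁ / x₁ + y₂ / x₂)) := by
  have e₁ := hW.equation h₁.1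
  have e₂ := hW.equation h₂.1
  -- common final step
  have key : ∀ ℓ : K, ℓ = y₁ / x₁ + x₂ * ((1 - W.a₄ / (x₁ * x₂)) / (y₁ / x₁ + y₂ / x₂)) →
      ℓ ^ 2 - W.a₂ - x₁ - x₂ = x₁ * (ℓ - y₁ / x₁) ^ 2 / x₂ →
      W.toAffine.addX x₁ x₂ ℓ =
        x₁ * x₂ * ((1 - W.a₄ / (x₁ * x₂)) / (y₁ / x₁ + y₂ / x₂)) ^ 2 ∧
      W.toAffine.addY x₁ x₂ y₁ ℓ =
        -(y₁ / x₁ + x₂ * ((1 - W.a₄ / (x₁ * x₂)) / (y₁ / x₁ + y₂ / x₂))) *
          W.toAffine.addX x₁ x₂ ℓ +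
        x₁ * x₂ * ((1 - W.a₄ / (x₁ * x₂)) / (y₁ / x₁ + y₂ / x₂)) := by
    intro ℓ hℓ hX
    have hXX : W.toAffine.addX x₁ x₂ ℓ =
        x₁ * x₂ * ((1 - W.a₄ / (x₁ * x₂)) / (y₁ / x₁ + y₂ / x₂)) ^ 2 := by
      simp only [Affine.addX, hW.a₁]
      change ℓ ^ 2 + 0 * ℓ - W.a₂ - x₁ - x₂ = _
      rw [zero_mul, add_zero, hX, hℓ]
      generalize (1 - W.a₄ / (x₁ * x₂)) / (y₁ / x₁ + y₂ / x₂) = κ
      field_simp
      ring
    refine ⟨hXX, ?_⟩
    simp only [Affine.addY, Affine.negAddY, Affine.negY, hW.a₁, hW.a₃]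
    rw [← hℓ]
    have : y₁ / x₁ * x₁ = y₁ := by field_simp
    have h3 : x₁ * x₂ * ((1 - W.a₄ / (x₁ * x₂)) / (y₁ / x₁ + y₂ / x₂)) = (ℓ - y₁ / x₁) * x₁ := by
      rw [hℓ]; ring
    rw [h3]
    linear_combination this
  by_cases hx : x₁ = x₂
  · subst hx
    have hy : y₁ = y₂ := by
      rcases Y_eq_of_X_eq h₁.1 h₂.1 rfl with h | h
      · exact h
      · exfalso; apply hm
        rw [h, hW.negY]; field_simp; ring
    subst hy
    have hy0 : y₁ ≠ 0 := by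
      rintro rfl; apply hm; simp
    have hne : y₁ ≠ W.toAffine.negY x₁ y₁ := by
      rw [hW.negY]; intro h
      apply hy0
      have : (2 : K) * y₁ = 0 := by linear_combination h
      rcases mul_eq_zero.mp this with h | h
      · exact absurd h h2
      · exact h
    have hs : W.toAffine.slope x₁ x₁ y₁ y₁ = (3 * x₁ ^ 2 + 2 * W.a₂ * x₁ + W.a₄) / (y₁ - -y₁) := by
      rw [slope_of_Y_ne rfl hne, hW.negY]
      simp [hW.a₁]
    obtain ⟨k1, k2⟩ := key _ (hs.trans (slope_tangent x₁ y₁ W.a₂ W.a₄ hx₁ hy0 h2 e₁))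
      (by rw [hs]; exact addX_tangent x₁ y₁ W.a₂ W.a₄ hx₁ hy0 h2 e₁)
    exact ⟨_, _, _, Point.add_of_Y_ne hne, k1, k2⟩
  · have hs : W.toAffine.slope x₁ x₂ y₁ y₂ = (y₁ - y₂) / (x₁ - x₂) := slope_of_X_ne hx
    obtain ⟨k1, k2⟩ := key _ (hs.trans (slope_chord x₁ x₂ y₁ y₂ W.a₂ W.a₄ hx₁ hx₂ hx hm e₁ e₂))
      (by rw [hs]; exact addX_chord x₁ x₂ y₁ y₂ W.a₂ W.a₄ hx₁ hx₂ hx e₁ e₂)
    exact ⟨_, _, _, Point.add_of_X_ne hx, k1, k2⟩

/-- Translation by the two-torsion point `T₁ = (0,0)`: `(x, y) + (0,0) = (b/x, -b y / x²)`. -/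
theorem IsNodeShape.add_T1 (hW : IsNodeShape W) {x y : K}
    (h : W.toAffine.Nonsingular x y) (h0 : W.toAffine.Nonsingular 0 0) (hx : x ≠ 0) :
    ∃ (h' : W.toAffine.Nonsingular (W.a₄ / x) (-(W.a₄ * y) / x ^ 2)),
      Point.some x y h + Point.some 0 0 h0 = Point.some _ _ h' := by
  have e := hW.m_sq h.1 hx
  have hs : W.toAffine.slope x 0 y 0 = y / x := by
    rw [slope_of_X_ne hx]; simp
  have hX : W.toAffine.addX x 0 (y / x) = W.a₄ / x := by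
    simp only [Affine.addX, hW.a₁]
    change (y / x) ^ 2 + 0 * (y / x) - W.a₂ - x - 0 = _
    rw [e]; ring
  have hY : W.toAffine.addY x 0 y (y / x) = -(W.a₄ * y) / x ^ 2 := by
    simp only [Affine.addY, Affine.negAddY, Affine.negY, hW.a₁, hW.a₃, hX]
    field_simp
    ring
  have key := Point.add_of_X_ne (W := W.toAffine) (h₁ := h) (h₂ := h0) hx
  have hns := nonsingular_add h h0 (fun hxy => hx hxy.left)
  rw [hs, hX, hY] at hns
  refine ⟨hns, ?_⟩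
  rw [key]
  congr 1 <;> simp only [hs, hX, hY]

theorem IsNodeShape.T1_add_T1 (hW : IsNodeShape W) (h0 : W.toAffine.Nonsingular 0 0) :
    Point.some 0 0 h0 + Point.some 0 0 h0 = 0 :=
  Point.add_of_Y_eq rfl (by rw [hW.negY]; simp)

theorem IsNodeShape.y_eq_zero_of_x_eq_zero (hW : IsNodeShape W) {y : K}
    (h : W.toAffine.Equation 0 y) : y = 0 := by
  have := hW.equation h
  simpa using this

theorem IsNodeShape.nonsingular_zero (hW : IsNodeShape W) (hb : W.a₄ ≠ 0) :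
    W.toAffine.Nonsingular 0 0 := by
  rw [Affine.nonsingular_iff']
  refine ⟨?_, Or.inl ?_⟩
  · rw [Affine.equation_iff]; simp [hW.a₆]
  · simpa [hW.a₁] using hb

end Chord

section Val

variable {K : Type*} [Field K] {Γ₀ : Type*} [LinearOrderedCommGroupWithZero Γ₀]

/-- The hypotheses on the model: `y² = x³ + a x² + b x` with `2, a` units, `b ≠ 0` in the
maximal ideal, and `ρ` a square root of `a`. -/
structure NodeModel (v : Valuation K Γ₀) (W : WeierstrassCurve K) (ρ : K) : Prop where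
  shape : IsNodeShape W
  v2 : v 2 = 1
  va : v W.a₂ = 1
  b_ne : W.a₄ ≠ 0
  vb : v W.a₄ < 1
  hρ : ρ ^ 2 = W.a₂

variable {v : Valuation K Γ₀} {W : WeierstrassCurve K} {ρ : K}

namespace NodeModel

theorem two_ne (M : NodeModel v W ρ) : (2 : K) ≠ 0 := by
  intro h
  have := M.v2
  rw [h, map_zero] at this
  exact zero_ne_one this

theorem vρ (M : NodeModel v W ρ) : v ρ = 1 := by
  have : v ρ ^ 2 = 1 := by rw [← map_pow, M.hρ, M.va]
  exact sq_eq_one.mp this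

theorem v2ρ (M : NodeModel v W ρ) : v (2 * ρ) = 1 := by
  rw [map_mul, M.v2, M.vρ, one_mul]

theorem vb_pos (M : NodeModel v W ρ) : 0 < v W.a₄ :=
  zero_lt_iff.mpr ((Valuation.ne_zero_iff v).mpr M.b_ne)

end NodeModel

/-- The "near the node, on the branch `m ≡ ρ`" condition on an affine point `(x, y)`. -/
structure IsNp (v : Valuation K Γ₀) (W : WeierstrassCurve K) (ρ : K) (x y : K) : Prop where
  x_lt : v x < 1
  b_lt : v W.a₄ < v x
  sign : v (y / x - ρ) < 1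

namespace IsNp

variable {x y : K}

theorem x_ne (h : IsNp v W ρ x y) : x ≠ 0 := by
  rintro rfl
  have := h.b_lt
  rw [map_zero] at this
  exact not_lt_zero this

theorem vx_pos (h : IsNp v W ρ x y) : 0 < v x :=
  zero_lt_iff.mpr ((Valuation.ne_zero_iff v).mpr h.x_ne)

theorem vm_add (M : NodeModel v W ρ) (h : IsNp v W ρ x y) : v (y / x + ρ) = 1 := by
  have : y / x + ρ = (y / x - ρ) + 2 * ρ := by ring
  rw [this, Valuation.map_add_eq_of_lt_right]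
  · exact M.v2ρ
  · rw [M.v2ρ]; exact h.sign

theorem vm (M : NodeModel v W ρ) (h : IsNp v W ρ x y) : v (y / x) = 1 := by
  have : y / x = (y / x - ρ) + ρ := by ring
  rw [this, Valuation.map_add_eq_of_lt_right]
  · exact M.vρ
  · rw [M.vρ]; exact h.sign

end IsNp

/-- Sum of slopes of two points on the `ρ`-branch is a unit. -/
theorem v_m_add_m (M : NodeModel v W ρ) {x₁ y₁ x₂ y₂ : K} (h₁ : IsNp v W ρ x₁ y₁)
    (h₂ : IsNp v W ρ x₂ y₂) : v (y₁ / x₁ + y₂ / x₂) = 1 := by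
  have : y₁ / x₁ + y₂ / x₂ = ((y₁ / x₁ - ρ) + (y₂ / x₂ - ρ)) + 2 * ρ := by ring
  rw [this, Valuation.map_add_eq_of_lt_right]
  · exact M.v2ρ
  · rw [M.v2ρ]; exact Valuation.map_add_lt v h₁.sign h₂.sign

/-- For a point with `v x < 1` and `v b < v x`, the slope `m = y/x` is congruent to `ρ` or `-ρ`. -/
theorem sign_dichotomy (M : NodeModel v W ρ) {x y : K} (h : W.toAffine.Equation x y)
    (hx1 : v x < 1) (hbx : v W.a₄ < v x) : v (y / x - ρ) < 1 ∨ v (y / x + ρ) < 1 := by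
  have hx : x ≠ 0 := by
    rintro rfl; rw [map_zero] at hbx; exact not_lt_zero hbx
  have hvx : 0 < v x := zero_lt_iff.mpr ((Valuation.ne_zero_iff v).mpr hx)
  have e := M.shape.m_sq h hx
  have hprod : (y / x - ρ) * (y / x + ρ) = x + W.a₄ / x := by
    have : (y / x - ρ) * (y / x + ρ) = (y / x) ^ 2 - ρ ^ 2 := by ring
    rw [this, e, M.hρ]; ring
  have hlt : v ((y / x - ρ) * (y / x + ρ)) < 1 := by
    rw [hprod]
    apply Valuation.map_add_lt v hx1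
    rw [map_div₀, div_lt_one₀ hvx]; exact hbx
  rw [map_mul] at hlt
  by_contra hcon
  rw [not_or, not_lt, not_lt] at hcon
  exact absurd (one_le_mul_of_one_le_of_one_le hcon.1 hcon.2) (not_le.mpr hlt)

theorem m3_eq {x₁ x₂ m₁ κ x₃ y₃ : K} (hx₁ : x₁ ≠ 0) (hx₂ : x₂ ≠ 0) (hκ : κ ≠ 0)
    (hx₃ : x₃ = x₁ * x₂ * κ ^ 2) (hy₃ : y₃ = -(m₁ + x₂ * κ) * x₃ + x₁ * x₂ * κ) :
    y₃ / x₃ = -(m₁ + x₂ * κ) + 1 / κ := by
  rw [hy₃, hx₃]; field_simp

theorem m3_sub_eq {m₁ m₂ x₂ u s ρ : K} (hu : u ≠ 0) (hs : s ≠ 0) (hsd : s = m₁ + m₂) :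
    -(m₁ + x₂ * (u / s)) + 1 / (u / s) - ρ =
      (m₂ - ρ) - x₂ * (u / s) + s * ((1 - u) / u) := by
  subst hsd; field_simp; ring

theorem m3_add_eq {m₁ x₂ κ ρ : K} :
    -(m₁ + x₂ * κ) + 1 / κ + ρ = -(m₁ - ρ) - x₂ * κ + 1 / κ := by
  ring

variable [DecidableEq K]

/-- `N₊ + N₊`. -/
theorem add_Np_Np (M : NodeModel v W ρ) {x₁ y₁ x₂ y₂ : K}
    (h₁ : W.toAffine.Nonsingular x₁ y₁) (h₂ : W.toAffine.Nonsingular x₂ y₂)
    (n₁ : IsNp v W ρ x₁ y₁) (n₂ : IsNp v W ρ x₂ y₂) :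
    ∃ (x₃ y₃ : K) (h₃ : W.toAffine.Nonsingular x₃ y₃),
      Point.some x₁ y₁ h₁ + Point.some x₂ y₂ h₂ = Point.some x₃ y₃ h₃ ∧
      ((v W.a₄ < v x₁ * v x₂ ∧ IsNp v W ρ x₃ y₃ ∧ v x₃ = v x₁ * v x₂) ∨
       (v x₁ * v x₂ < v W.a₄ ∧ v W.a₄ < v x₃ ∧ v x₃ < 1 ∧ v (y₃ / x₃ + ρ) < 1 ∧
          v x₁ * v x₂ * v x₃ = v W.a₄ ^ 2) ∨
       (v x₁ * v x₂ = v W.a₄ ∧ v x₃ ≤ v W.a₄)) := by
  have hs : v (y₁ / x₁ + y₂ / x₂) = 1 := v_m_add_m M n₁ n₂
  have hs0 : y₁ / x₁ + y₂ / x₂ ≠ 0 := by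
    intro h; rw [h, map_zero] at hs; exact zero_ne_one hs
  obtain ⟨x₃, y₃, h₃, hadd, hx₃, hy₃⟩ :=
    M.shape.add_formula M.two_ne h₁ h₂ n₁.x_ne n₂.x_ne hs0
  refine ⟨x₃, y₃, h₃, hadd, ?_⟩
  have hx₁ := n₁.x_ne
  have hx₂ := n₂.x_ne
  have p₁ := n₁.vx_pos
  have p₂ := n₂.vx_pos
  have p₁₂ : 0 < v x₁ * v x₂ := mul_pos p₁ p₂
  set s := y₁ / x₁ + y₂ / x₂ with hsd
  set u := 1 - W.a₄ / (x₁ * x₂) with hud
  have hvx₃ : v x₃ = v x₁ * v x₂ * v u ^ 2 := by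
    rw [hx₃, map_mul, map_mul, map_pow, map_div₀, hs, div_one]
  have hvq : v (W.a₄ / (x₁ * x₂)) = v W.a₄ / (v x₁ * v x₂) := by
    rw [map_div₀, map_mul]
  rcases lt_trichotomy (v W.a₄) (v x₁ * v x₂) with hlt | heq | hgt
  · -- shallow case
    left
    have hq : v (W.a₄ / (x₁ * x₂)) < 1 := by rw [hvq, div_lt_one₀ p₁₂]; exact hlt
    have hvu : v u = 1 := Valuation.map_one_sub_of_lt v hq
    have hu0 : u ≠ 0 := by
      intro h; rw [h, map_zero] at hvu; exact zero_ne_one hvu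
    have hκ0 : u / s ≠ 0 := div_ne_zero hu0 hs0
    have hvx₃' : v x₃ = v x₁ * v x₂ := by rw [hvx₃, hvu]; simp
    refine ⟨hlt, ⟨?_, ?_, ?_⟩, hvx₃'⟩
    · rw [hvx₃']; exact mul_lt_one' n₁.x_lt n₂.x_lt
    · rw [hvx₃']; exact hlt
    · rw [m3_eq hx₁ hx₂ hκ0 hx₃ hy₃, m3_sub_eq hu0 hs0 hsd]
      apply Valuation.map_add_lt v (Valuation.map_sub_lt v n₂.sign ?_) ?_
      · rw [map_mul, map_div₀, hvu, hs, div_one, mul_one]; exact n₂.x_lt
      · rw [map_mul, map_div₀, hs, hvu, one_mul, div_one]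
        have : 1 - u = W.a₄ / (x₁ * x₂) := by rw [hud]; ring
        rw [this]; exact hq
  · -- boundary case
    right; right
    refine ⟨heq.symm, ?_⟩
    have hq : v (W.a₄ / (x₁ * x₂)) = 1 := by rw [hvq, heq]; exact div_self p₁₂.ne'
    have hvu : v u ≤ 1 := by
      apply Valuation.map_sub_le v (by simp) hq.le
    rw [hvx₃, ← heq]
    exact mul_le_of_le_one_right zero_le (pow_le_one₀ zero_le hvu)
  · -- deep case
    right; left
    have hq : 1 < v (W.a₄ / (x₁ * x₂)) := by rw [hvq, one_lt_div₀ p₁₂]; exact hgt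
    have hvu : v u = v W.a₄ / (v x₁ * v x₂) := by
      rw [hud, Valuation.map_sub_eq_of_lt_right v (by rw [map_one]; exact hq), hvq]
    have hu0 : u ≠ 0 := by
      intro h; rw [h, map_zero] at hvu
      exact (div_pos M.vb_pos p₁₂).ne hvu
    have hκ0 : u / s ≠ 0 := div_ne_zero hu0 hs0
    have hvκ : v (u / s) = v W.a₄ / (v x₁ * v x₂) := by rw [map_div₀, hs, div_one, hvu]
    have hvx₃' : v x₃ = v W.a₄ ^ 2 / (v x₁ * v x₂) := by
      rw [hvx₃, hvu]; field_simp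
    refine ⟨hgt, ?_, ?_, ?_, ?_⟩
    · rw [hvx₃', lt_div_iff₀ p₁₂, sq]
      exact mul_lt_mul_of_pos_left hgt M.vb_pos
    · rw [hvx₃', div_lt_one₀ p₁₂, sq]
      exact mul_lt_mul'' n₁.b_lt n₂.b_lt zero_le zero_le
    · rw [m3_eq hx₁ hx₂ hκ0 hx₃ hy₃, m3_add_eq]
      apply Valuation.map_add_lt v (Valuation.map_sub_lt v ?_ ?_) ?_
      · rw [Valuation.map_neg]; exact n₁.sign
      · rw [map_mul, hvκ]
        have : v x₂ * (v W.a₄ / (v x₁ * v x₂)) = v W.a₄ / v x₁ := by field_simp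
        rw [this, div_lt_one₀ p₁]; exact n₁.b_lt
      · rw [map_div₀, map_one, hvκ, one_div, inv_div, div_lt_one₀ M.vb_pos]; exact hgt
    · rw [hvx₃']; field_simp

/-- Valuation of the slope of a point with `1 ≤ v x`. -/
theorem v_m_sq_le (M : NodeModel v W ρ) {x y : K} (h : W.toAffine.Equation x y)
    (hx : 1 ≤ v x) : v (y / x) ^ 2 ≤ v x := by
  have hx0 : x ≠ 0 := by
    rintro rfl; rw [map_zero] at hx; exact not_le.mpr zero_lt_one hx
  have hvx : 0 < v x := lt_of_lt_of_le zero_lt_one hx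
  rw [← map_pow, M.shape.m_sq h hx0]
  apply Valuation.map_add_le v (Valuation.map_add_le v le_rfl (M.va.le.trans hx))
  rw [map_div₀, div_le_iff₀ hvx]
  calc v W.a₄ ≤ 1 := M.vb.le
    _ ≤ v x * v x := one_le_mul_of_one_le_of_one_le hx hx

theorem v_m_sq_eq (M : NodeModel v W ρ) {x y : K} (h : W.toAffine.Equation x y)
    (hx : 1 < v x) : v (y / x) ^ 2 = v x := by
  have hx0 : x ≠ 0 := by
    rintro rfl; rw [map_zero] at hx; exact not_lt.mpr zero_le_one hx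
  have hvx : 0 < v x := lt_trans zero_lt_one hx
  rw [← map_pow, M.shape.m_sq h hx0, add_assoc]
  apply Valuation.map_add_eq_of_lt_left
  apply lt_of_le_of_lt _ hx
  apply Valuation.map_add_le v M.va.le
  rw [map_div₀, div_le_one₀ hvx]
  exact M.vb.le.trans hx.le

/-- `(m₁ - m₂)(m₁ + m₂) = (x₁ - x₂)(1 - b/(x₁x₂))`. -/
theorem IsNodeShape.m_diff_mul (hW : IsNodeShape W) {x₁ y₁ x₂ y₂ : K}
    (h₁ : W.toAffine.Equation x₁ y₁) (h₂ : W.toAffine.Equation x₂ y₂)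
    (hx₁ : x₁ ≠ 0) (hx₂ : x₂ ≠ 0) :
    (y₁ / x₁ - y₂ / x₂) * (y₁ / x₁ + y₂ / x₂) = (x₁ - x₂) * (1 - W.a₄ / (x₁ * x₂)) := by
  have e₁ := hW.m_sq h₁ hx₁
  have e₂ := hW.m_sq h₂ hx₂
  have : (y₁ / x₁ - y₂ / x₂) * (y₁ / x₁ + y₂ / x₂) = (y₁ / x₁) ^ 2 - (y₂ / x₂) ^ 2 := by ring
  rw [this, e₁, e₂]
  field_simp
  ring

/-- `E₀ + N₊ ⊆ N₊`, preserving `v x`. -/
theorem add_E0_Np (M : NodeModel v W ρ) {x₁ y₁ x₂ y₂ : K}
    (h₁ : W.toAffine.Nonsingular x₁ y₁) (h₂ : W.toAffine.Nonsingular x₂ y₂)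
    (e₁ : 1 ≤ v x₁) (n₂ : IsNp v W ρ x₂ y₂) :
    ∃ (x₃ y₃ : K) (h₃ : W.toAffine.Nonsingular x₃ y₃),
      Point.some x₁ y₁ h₁ + Point.some x₂ y₂ h₂ = Point.some x₃ y₃ h₃ ∧
      IsNp v W ρ x₃ y₃ ∧ v x₃ = v x₂ := by
  have hx₁ : x₁ ≠ 0 := by
    rintro rfl; rw [map_zero] at e₁; exact not_le.mpr zero_lt_one e₁
  have hx₂ := n₂.x_ne
  have p₁ : 0 < v x₁ := lt_of_lt_of_le zero_lt_one e₁
  have p₂ := n₂.vx_pos
  have p₁₂ : 0 < v x₁ * v x₂ := mul_pos p₁ p₂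
  set s := y₁ / x₁ + y₂ / x₂ with hsd
  set u := 1 - W.a₄ / (x₁ * x₂) with hud
  have hvq : v (W.a₄ / (x₁ * x₂)) = v W.a₄ / (v x₁ * v x₂) := by
    rw [map_div₀, map_mul]
  have hq : v (W.a₄ / (x₁ * x₂)) < 1 := by
    rw [hvq, div_lt_one₀ p₁₂]
    calc v W.a₄ < v x₂ := n₂.b_lt
      _ ≤ v x₁ * v x₂ := le_mul_of_one_le_left zero_le e₁
  have hvu : v u = 1 := Valuation.map_one_sub_of_lt v hq
  have hu0 : u ≠ 0 := by
    intro h; rw [h, map_zero] at hvu; exact zero_ne_one hvu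
  -- the key valuation of `s`
  have hvs : v s ^ 2 = v x₁ ∧ 1 ≤ v s := by
    rcases e₁.lt_or_eq with hlt | heq
    · have hm1 : v (y₁ / x₁) ^ 2 = v x₁ := v_m_sq_eq M h₁.1 hlt
      have hm1' : 1 < v (y₁ / x₁) := by
        by_contra hcon
        rw [not_lt] at hcon
        have : v (y₁ / x₁) ^ 2 ≤ 1 := pow_le_one₀ zero_le hcon
        rw [hm1] at this
        exact not_le.mpr hlt this
      have : v s = v (y₁ / x₁) := by
        rw [hsd]
        apply Valuation.map_add_eq_of_lt_left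
        rw [n₂.vm M]; exact hm1'
      rw [this]
      exact ⟨hm1, hm1'.le⟩
    · have hm1 : v (y₁ / x₁) ≤ 1 := by
        have := v_m_sq_le M h₁.1 e₁
        rw [← heq] at this
        by_contra hcon
        rw [not_le] at hcon
        exact not_le.mpr (one_lt_pow₀ hcon (by norm_num)) this
      have hs1 : v s ≤ 1 := Valuation.map_add_le v hm1 (n₂.vm M).le
      have hd1 : v (y₁ / x₁ - y₂ / x₂) ≤ 1 := Valuation.map_sub_le v hm1 (n₂.vm M).le
      have hprod := congrArg v (M.shape.m_diff_mul h₁.1 h₂.1 hx₁ hx₂)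
      have hvd : v (x₁ - x₂) = v x₁ :=
        Valuation.map_sub_eq_of_lt_left v (by rw [← heq]; exact n₂.x_lt)
      rw [map_mul, map_mul, ← hud, ← hsd, hvu, mul_one, hvd, ← heq] at hprod
      have hs1' : v s = 1 := by
        rcases hs1.lt_or_eq with h | h
        · exfalso
          have : v (y₁ / x₁ - y₂ / x₂) * v s < 1 :=
            calc v (y₁ / x₁ - y₂ / x₂) * v s ≤ 1 * v s := mul_le_mul_left hd1 _
              _ = v s := one_mul _
              _ < 1 := h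
          rw [hprod] at this
          exact lt_irrefl _ this
        · exact h
      rw [hs1', ← heq]; simp
  obtain ⟨hvs2, hvs1⟩ := hvs
  have ps : 0 < v s := lt_of_lt_of_le zero_lt_one hvs1
  have hs0 : s ≠ 0 := by
    intro h; rw [h, map_zero] at ps; exact lt_irrefl _ ps
  obtain ⟨x₃, y₃, h₃, hadd, hx₃, hy₃⟩ :=
    M.shape.add_formula M.two_ne h₁ h₂ hx₁ hx₂ hs0
  rw [← hud, ← hsd] at hx₃ hy₃
  refine ⟨x₃, y₃, h₃, hadd, ?_⟩
  have hκ0 : u / s ≠ 0 := div_ne_zero hu0 hs0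
  have hvx₃ : v x₃ = v x₂ := by
    rw [hx₃, map_mul, map_mul, map_pow, map_div₀, hvu, div_pow, hvs2]
    field_simp
  refine ⟨⟨?_, ?_, ?_⟩, hvx₃⟩
  · rw [hvx₃]; exact n₂.x_lt
  · rw [hvx₃]; exact n₂.b_lt
  · rw [m3_eq hx₁ hx₂ hκ0 hx₃ hy₃, m3_sub_eq hu0 hs0 hsd]
    apply Valuation.map_add_lt v (Valuation.map_sub_lt v n₂.sign ?_) ?_
    · rw [map_mul, map_div₀, hvu]
      calc v x₂ * (1 / v s) ≤ v x₂ * 1 := by
            gcongr
            rw [div_le_one₀ ps]; exact hvs1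
        _ = v x₂ := mul_one _
        _ < 1 := n₂.x_lt
    · rw [map_mul, map_div₀, hvu, div_one]
      have h1u : 1 - u = W.a₄ / (x₁ * x₂) := by rw [hud]; ring
      rw [h1u, hvq, ← hvs2]
      have : v s * (v W.a₄ / (v s ^ 2 * v x₂)) = (v W.a₄ / v x₂) / v s := by
        field_simp
      rw [this, div_lt_one₀ ps]
      calc v W.a₄ / v x₂ < 1 := by rw [div_lt_one₀ p₂]; exact n₂.b_lt
        _ ≤ v s := hvs1

/-- `E₀ + E₀ ⊆ E₀` on affine points. -/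
theorem add_E0_E0 (M : NodeModel v W ρ) {x₁ y₁ x₂ y₂ : K}
    (h₁ : W.toAffine.Nonsingular x₁ y₁) (h₂ : W.toAffine.Nonsingular x₂ y₂)
    (e₁ : 1 ≤ v x₁) (e₂ : 1 ≤ v x₂) :
    Point.some x₁ y₁ h₁ + Point.some x₂ y₂ h₂ = 0 ∨
    ∃ (x₃ y₃ : K) (h₃ : W.toAffine.Nonsingular x₃ y₃),
      Point.some x₁ y₁ h₁ + Point.some x₂ y₂ h₂ = Point.some x₃ y₃ h₃ ∧ 1 ≤ v x₃ := by
  have hx₁ : x₁ ≠ 0 := by
    rintro rfl; rw [map_zero] at e₁; exact not_le.mpr zero_lt_one e₁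
  have hx₂ : x₂ ≠ 0 := by
    rintro rfl; rw [map_zero] at e₂; exact not_le.mpr zero_lt_one e₂
  have p₁ : 0 < v x₁ := lt_of_lt_of_le zero_lt_one e₁
  have p₂ : 0 < v x₂ := lt_of_lt_of_le zero_lt_one e₂
  have p₁₂ : 0 < v x₁ * v x₂ := mul_pos p₁ p₂
  set s := y₁ / x₁ + y₂ / x₂ with hsd
  set u := 1 - W.a₄ / (x₁ * x₂) with hud
  have hvq : v (W.a₄ / (x₁ * x₂)) = v W.a₄ / (v x₁ * v x₂) := by
    rw [map_div₀, map_mul]
  have hq : v (W.a₄ / (x₁ * x₂)) < 1 := by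
    rw [hvq, div_lt_one₀ p₁₂]
    calc v W.a₄ < 1 := M.vb
      _ ≤ v x₁ * v x₂ := one_le_mul_of_one_le_of_one_le e₁ e₂
  have hvu : v u = 1 := Valuation.map_one_sub_of_lt v hq
  have hu0 : u ≠ 0 := by
    intro h; rw [h, map_zero] at hvu; exact zero_ne_one hvu
  by_cases hs0 : s = 0
  · left
    have hprod := M.shape.m_diff_mul h₁.1 h₂.1 hx₁ hx₂
    rw [← hsd, hs0, mul_zero, ← hud] at hprod
    have hxx : x₁ = x₂ := by
      rcases mul_eq_zero.mp hprod.symm with h | h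
      · exact sub_eq_zero.mp h
      · exact absurd h hu0
    apply Point.add_of_Y_eq hxx
    rw [M.shape.negY]
    subst hxx
    have : y₁ / x₁ + y₂ / x₁ = 0 := hs0
    field_simp at this
    linear_combination this
  · right
    obtain ⟨x₃, y₃, h₃, hadd, hx₃, hy₃⟩ :=
      M.shape.add_formula M.two_ne h₁ h₂ hx₁ hx₂ hs0
    rw [← hud, ← hsd] at hx₃ hy₃
    refine ⟨x₃, y₃, h₃, hadd, ?_⟩
    have ps : 0 < v s := zero_lt_iff.mpr ((Valuation.ne_zero_iff v).mpr hs0)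
    have hvx₃ : v x₃ = v x₁ * v x₂ / v s ^ 2 := by
      rw [hx₃, map_mul, map_mul, map_pow, map_div₀, hvu, div_pow]
      field_simp
    rw [hvx₃, one_le_div₀ (pow_pos ps 2)]
    have hm₁ := v_m_sq_le M h₁.1 e₁
    have hm₂ := v_m_sq_le M h₂.1 e₂
    rcases le_total (v (y₁ / x₁)) (v (y₂ / x₂)) with hle | hle
    · have : v s ≤ v (y₂ / x₂) := Valuation.map_add_le v hle le_rfl
      calc v s ^ 2 ≤ v (y₂ / x₂) ^ 2 := by gcongr
        _ ≤ v x₂ := hm₂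
        _ ≤ v x₁ * v x₂ := le_mul_of_one_le_left zero_le e₁
    · have : v s ≤ v (y₁ / x₁) := Valuation.map_add_le v le_rfl hle
      calc v s ^ 2 ≤ v (y₁ / x₁) ^ 2 := by gcongr
        _ ≤ v x₁ := hm₁
        _ ≤ v x₁ * v x₂ := le_mul_of_one_le_right zero_le e₂

end Val

section Comp

variable {K : Type*} [Field K] {Γ₀ : Type*} [LinearOrderedCommGroupWithZero Γ₀]

/-- A nonzero element of `Γ₀` as a unit (junk value `1` at `0`). -/
noncomputable def uo (g : Γ₀) : Γ₀ˣ := if h : g = 0 then 1 else Units.mk0 g h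

theorem uo_val {g : Γ₀} (hg : g ≠ 0) : ((uo g : Γ₀ˣ) : Γ₀) = g := by
  simp [uo, hg]

theorem uo_mul {g h : Γ₀} (hg : g ≠ 0) (hh : h ≠ 0) : uo (g * h) = uo g * uo h := by
  apply Units.ext
  rw [Units.val_mul, uo_val hg, uo_val hh, uo_val (mul_ne_zero hg hh)]

variable (v : Valuation K Γ₀) (W : WeierstrassCurve K)

/-- The subgroup generated by `v(b)²`. -/
noncomputable def Hs : Subgroup Γ₀ˣ := Subgroup.zpowers (uo (v W.a₄) ^ 2)

/-- The target group `Γ₀ˣ / ⟨v(b)²⟩` of the component map. -/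
abbrev CG := Γ₀ˣ ⧸ Hs v W

/-- The class of `v t`. -/
noncomputable def cls (t : K) : CG v W := QuotientGroup.mk (uo (v t))

variable {v W}

theorem cls_mul {t t' : K} (ht : t ≠ 0) (ht' : t' ≠ 0) :
    cls v W (t * t') = cls v W t * cls v W t' := by
  unfold cls
  rw [map_mul, uo_mul ((Valuation.ne_zero_iff v).mpr ht) ((Valuation.ne_zero_iff v).mpr ht'),
    QuotientGroup.mk_mul]

theorem cls_congr {t t' : K} (h : v t = v t') : cls v W t = cls v W t' := by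
  unfold cls; rw [h]

theorem cls_b_mul_self : cls v W W.a₄ * cls v W W.a₄ = 1 := by
  unfold cls
  rw [← QuotientGroup.mk_mul, ← sq, QuotientGroup.eq_one_iff]
  exact Subgroup.mem_zpowers _

theorem cls_b_inv : (cls v W W.a₄)⁻¹ = cls v W W.a₄ :=
  inv_eq_of_mul_eq_one_left cls_b_mul_self

theorem cls_div {t t' : K} (ht : t ≠ 0) (ht' : t' ≠ 0) :
    cls v W (t / t') = cls v W t * (cls v W t')⁻¹ := by
  rw [eq_mul_inv_iff_mul_eq, ← cls_mul (div_ne_zero ht ht') ht', div_mul_cancel₀ _ ht']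

variable [DecidableEq K] (v W) (ρ : K)

/-- The component map. -/
noncomputable def comp : W.toAffine.Point → CG v W
  | .zero => 1
  | .some x y _ =>
    if 1 ≤ v x then 1 else if v x ≤ v W.a₄ then cls v W W.a₄
    else if v (y / x - ρ) < 1 then cls v W x else (cls v W x)⁻¹

variable {v W ρ}

theorem comp_zero : comp v W ρ 0 = 1 := rfl

theorem comp_of_E0 {x y : K} (h : W.toAffine.Nonsingular x y) (hx : 1 ≤ v x) :
    comp v W ρ (Point.some x y h) = 1 := by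
  simp [comp, hx]

theorem comp_of_deep (M : NodeModel v W ρ) {x y : K} (h : W.toAffine.Nonsingular x y)
    (hx : v x ≤ v W.a₄) : comp v W ρ (Point.some x y h) = cls v W W.a₄ := by
  have : ¬ 1 ≤ v x := not_le.mpr (lt_of_le_of_lt hx M.vb)
  simp [comp, this, hx]

theorem comp_of_Np (_M : NodeModel v W ρ) {x y : K} (h : W.toAffine.Nonsingular x y)
    (n : IsNp v W ρ x y) : comp v W ρ (Point.some x y h) = cls v W x := by
  have h1 : ¬ 1 ≤ v x := not_le.mpr n.x_lt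
  have h2 : ¬ v x ≤ v W.a₄ := not_le.mpr n.b_lt
  simp [comp, h1, h2, n.sign]

theorem comp_of_Nm (M : NodeModel v W ρ) {x y : K} (h : W.toAffine.Nonsingular x y)
    (hx1 : v x < 1) (hbx : v W.a₄ < v x) (hs : v (y / x + ρ) < 1) :
    comp v W ρ (Point.some x y h) = (cls v W x)⁻¹ := by
  have h1 : ¬ 1 ≤ v x := not_le.mpr hx1
  have h2 : ¬ v x ≤ v W.a₄ := not_le.mpr hbx
  have h3 : ¬ v (y / x - ρ) < 1 := by
    intro h3
    have : v (2 * ρ) < 1 := by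
      have e : 2 * ρ = (y / x + ρ) - (y / x - ρ) := by ring
      rw [e]; exact Valuation.map_sub_lt v hs h3
    rw [M.v2ρ] at this
    exact lt_irrefl _ this
  simp [comp, h1, h2, h3]

/-- The two-torsion point `T₁ = (0, 0)`. -/
noncomputable def T1 (M : NodeModel v W ρ) : W.toAffine.Point :=
  Point.some 0 0 (M.shape.nonsingular_zero M.b_ne)

theorem T1_add_T1 (M : NodeModel v W ρ) : T1 M + T1 M = 0 :=
  M.shape.T1_add_T1 _

theorem comp_T1 (M : NodeModel v W ρ) : comp v W ρ (T1 M) = cls v W W.a₄ := by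
  unfold T1
  apply comp_of_deep M
  rw [map_zero]; exact zero_le

/-- `P + T₁` in coordinates. -/
theorem add_T1_coord (M : NodeModel v W ρ) {x y : K} (h : W.toAffine.Nonsingular x y)
    (hx : x ≠ 0) :
    ∃ (x' y' : K) (h' : W.toAffine.Nonsingular x' y'),
      Point.some x y h + T1 M = Point.some x' y' h' ∧ x' ≠ 0 ∧ v x' = v W.a₄ / v x ∧
      y' / x' = -(y / x) ∧ cls v W x' = cls v W W.a₄ * (cls v W x)⁻¹ := by
  obtain ⟨h', e⟩ := M.shape.add_T1 h (M.shape.nonsingular_zero M.b_ne) hx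
  refine ⟨_, _, h', e, div_ne_zero M.b_ne hx, map_div₀ v _ _, ?_, cls_div M.b_ne hx⟩
  have := M.b_ne
  field_simp

/-- Translation by `T₁` multiplies the component by the class of `b`. -/
theorem comp_add_T1 (M : NodeModel v W ρ) (P : W.toAffine.Point) :
    comp v W ρ (P + T1 M) = cls v W W.a₄ * comp v W ρ P := by
  rcases P with _ | ⟨x, y, h⟩
  · change comp v W ρ (0 + T1 M) = _ * comp v W ρ 0
    rw [zero_add, comp_T1, comp_zero, mul_one]
  by_cases hx : x = 0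
  · subst hx
    have hy : y = 0 := M.shape.y_eq_zero_of_x_eq_zero h.1
    subst hy
    have e : Point.some 0 0 h = T1 M := rfl
    rw [e, T1_add_T1, comp_zero, comp_T1, cls_b_mul_self]
  obtain ⟨x', y', h', e, hx', hvx', hm', hcls⟩ := add_T1_coord M h hx
  have pvx : 0 < v x := zero_lt_iff.mpr ((Valuation.ne_zero_iff v).mpr hx)
  rw [e]
  by_cases h1 : 1 ≤ v x
  · -- `P ∈ E₀`
    rw [comp_of_E0 h h1, mul_one]
    apply comp_of_deep M
    rw [hvx', div_le_iff₀ pvx]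
    exact le_mul_of_one_le_right zero_le h1
  rw [not_le] at h1
  by_cases h2 : v x ≤ v W.a₄
  · -- `P` deep
    rw [comp_of_deep M h h2, cls_b_mul_self]
    apply comp_of_E0
    rw [hvx', one_le_div₀ pvx]; exact h2
  rw [not_le] at h2
  have hx'1 : v x' < 1 := by rw [hvx', div_lt_one₀ pvx]; exact h2
  have hbx' : v W.a₄ < v x' := by
    rw [hvx', lt_div_iff₀ pvx]
    calc v W.a₄ * v x < v W.a₄ * 1 := mul_lt_mul_of_pos_left h1 M.vb_pos
      _ = v W.a₄ := mul_one _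
  rcases sign_dichotomy M h.1 h1 h2 with hs | hs
  · -- `P ∈ N₊`, so `P + T₁ ∈ N₋`
    rw [comp_of_Np M h ⟨h1, h2, hs⟩]
    have : v (y' / x' + ρ) < 1 := by
      rw [hm']
      have e2 : -(y / x) + ρ = -(y / x - ρ) := by ring
      rw [e2, Valuation.map_neg]; exact hs
    rw [comp_of_Nm M h' hx'1 hbx' this, hcls, mul_inv, inv_inv, cls_b_inv]
  · -- `P ∈ N₋`, so `P + T₁ ∈ N₊`
    rw [comp_of_Nm M h h1 h2 hs]
    have : v (y' / x' - ρ) < 1 := by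
      rw [hm']
      have e2 : -(y / x) - ρ = -(y / x + ρ) := by ring
      rw [e2, Valuation.map_neg]; exact hs
    rw [comp_of_Np M h' ⟨hx'1, hbx', this⟩, hcls]

/-- Membership in `E₀ ∪ N₊`. -/
def InH (v : Valuation K Γ₀) (W : WeierstrassCurve K) (ρ : K) (P : W.toAffine.Point) : Prop :=
  P = 0 ∨ ∃ (x y : K) (h : W.toAffine.Nonsingular x y),
    P = Point.some x y h ∧ (1 ≤ v x ∨ IsNp v W ρ x y)

/-- Every point lies in `E₀ ∪ N₊` or in its translate by `T₁`. -/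
theorem inH_or_inH_add_T1 (M : NodeModel v W ρ) (P : W.toAffine.Point) :
    InH v W ρ P ∨ InH v W ρ (P + T1 M) := by
  rcases P with _ | ⟨x, y, h⟩
  · exact Or.inl (Or.inl rfl)
  by_cases hx : x = 0
  · subst hx
    have hy : y = 0 := M.shape.y_eq_zero_of_x_eq_zero h.1
    subst hy
    have e : Point.some 0 0 h = T1 M := rfl
    right; left
    rw [e, T1_add_T1]
  obtain ⟨x', y', h', e, hx', hvx', hm', -⟩ := add_T1_coord M h hx
  have pvx : 0 < v x := zero_lt_iff.mpr ((Valuation.ne_zero_iff v).mpr hx)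
  by_cases h1 : 1 ≤ v x
  · exact Or.inl (Or.inr ⟨x, y, h, rfl, Or.inl h1⟩)
  rw [not_le] at h1
  by_cases h2 : v x ≤ v W.a₄
  · right; right
    refine ⟨x', y', h', e, Or.inl ?_⟩
    rw [hvx', one_le_div₀ pvx]; exact h2
  rw [not_le] at h2
  rcases sign_dichotomy M h.1 h1 h2 with hs | hs
  · exact Or.inl (Or.inr ⟨x, y, h, rfl, Or.inr ⟨h1, h2, hs⟩⟩)
  · right; right
    refine ⟨x', y', h', e, Or.inr ⟨?_, ?_, ?_⟩⟩
    · rw [hvx', div_lt_one₀ pvx]; exact h2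
    · rw [hvx', lt_div_iff₀ pvx]
      calc v W.a₄ * v x < v W.a₄ * 1 := mul_lt_mul_of_pos_left h1 M.vb_pos
        _ = v W.a₄ := mul_one _
    · rw [hm']
      have e2 : -(y / x) - ρ = -(y / x + ρ) := by ring
      rw [e2, Valuation.map_neg]; exact hs

/-- Additivity of the component map on `E₀ ∪ N₊`. -/
theorem comp_add_of_inH (M : NodeModel v W ρ) {P Q : W.toAffine.Point}
    (hP : InH v W ρ P) (hQ : InH v W ρ Q) :
    comp v W ρ (P + Q) = comp v W ρ P * comp v W ρ Q := by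
  rcases hP with rfl | ⟨x₁, y₁, h₁, rfl, c₁⟩
  · rw [zero_add, comp_zero, one_mul]
  rcases hQ with rfl | ⟨x₂, y₂, h₂, rfl, c₂⟩
  · rw [add_zero, comp_zero, mul_one]
  rcases c₁ with e₁ | n₁ <;> rcases c₂ with e₂ | n₂
  · rw [comp_of_E0 h₁ e₁, comp_of_E0 h₂ e₂, mul_one]
    rcases add_E0_E0 M h₁ h₂ e₁ e₂ with h0 | ⟨x₃, y₃, h₃, e, e₃⟩
    · rw [h0, comp_zero]
    · rw [e, comp_of_E0 h₃ e₃]
  · obtain ⟨x₃, y₃, h₃, e, n₃, hv⟩ := add_E0_Np M h₁ h₂ e₁ n₂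
    rw [e, comp_of_E0 h₁ e₁, comp_of_Np M h₂ n₂, comp_of_Np M h₃ n₃, one_mul, cls_congr hv]
  · obtain ⟨x₃, y₃, h₃, e, n₃, hv⟩ := add_E0_Np M h₂ h₁ e₂ n₁
    rw [add_comm, e, comp_of_E0 h₂ e₂, comp_of_Np M h₁ n₁, comp_of_Np M h₃ n₃, mul_one,
      cls_congr hv]
  · obtain ⟨x₃, y₃, h₃, e, hc⟩ := add_Np_Np M h₁ h₂ n₁ n₂
    rw [e, comp_of_Np M h₁ n₁, comp_of_Np M h₂ n₂, ← cls_mul n₁.x_ne n₂.x_ne]
    rcases hc with ⟨-, n₃, hv⟩ | ⟨-, hb₃, hx₃, hs₃, hv⟩ | ⟨hv, hd⟩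
    · rw [comp_of_Np M h₃ n₃]
      apply cls_congr; rw [hv, map_mul]
    · rw [comp_of_Nm M h₃ hx₃ hb₃ hs₃, inv_eq_iff_eq_inv, eq_inv_iff_mul_eq_one]
      have hx₃0 : x₃ ≠ 0 := by
        rintro rfl; rw [map_zero] at hb₃; exact not_lt_zero hb₃
      rw [mul_comm, ← cls_mul (mul_ne_zero n₁.x_ne n₂.x_ne) hx₃0]
      have : v (x₁ * x₂ * x₃) = v (W.a₄ * W.a₄) := by
        rw [map_mul, map_mul, hv, map_mul, sq]
      rw [cls_congr this, cls_mul M.b_ne M.b_ne, cls_b_mul_self]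
    · rw [comp_of_deep M h₃ hd]
      apply cls_congr; rw [map_mul, hv]

/-- **The component map is additive.** -/
theorem comp_add (M : NodeModel v W ρ) (P Q : W.toAffine.Point) :
    comp v W ρ (P + Q) = comp v W ρ P * comp v W ρ Q := by
  have hb := cls_b_mul_self (v := v) (W := W)
  rcases inH_or_inH_add_T1 M P with hP | hP <;> rcases inH_or_inH_add_T1 M Q with hQ | hQ
  · exact comp_add_of_inH M hP hQ
  · have := comp_add_of_inH M hP hQ
    rw [← add_assoc, comp_add_T1, comp_add_T1] at this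
    calc comp v W ρ (P + Q) = cls v W W.a₄ * (cls v W W.a₄ * comp v W ρ (P + Q)) := by
          rw [← mul_assoc, hb, one_mul]
      _ = cls v W W.a₄ * (comp v W ρ P * (cls v W W.a₄ * comp v W ρ Q)) := by rw [this]
      _ = comp v W ρ P * comp v W ρ Q := by
          rw [mul_left_comm (comp v W ρ P), ← mul_assoc, hb, one_mul]
  · have := comp_add_of_inH M hP hQ
    rw [add_right_comm, comp_add_T1, comp_add_T1] at this
    calc comp v W ρ (P + Q) = cls v W W.a₄ * (cls v W W.a₄ * comp v W ρ (P + Q)) := by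
          rw [← mul_assoc, hb, one_mul]
      _ = cls v W W.a₄ * (cls v W W.a₄ * comp v W ρ P * comp v W ρ Q) := by rw [this]
      _ = comp v W ρ P * comp v W ρ Q := by
          rw [mul_assoc, ← mul_assoc, hb, one_mul]
  · have := comp_add_of_inH M hP hQ
    have e : P + T1 M + (Q + T1 M) = P + Q + (T1 M + T1 M) := by abel
    rw [e, T1_add_T1, add_zero, comp_add_T1, comp_add_T1] at this
    rw [this, mul_mul_mul_comm, hb, one_mul]

theorem comp_nsmul (M : NodeModel v W ρ) (n : ℕ) (P : W.toAffine.Point) :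
    comp v W ρ (n • P) = comp v W ρ P ^ n := by
  induction n with
  | zero => rw [zero_smul, pow_zero, comp_zero]
  | succ k ih => rw [succ_nsmul, comp_add M, ih, pow_succ]

theorem cls_b_ne_one (M : NodeModel v W ρ) : cls v W W.a₄ ≠ 1 := by
  intro h
  unfold cls at h
  rw [QuotientGroup.eq_one_iff] at h
  obtain ⟨j, hj⟩ := Subgroup.mem_zpowers_iff.mp h
  have hb0 : v W.a₄ ≠ 0 := M.vb_pos.ne'
  set β := uo (v W.a₄) with hβ
  have h1 : β ^ (2 * j - 1) = 1 := by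
    rw [zpow_sub, zpow_mul, zpow_one, mul_inv_eq_one]
    exact_mod_cast hj
  have h2 : β = 1 := (IsMulTorsionFree.zpow_eq_one_iff_left (by omega)).mp h1
  have h3 : v W.a₄ = 1 := by
    rw [← uo_val hb0, ← hβ, h2, Units.val_one]
  exact absurd h3 M.vb.ne

theorem exists_of_cls_pow_eq_one (M : NodeModel v W ρ) {t : K} (ht : t ≠ 0) {n : ℕ}
    (h : cls v W t ^ n = 1) : ∃ j : ℤ, v t ^ n = v W.a₄ ^ (2 * j) := by
  have ht0 : v t ≠ 0 := (Valuation.ne_zero_iff v).mpr ht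
  have hb0 : v W.a₄ ≠ 0 := M.vb_pos.ne'
  unfold cls at h
  rw [← QuotientGroup.mk_pow, QuotientGroup.eq_one_iff] at h
  obtain ⟨j, hj⟩ := Subgroup.mem_zpowers_iff.mp h
  refine ⟨j, ?_⟩
  have := congrArg (fun u : Γ₀ˣ => (u : Γ₀)) hj
  simp only [Units.val_zpow_eq_zpow_val, Units.val_pow_eq_pow_val, uo_val ht0, uo_val hb0] at this
  rw [← this, zpow_mul]; norm_cast

/-- **Torsion points near the node.** If `n` is odd and `n • (x, y) = 0` with `v x < 1`, then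
`v b < v x` and `(v x)^n ∈ ⟨v(b)²⟩`. -/
theorem torsion_val (M : NodeModel v W ρ) {n : ℕ} (hn : Odd n) {x y : K}
    (h : W.toAffine.Nonsingular x y) (hP : n • Point.some x y h = 0) (hx1 : v x < 1) :
    v W.a₄ < v x ∧ ∃ j : ℤ, v x ^ n = v W.a₄ ^ (2 * j) := by
  have hc : comp v W ρ (Point.some x y h) ^ n = 1 := by
    rw [← comp_nsmul M, hP, comp_zero]
  by_cases h2 : v x ≤ v W.a₄
  · exfalso
    rw [comp_of_deep M h h2] at hc
    obtain ⟨k, rfl⟩ := hn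
    rw [pow_succ, pow_mul, sq, cls_b_mul_self, one_pow, one_mul] at hc
    exact cls_b_ne_one M hc
  rw [not_le] at h2
  refine ⟨h2, ?_⟩
  have hx0 : x ≠ 0 := by
    rintro rfl; rw [map_zero] at h2; exact not_lt_zero h2
  apply exists_of_cls_pow_eq_one M hx0
  rcases sign_dichotomy M h.1 hx1 h2 with hs | hs
  · rwa [comp_of_Np M h ⟨hx1, h2, hs⟩] at hc
  · rwa [comp_of_Nm M h hx1 h2 hs, inv_pow, inv_eq_one] at hc

end Comp

end Fermat.Agent.S05.Node
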