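import Fermat.Agent.S05.Node
import Fermat.Agent.S05.Endgame

/-!
# Bridge from the signed component map to the hypotheses of `Endgame.IsABModel.endgame`

`node_hyps` produces, for the curve `y² = x³ + a x² + π^p x` (node case: `2, a` units,
`0 < v(π^p) < 1`, `a` a square, `s` a ring hom fixing `π`) and `p` odd, exactly the two
hypotheses `hBdry` and `hNode` of `Fermat.Agent.S05.Endgame.IsABModel.endgame`, for an
arbitrary valuation `v` (no rank-one / `ℚ`-valued valuation needed).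
-/

set_option autoImplicit false

namespace Fermat.Agent.S05.Node

open WeierstrassCurve

variable {K : Type*} [Field K] [DecidableEq K] {Γ₀ : Type*} [LinearOrderedCommGroupWithZero Γ₀]

theorem node_hyps (v : Valuation K Γ₀) {W : Affine K} (h1 : W.a₁ = 0) (h3 : W.a₃ = 0)
    (h6 : W.a₆ = 0) (h2 : v 2 = 1) (ha : v W.a₂ = 1) (hρ : ∃ ρ : K, ρ ^ 2 = W.a₂)
    (π : K) {p : ℕ} (hp : Odd p) (hb : W.a₄ = π ^ p) (hb0 : W.a₄ ≠ 0) (hblt : v W.a₄ < 1)
    (s : K →+* K) (hsπ : s π = π) :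
    (∀ x y (h : W.Nonsingular x y), p • Affine.Point.some x y h = 0 →
      v x < 1 → x ≠ 0 → ¬ 1 < v (W.a₄ / x)) ∧
    (∀ x y (h : W.Nonsingular x y), p • Affine.Point.some x y h = 0 →
      v x < 1 → x ≠ 0 → v W.a₄ < v x → ∃ c w : K, x = c * w ∧ s c = c ∧ v w = 1) := by
  obtain ⟨ρ, hρ⟩ := hρ
  have M : NodeModel v W ρ := ⟨⟨h1, h3, h6⟩, h2, ha, hb0, hblt, hρ⟩
  have hp0 : p ≠ 0 := by
    rintro rfl; simp at hp
  constructor
  · intro x y h hT hx1 hx0
    obtain ⟨hlt, -⟩ := torsion_val M hp h hT hx1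
    rw [not_lt, map_div₀, div_le_one₀ (zero_lt_iff.mpr ((Valuation.ne_zero_iff v).mpr hx0))]
    exact hlt.le
  · intro x y h hT hx1 hx0 _
    obtain ⟨-, j, hj⟩ := torsion_val M hp h hT hx1
    have hπ0 : π ≠ 0 := by
      rintro rfl
      rw [zero_pow hp0] at hb
      exact hb0 hb
    have hvπ0 : v π ≠ 0 := (Valuation.ne_zero_iff v).mpr hπ0
    have hvx : v x = v π ^ (2 * j) := by
      have e : v x ^ p = (v π ^ (2 * j)) ^ p := by
        rw [hj, hb, map_pow, ← zpow_natCast (v π) p, ← zpow_mul, ← zpow_natCast _ p, ← zpow_mul,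
          mul_comm]
      exact (pow_left_inj₀ zero_le zero_le hp0).mp e
    refine ⟨π ^ (2 * j), x / π ^ (2 * j), ?_, ?_, ?_⟩
    · rw [mul_div_cancel₀ _ (zpow_ne_zero _ hπ0)]
    · rw [map_zpow₀, hsπ]
    · rw [map_div₀, map_zpow₀, hvx, div_self (zpow_ne_zero _ hvπ0)]

/-- `Endgame.IsABModel.endgame` with the two component hypotheses discharged by `node_hyps`:
for the curve `y² = x³ + a x² + π^p x` (`p` odd, `a` a square in `K`, `s π = π`), an
inertia-like ring hom `s` fixes every `p`-torsion point as soon as the kernel of reduction has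
no `p`-torsion. Covers both the good case (`v b = 1`) and the node case (`v b < 1`). -/
theorem endgame_pow (v : Valuation K Γ₀) {W : Affine K} (hW : Endgame.IsABModel W)
    (h2 : v 2 = 1) (ha : v W.a₂ ≤ 1) (hb : v W.a₄ ≤ 1)
    (hD : v (W.a₂ ^ 2 - 4 * W.a₄) = 1)
    (s : K →+* K) (hs : ∀ z, v z ≤ 1 → v (s z - z) < 1)
    (τ : W.Point →+ W.Point)
    (hτ : ∀ x y (h : W.Nonsingular x y), ∃ h' : W.Nonsingular (s x) (s y),
      τ (Affine.Point.some x y h) = Affine.Point.some (s x) (s y) h')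
    {p : ℕ} (hp : Odd p)
    (hKer : ∀ T : W.Point, Endgame.InE1 v T → p • T = 0 → T = 0)
    (hρ : ∃ ρ : K, ρ ^ 2 = W.a₂) (π : K) (hbπ : W.a₄ = π ^ p) (hb0 : W.a₄ ≠ 0) (hsπ : s π = π)
    (T : W.Point) (hT : p • T = 0) : τ T = T := by
  have key : v W.a₄ < 1 →
      (∀ x y (h : W.Nonsingular x y), p • Affine.Point.some x y h = 0 →
        v x < 1 → x ≠ 0 → ¬ 1 < v (W.a₄ / x)) ∧
      (∀ x y (h : W.Nonsingular x y), p • Affine.Point.some x y h = 0 →
        v x < 1 → x ≠ 0 → v W.a₄ < v x → ∃ c w : K, x = c * w ∧ s c = c ∧ v w = 1) := by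
    intro hblt
    have ha1 : v W.a₂ = 1 := by
      have h4 : v (4 * W.a₄) < 1 := by
        have e4 : (4 : K) = 2 * 2 := by norm_num
        rw [map_mul, e4, map_mul, h2, one_mul, one_mul]; exact hblt
      have : v (W.a₂ ^ 2) = 1 := by
        have e : W.a₂ ^ 2 = (W.a₂ ^ 2 - 4 * W.a₄) + 4 * W.a₄ := by ring
        rw [e, Valuation.map_add_eq_of_lt_left v (by rw [hD]; exact h4), hD]
      rw [map_pow] at this
      exact sq_eq_one.mp this
    exact node_hyps v hW.a₁ hW.a₃ hW.a₆ h2 ha1 hρ π hp hbπ hb0 hblt s hsπ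
  exact hW.endgame h2 ha hb hD s hs τ hτ p hKer (fun hblt => (key hblt).1)
    (fun hblt => (key hblt).2) T hT

end Fermat.Agent.S05.Node
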