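import Fermat.Agent.S05.EndgameFinal
import Fermat.Agent.S05.RankOne
import Fermat.Agent.S05.Components

/-!
# S05: proof of `EndgameFinal.NodeShape`

Glue: the `ℚ`-valued valuation `RankOne.qvalOfSubring` attached to `A` over `q`, the
`NodeData` of the model curve, and the torsion corollary `NodeData.torsion_v_x` of the
component analysis.
-/

set_option autoImplicit false

open WeierstrassCurve WeierstrassCurve.Affine

namespace Fermat.Agent.S05.NodeShapeH93

open Fermat.Agent.S05.EndgameFinal Fermat.Agent.S05.RankOne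

theorem padicValInt_eq_zero_of_not_dvd {q : ℕ} {m : ℤ} (h : ¬ (q : ℤ) ∣ m) :
    padicValInt q m = 0 := by
  rw [padicValInt.eq_zero_iff]
  exact Or.inr (Or.inr h)

theorem nodeShape : NodeShape := by
  intro α π p q hp hp2 hq hq2 hqp hπ hqπ hqα A hA x y h htors hxm hx0 hbx
  classical
  set ν : QVal (AlgebraicClosure ℚ) := qvalOfSubring A hq hA with hν
  have hαne : α ≠ 0 := by
    rintro rfl
    exact hqα (dvd_zero _)
  have h2q : ¬ (q : ℤ) ∣ 2 := by
    intro hd
    have h1 : q ∣ 2 := by exact_mod_cast hd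
    have := (Nat.prime_dvd_prime_iff_eq hq Nat.prime_two).mp h1
    exact hq2 this
  have he : 0 < padicValInt q π := by
    have : Fact q.Prime := ⟨hq⟩
    rw [padicValInt]
    exact (one_le_padicValNat_of_dvd (Int.natAbs_ne_zero.mpr hπ)
      (Int.natCast_dvd.mp hqπ))
  have hπK : (π : AlgebraicClosure ℚ) ≠ 0 := by exact_mod_cast hπ
  have hvπ : ν.v (π : AlgebraicClosure ℚ) = padicValInt q π :=
    qvalOfSubring_intCast A hq hA hπ
  have hvb : ν.v ((π : AlgebraicClosure ℚ) ^ p) = p * padicValInt q π := by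
    rw [ν.map_pow hπK, hvπ]
  have D : NodeData ν (MW α π p) :=
    { a₁ := MW_a₁ α π p
      a₃ := MW_a₃ α π p
      a₆ := MW_a₆ α π p
      two_ne := two_ne_zero
      v_two := by
        have := qvalOfSubring_intCast A hq hA (c := 2) two_ne_zero
        rw [padicValInt_eq_zero_of_not_dvd h2q] at this
        simpa using this
      a_ne := by rw [MW_a₂]; exact_mod_cast hαne
      v_a := by
        rw [MW_a₂, qvalOfSubring_intCast A hq hA hαne, padicValInt_eq_zero_of_not_dvd hqα]
        simp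
      b_ne := by rw [MW_a₄]; exact pow_ne_zero p hπK
      v_b := by
        rw [MW_a₄, hvb]
        have : (0 : ℚ) < p := by exact_mod_cast hp.pos
        have he' : (0 : ℚ) < padicValInt q π := by exact_mod_cast he
        positivity }
  have hxpos : 0 < ν.v x := (qvalOfSubring_pos_iff A hq hA hx0).mpr hxm
  have hbx0 : (π : AlgebraicClosure ℚ) ^ p / x ≠ 0 := div_ne_zero (pow_ne_zero p hπK) hx0
  have hbxpos : 0 < ν.v ((π : AlgebraicClosure ℚ) ^ p / x) :=
    (qvalOfSubring_pos_iff A hq hA hbx0).mpr hbx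
  rw [ν.map_div (pow_ne_zero p hπK) hx0] at hbxpos
  obtain ⟨j, hj⟩ := D.torsion_v_x h p htors hx0 hxpos.le (by rw [MW_a₄]; linarith)
  rw [MW_a₄, hvb] at hj
  have hp0 : (p : ℚ) ≠ 0 := by exact_mod_cast hp.ne_zero
  have hvx : ν.v x = ((2 * padicValInt q π * j : ℤ) : ℚ) := by
    have : (p : ℚ) * ν.v x = p * ((2 * padicValInt q π * j : ℤ) : ℚ) := by
      rw [hj]; push_cast; ring
    exact mul_left_cancel₀ hp0 this
  have hipos : 0 < 2 * (padicValInt q π : ℤ) * j := by
    have : (0 : ℚ) < ((2 * padicValInt q π * j : ℤ) : ℚ) := by rw [← hvx]; exact hxpos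
    exact_mod_cast this
  obtain ⟨i, hi⟩ := Int.eq_ofNat_of_zero_le hipos.le
  have hqK : (q : AlgebraicClosure ℚ) ≠ 0 := natCast_ne_zero_of_prime hq
  have hqi : (q : AlgebraicClosure ℚ) ^ i ≠ 0 := pow_ne_zero i hqK
  refine ⟨i, x / (q : AlgebraicClosure ℚ) ^ i, ?_, ?_⟩
  · field_simp
  · have hw0 : x / (q : AlgebraicClosure ℚ) ^ i ≠ 0 := div_ne_zero hx0 hqi
    have hvw : ν.v (x / (q : AlgebraicClosure ℚ) ^ i) = 0 := by
      rw [ν.map_div hx0 hqi, ν.map_pow hqK, qvalOfSubring_q A hq hA, hvx, hi]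
      push_cast; ring
    exact (qvalOfSubring_eq_zero_iff A hq hA hw0).mp hvw

end Fermat.Agent.S05.NodeShapeH93
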