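import Fermat.Agent.S05.QVal
import Mathlib.RingTheory.Valuation.ValuationSubring

set_option autoImplicit false

namespace Fermat.Agent.S05.QVS

open Fermat.Agent.S05

variable {K : Type*} [Field K]

/-- `A` has "rational rank one relative to `c`": `c` is a nonzero nonunit and a power of the
valuation of every nonzero element is an integral power of the valuation of `c`. -/
structure RankOneData (A : ValuationSubring K) (c : K) : Prop where
  c_ne : c ≠ 0
  c_mem : c ∈ A.nonunits
  rank : ∀ x : K, x ≠ 0 → ∃ n : ℕ, 0 < n ∧ ∃ k : ℤ, A.valuation x ^ n = A.valuation c ^ k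

variable {A : ValuationSubring K} {c : K}

namespace RankOneData

theorem gamma_pos (h : RankOneData A c) : 0 < A.valuation c := by
  rw [Valuation.pos_iff]; exact h.c_ne

theorem gamma_lt_one (h : RankOneData A c) : A.valuation c < 1 :=
  (A.mem_nonunits_iff).1 h.c_mem

theorem gamma_ne_one (h : RankOneData A c) : A.valuation c ≠ 1 := ne_of_lt h.gamma_lt_one

open Classical in
/-- the `ℚ`-valued additive valuation normalised by `val c = 1`. -/
noncomputable def val (h : RankOneData A c) (x : K) : ℚ :=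
  if hx : x = 0 then 0
  else ((Classical.choose (Classical.choose_spec (h.rank x hx)).2 : ℤ) : ℚ) /
    ((Classical.choose (h.rank x hx) : ℕ) : ℚ)

theorem val_zero (h : RankOneData A c) : h.val 0 = 0 := by simp [val]

/-- uniqueness of the exponent ratio -/
theorem ratio_unique (h : RankOneData A c) {x : K} {n n' : ℕ} (hn : 0 < n) (hn' : 0 < n')
    {k k' : ℤ} (hk : A.valuation x ^ n = A.valuation c ^ k)
    (hk' : A.valuation x ^ n' = A.valuation c ^ k') :
    (k : ℚ) / n = (k' : ℚ) / n' := by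
  have e1 : A.valuation c ^ (k * (n' : ℤ)) = A.valuation c ^ (k' * (n : ℤ)) := by
    rw [zpow_mul, zpow_mul, ← hk, ← hk', zpow_natCast, zpow_natCast, ← pow_mul, ← pow_mul,
      mul_comm]
  have e2 : k * (n' : ℤ) = k' * (n : ℤ) :=
    zpow_right_injective₀ h.gamma_pos h.gamma_ne_one e1
  have hnq : (n : ℚ) ≠ 0 := by exact_mod_cast hn.ne'
  have hnq' : (n' : ℚ) ≠ 0 := by exact_mod_cast hn'.ne'
  rw [div_eq_div_iff hnq hnq']
  exact_mod_cast e2

theorem val_eq (h : RankOneData A c) {x : K} (hx : x ≠ 0) {n : ℕ} (hn : 0 < n) {k : ℤ}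
    (hk : A.valuation x ^ n = A.valuation c ^ k) : h.val x = (k : ℚ) / n := by
  unfold val
  rw [dif_neg hx]
  exact h.ratio_unique (Classical.choose_spec (h.rank x hx)).1 hn
    (Classical.choose_spec (Classical.choose_spec (h.rank x hx)).2) hk

theorem val_one (h : RankOneData A c) : h.val 1 = 0 := by
  have := h.val_eq (x := 1) one_ne_zero (n := 1) one_pos (k := 0) (by simp)
  simpa using this

theorem val_c (h : RankOneData A c) : h.val c = 1 := by
  have := h.val_eq (x := c) h.c_ne (n := 1) one_pos (k := 1) (by simp)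
  simpa using this

theorem val_mul (h : RankOneData A c) {x y : K} (hx : x ≠ 0) (hy : y ≠ 0) :
    h.val (x * y) = h.val x + h.val y := by
  obtain ⟨n, hn, k, hk⟩ := h.rank x hx
  obtain ⟨m, hm, l, hl⟩ := h.rank y hy
  have hxy : A.valuation (x * y) ^ (n * m) = A.valuation c ^ (k * (m : ℤ) + l * (n : ℤ)) := by
    rw [map_mul, mul_pow, pow_mul, hk, mul_comm n m, pow_mul, hl, zpow_add₀ h.gamma_pos.ne',
      zpow_mul, zpow_mul, zpow_natCast, zpow_natCast]
  rw [h.val_eq (mul_ne_zero hx hy) (Nat.mul_pos hn hm) hxy, h.val_eq hx hn hk, h.val_eq hy hm hl]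
  have hnq : (n : ℚ) ≠ 0 := by exact_mod_cast hn.ne'
  have hmq : (m : ℚ) ≠ 0 := by exact_mod_cast hm.ne'
  push_cast
  field_simp

theorem val_nonneg_iff (h : RankOneData A c) {x : K} (hx : x ≠ 0) : 0 ≤ h.val x ↔ x ∈ A := by
  obtain ⟨n, hn, k, hk⟩ := h.rank x hx
  rw [h.val_eq hx hn hk, ← A.valuation_le_one_iff,
    ← pow_le_one_iff_of_nonneg zero_le hn.ne', hk]
  have hnq : (0 : ℚ) < n := by exact_mod_cast hn
  have h1 : (0 : ℚ) ≤ (k : ℚ) / n ↔ 0 ≤ k := by
    rw [div_nonneg_iff]
    constructor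
    · rintro (⟨h1, _⟩ | ⟨_, h2⟩)
      · exact_mod_cast h1
      · exact absurd h2 (not_le.2 hnq)
    · intro hk0; exact Or.inl ⟨by exact_mod_cast hk0, hnq.le⟩
  rw [h1]
  have h2 := zpow_le_zpow_iff_right_of_lt_one₀ h.gamma_pos h.gamma_lt_one (m := k) (n := 0)
  rw [zpow_zero] at h2
  exact h2.symm

theorem val_pos_iff (h : RankOneData A c) {x : K} (hx : x ≠ 0) :
    0 < h.val x ↔ x ∈ A.nonunits := by
  obtain ⟨n, hn, k, hk⟩ := h.rank x hx
  rw [h.val_eq hx hn hk, A.mem_nonunits_iff,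
    ← pow_lt_one_iff_of_nonneg zero_le hn.ne', hk]
  have hnq : (0 : ℚ) < n := by exact_mod_cast hn
  have h1 : (0 : ℚ) < (k : ℚ) / n ↔ 0 < k := by
    rw [div_pos_iff]
    constructor
    · rintro (⟨h1, _⟩ | ⟨_, h2⟩)
      · exact_mod_cast h1
      · exact absurd h2 (not_lt.2 hnq.le)
    · intro hk0; exact Or.inl ⟨by exact_mod_cast hk0, hnq⟩
  rw [h1]
  have h2 := zpow_lt_zpow_iff_right_of_lt_one₀ h.gamma_pos h.gamma_lt_one (m := k) (n := 0)
  rw [zpow_zero] at h2
  exact h2.symm

theorem val_inv (h : RankOneData A c) {x : K} (hx : x ≠ 0) : h.val x⁻¹ = - h.val x := by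
  have := h.val_mul hx (inv_ne_zero hx)
  rw [mul_inv_cancel₀ hx, h.val_one] at this
  linarith

theorem val_div (h : RankOneData A c) {x y : K} (hx : x ≠ 0) (hy : y ≠ 0) :
    h.val (x / y) = h.val x - h.val y := by
  rw [div_eq_mul_inv, h.val_mul hx (inv_ne_zero hy), h.val_inv hy]; ring

/-- `val` reverses the order of the multiplicative valuation. -/
theorem val_le_val_iff (h : RankOneData A c) {x y : K} (hx : x ≠ 0) (hy : y ≠ 0) :
    h.val x ≤ h.val y ↔ A.valuation y ≤ A.valuation x := by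
  have h1 : h.val x ≤ h.val y ↔ 0 ≤ h.val (y / x) := by
    rw [h.val_div hy hx]; constructor <;> intro h' <;> linarith
  rw [h1, h.val_nonneg_iff (div_ne_zero hy hx), ← A.valuation_le_one_iff, map_div₀]
  have hpos : 0 < A.valuation x := by rw [Valuation.pos_iff]; exact hx
  rw [div_le_one₀ hpos]

theorem val_add (h : RankOneData A c) {x y : K} (hx : x ≠ 0) (hy : y ≠ 0) (hxy : x + y ≠ 0) :
    min (h.val x) (h.val y) ≤ h.val (x + y) := by
  rcases le_total (A.valuation x) (A.valuation y) with hle | hle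
  · have h1 : A.valuation (x + y) ≤ A.valuation y :=
      (A.valuation.map_add x y).trans (max_le hle le_rfl)
    exact (min_le_right _ _).trans ((h.val_le_val_iff hy hxy).2 h1)
  · have h1 : A.valuation (x + y) ≤ A.valuation x :=
      (A.valuation.map_add x y).trans (max_le le_rfl hle)
    exact (min_le_left _ _).trans ((h.val_le_val_iff hx hxy).2 h1)

/-- **The `ℚ`-valued valuation attached to a valuation subring of rational rank one.** -/
noncomputable def qval (h : RankOneData A c) : QVal K where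
  v := h.val
  map_one := h.val_one
  map_mul := fun hx hy => h.val_mul hx hy
  map_add := fun hx hy hxy => h.val_add hx hy hxy

@[simp] theorem qval_v (h : RankOneData A c) (x : K) : h.qval.v x = h.val x := rfl

theorem qval_c (h : RankOneData A c) : h.qval.v c = 1 := h.val_c

theorem mem_iff (h : RankOneData A c) {x : K} (hx : x ≠ 0) : x ∈ A ↔ 0 ≤ h.qval.v x :=
  (h.val_nonneg_iff hx).symm

theorem mem_nonunits_iff (h : RankOneData A c) {x : K} (hx : x ≠ 0) :
    x ∈ A.nonunits ↔ 0 < h.qval.v x :=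
  (h.val_pos_iff hx).symm

theorem notMem_iff (h : RankOneData A c) {x : K} : x ∉ A ↔ x ≠ 0 ∧ h.qval.v x < 0 := by
  constructor
  · intro hx
    have hx0 : x ≠ 0 := by rintro rfl; exact hx A.zero_mem
    exact ⟨hx0, not_le.1 fun h' => hx ((h.mem_iff hx0).2 h')⟩
  · rintro ⟨hx0, hlt⟩ hx
    exact absurd ((h.mem_iff hx0).1 hx) (not_le.2 hlt)

theorem notMem_nonunits_iff (h : RankOneData A c) {x : K} :
    x ∉ A.nonunits ↔ x ≠ 0 ∧ h.qval.v x ≤ 0 := by
  constructor
  · intro hx
    have hx0 : x ≠ 0 := by rintro rfl; exact hx A.nonunits.zero_mem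
    exact ⟨hx0, not_lt.1 fun h' => hx ((h.mem_nonunits_iff hx0).2 h')⟩
  · rintro ⟨hx0, hle⟩ hx
    exact absurd ((h.mem_nonunits_iff hx0).1 hx) (not_lt.2 hle)

/-- unit criterion -/
theorem val_eq_zero_iff (h : RankOneData A c) {x : K} (hx : x ≠ 0) :
    h.qval.v x = 0 ↔ x ∈ A ∧ x ∉ A.nonunits := by
  rw [h.mem_iff hx, h.notMem_nonunits_iff]
  constructor
  · intro h0; exact ⟨h0.ge, hx, h0.le⟩
  · rintro ⟨h1, -, h2⟩; exact le_antisymm h2 h1

/-- bridge to the `GE`/`GT` predicates of `QVal`. -/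
theorem ge_zero_iff (h : RankOneData A c) {x : K} : h.qval.GE 0 x ↔ x ∈ A := by
  unfold QVal.GE
  constructor
  · rintro (rfl | h')
    · exact A.zero_mem
    · by_cases hx : x = 0
      · rw [hx]; exact A.zero_mem
      · exact (h.mem_iff hx).2 h'
  · intro hx
    by_cases hx0 : x = 0
    · exact Or.inl hx0
    · exact Or.inr ((h.mem_iff hx0).1 hx)

theorem gt_zero_iff (h : RankOneData A c) {x : K} : h.qval.GT 0 x ↔ x ∈ A.nonunits := by
  unfold QVal.GT
  constructor
  · rintro (rfl | h')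
    · exact A.nonunits.zero_mem
    · by_cases hx : x = 0
      · rw [hx]; exact A.nonunits.zero_mem
      · exact (h.mem_nonunits_iff hx).2 h'
  · intro hx
    by_cases hx0 : x = 0
    · exact Or.inl hx0
    · exact Or.inr ((h.mem_nonunits_iff hx0).1 hx)

/-- invariance under ring automorphisms preserving `A` and fixing `c`. -/
theorem val_apply (h : RankOneData A c) {σ : K →+* K} (hσ : ∀ x, σ x ∈ A ↔ x ∈ A)
    (hc : σ c = c) (x : K) : h.qval.v (σ x) = h.qval.v x := by
  by_cases hx : x = 0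
  · rw [hx, map_zero]
  have hσx : σ x ≠ 0 := (map_ne_zero σ).2 hx
  obtain ⟨n, hn, k, hk⟩ := h.rank x hx
  -- `u = x ^ n / c ^ k` is a unit of `A`, hence so is `σ u = σ x ^ n / c ^ k`.
  have hcpow : c ^ k ≠ 0 := zpow_ne_zero k h.c_ne
  set u : K := x ^ n / c ^ k with hu
  have hu0 : u ≠ 0 := div_ne_zero (pow_ne_zero n hx) hcpow
  have hvu : A.valuation u = 1 := by
    rw [hu, map_div₀, map_pow, map_zpow₀, hk, div_self]
    exact zpow_ne_zero k h.gamma_pos.ne'
  have hu1 : u ∈ A := (A.valuation_le_one_iff _).1 hvu.le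
  have hu2 : u⁻¹ ∈ A := by
    rw [← A.valuation_le_one_iff, map_inv₀, hvu, inv_one]
  have hσu1 : σ u ∈ A := (hσ u).2 hu1
  have hσu2 : (σ u)⁻¹ ∈ A := by rw [← map_inv₀]; exact (hσ _).2 hu2
  have hσu : σ u = (σ x) ^ n / c ^ k := by
    rw [hu, map_div₀, map_pow, map_zpow₀, hc]
  have hvσu : A.valuation (σ u) = 1 := by
    apply le_antisymm ((A.valuation_le_one_iff _).2 hσu1)
    have := (A.valuation_le_one_iff _).2 hσu2
    rw [map_inv₀] at this
    have hpos : 0 < A.valuation (σ u) := by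
      rw [Valuation.pos_iff]; exact (map_ne_zero σ).2 hu0
    exact (inv_le_one₀ hpos).1 this
  have hk' : A.valuation (σ x) ^ n = A.valuation c ^ k := by
    rw [hσu, map_div₀, map_pow, map_zpow₀] at hvσu
    have hne : A.valuation c ^ k ≠ 0 := zpow_ne_zero k h.gamma_pos.ne'
    rw [div_eq_one_iff_eq hne] at hvσu
    exact hvσu
  rw [qval_v, qval_v, h.val_eq hσx hn hk', h.val_eq hx hn hk]

end RankOneData

end Fermat.Agent.S05.QVS
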