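import Fermat.Agent.S05.RankOne
import Fermat.Agent.S05.QValOfSubring

/-!
# Glue: `QVS.RankOneData A (q : K)` for `K` algebraic over `ℚ`, and values of integers

`rankOneData_of_liesOver` feeds helper18's `QVS.RankOneData` with the rank-one core lemma of
`RankOne.lean`; the remaining lemmas compute the resulting `QVal` on integers and give its
invariance under the inertia / decomposition groups.
-/

set_option autoImplicit false

namespace Fermat.Agent.S05.RankOne

open Fermat.Agent.S05

variable {K : Type*} [Field K] [Algebra ℚ K] [Algebra.IsAlgebraic ℚ K]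
  (A : ValuationSubring K) {q : ℕ} (hq : q.Prime) (hA : A.LiesOverPrime q)

include hq hA

/-- `A` over `q` has rational rank one relative to `q`. -/
theorem rankOneData_of_liesOver : QVS.RankOneData A (q : K) :=
  ⟨natCast_ne_zero_of_prime hq, hA, exists_pow_eq A hq hA⟩

omit [Algebra ℚ K] [Algebra.IsAlgebraic ℚ K] in
/-- Exact valuation of a nonzero integer. -/
theorem valuation_intCast_eq {c : ℤ} (hc : c ≠ 0) :
    A.valuation (c : K) = A.valuation (q : K) ^ (padicValInt q c) := by
  have hq1 : (q : ℤ).natAbs ≠ 1 := by simpa using hq.ne_one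
  obtain ⟨m, hcm, hm⟩ :=
    (Int.finiteMultiplicity_iff.2 ⟨hq1, hc⟩).exists_eq_pow_mul_and_not_dvd
  have hmA : A.valuation (m : K) ≤ 1 :=
    (ValuationSubring.valuation_le_one_iff A _).2 (intCast_mem_valuationSubring A m)
  have hmn : ¬ A.valuation (m : K) < 1 := by
    rw [← ValuationSubring.mem_nonunits_iff A, intCast_mem_nonunits_iff hq hA]
    exact hm
  have hm1 : A.valuation (m : K) = 1 := le_antisymm hmA (not_lt.1 hmn)
  rw [padicValInt.of_ne_one_ne_zero hq.ne_one hc]
  conv_lhs => rw [hcm]
  push_cast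
  rw [Valuation.map_mul, Valuation.map_pow, hm1, mul_one]

/-- The `QVal` of an integer is its `q`-adic valuation. -/
theorem qval_intCast {c : ℤ} (hc : c ≠ 0) :
    (rankOneData_of_liesOver A hq hA).qval.v (c : K) = padicValInt q c := by
  have : CharZero K := algebraRat.charZero K
  have h := (rankOneData_of_liesOver A hq hA).val_eq (x := (c : K)) (Int.cast_ne_zero.2 hc)
    (n := 1) one_pos (k := (padicValInt q c : ℤ))
    (by rw [pow_one, zpow_natCast]; exact valuation_intCast_eq A hq hA hc)
  simpa using h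

theorem qval_natCast {c : ℕ} (hc : c ≠ 0) :
    (rankOneData_of_liesOver A hq hA).qval.v (c : K) = padicValNat q c := by
  have := qval_intCast A hq hA (c := (c : ℤ)) (by exact_mod_cast hc)
  rw [padicValInt.of_nat] at this
  exact_mod_cast this

/-- `v q = 1`. -/
theorem qval_q : (rankOneData_of_liesOver A hq hA).qval.v (q : K) = 1 :=
  (rankOneData_of_liesOver A hq hA).qval_c

/-- `v` of an integer prime to `q` is `0`. -/
theorem qval_intCast_of_not_dvd {c : ℤ} (hc : ¬ (q : ℤ) ∣ c) :
    (rankOneData_of_liesOver A hq hA).qval.v (c : K) = 0 := by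
  have hc0 : c ≠ 0 := by rintro rfl; exact hc (dvd_zero _)
  rw [qval_intCast A hq hA hc0, padicValInt.eq_zero_of_not_dvd hc]
  simp

/-- `v (π ^ p) = p * v_q(π)`. -/
theorem qval_intCast_pow {c : ℤ} (hc : c ≠ 0) (p : ℕ) :
    (rankOneData_of_liesOver A hq hA).qval.v ((c : K) ^ p) = p * (padicValInt q c : ℚ) := by
  have : CharZero K := algebraRat.charZero K
  rw [(rankOneData_of_liesOver A hq hA).qval.map_pow (Int.cast_ne_zero.2 hc),
    qval_intCast A hq hA hc]

/-- `0 < v c` for an integer divisible by `q`. -/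
theorem qval_intCast_pos_of_dvd {c : ℤ} (hc0 : c ≠ 0) (hc : (q : ℤ) ∣ c) :
    0 < (rankOneData_of_liesOver A hq hA).qval.v (c : K) := by
  have : CharZero K := algebraRat.charZero K
  rw [← (rankOneData_of_liesOver A hq hA).mem_nonunits_iff (Int.cast_ne_zero.2 hc0),
    intCast_mem_nonunits_iff hq hA]
  exact hc

/-- Invariance under the decomposition group. -/
theorem qval_apply_of_mem_decompositionSubgroup {σ : K ≃ₐ[ℚ] K}
    (hσ : σ ∈ A.decompositionSubgroup ℚ) (x : K) :
    (rankOneData_of_liesOver A hq hA).qval.v (σ x) =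
      (rankOneData_of_liesOver A hq hA).qval.v x :=
  (rankOneData_of_liesOver A hq hA).val_apply (σ := (σ : K →+* K))
    (fun _ => ⟨mem_of_apply_mem_of_mem_decompositionSubgroup hσ,
      apply_mem_of_mem_decompositionSubgroup hσ⟩) (map_natCast σ q) x

/-- Invariance under the inertia group. -/
theorem qval_apply_of_mem_inertiaSubgroupIn {σ : K ≃ₐ[ℚ] K}
    (hσ : σ ∈ A.inertiaSubgroupIn ℚ) (x : K) :
    (rankOneData_of_liesOver A hq hA).qval.v (σ x) =
      (rankOneData_of_liesOver A hq hA).qval.v x :=
  qval_apply_of_mem_decompositionSubgroup A hq hA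
    (mem_decompositionSubgroup_of_mem_inertiaSubgroupIn hσ) x

end Fermat.Agent.S05.RankOne
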