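import Fermat.Agent.S05.QVal

/-!
# Valuations of the two roots of a quadratic from the valuations of their sum and product
(Newton polygon of a quadratic), in `QVal` language.
-/

set_option autoImplicit false

namespace Fermat.Agent.S05

namespace QVal

namespace TwoRoots

variable {F : Type*} [Field F] (ν : QVal F)

/-- If `v r₁ < v r₂` then `v (r₁ + r₂) = v r₁` and `v (r₁ * r₂) - v (r₁ + r₂) = v r₂`. -/
theorem of_lt {r₁ r₂ : F} (h₁ : r₁ ≠ 0) (h₂ : r₂ ≠ 0) (h : ν.v r₁ < ν.v r₂) :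
    r₁ + r₂ ≠ 0 ∧ ν.v (r₁ + r₂) = ν.v r₁ ∧ ν.v (r₁ * r₂) - ν.v (r₁ + r₂) = ν.v r₂ ∧
      2 * ν.v (r₁ + r₂) < ν.v (r₁ * r₂) := by
  obtain ⟨hne, hv⟩ := ν.map_add_of_lt h₁ h₂ h
  refine ⟨hne, hv, ?_, ?_⟩
  · rw [ν.map_mul h₁ h₂, hv]; ring
  · rw [ν.map_mul h₁ h₂, hv]; linarith

/-- **Steep case**: if `2 v(s) < v(t)` (`s = r₁ + r₂ ≠ 0`, `t = r₁ r₂`) then the two roots have
valuations `v s` and `v t - v s` (in some order). -/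
theorem steep {r₁ r₂ : F} (h₁ : r₁ ≠ 0) (h₂ : r₂ ≠ 0) (hs : r₁ + r₂ ≠ 0)
    (h : 2 * ν.v (r₁ + r₂) < ν.v (r₁ * r₂)) :
    (ν.v r₁ = ν.v (r₁ + r₂) ∧ ν.v r₂ = ν.v (r₁ * r₂) - ν.v (r₁ + r₂)) ∨
      (ν.v r₂ = ν.v (r₁ + r₂) ∧ ν.v r₁ = ν.v (r₁ * r₂) - ν.v (r₁ + r₂)) := by
  rcases lt_trichotomy (ν.v r₁) (ν.v r₂) with hlt | heq | hgt
  · obtain ⟨_, hv, hv', _⟩ := of_lt ν h₁ h₂ hlt
    exact Or.inl ⟨hv.symm, hv'.symm⟩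
  · exfalso
    have hmin := ν.map_add h₁ h₂ hs
    rw [heq, min_self] at hmin
    rw [ν.map_mul h₁ h₂, heq] at h
    linarith
  · obtain ⟨_, hv, hv', _⟩ := of_lt ν h₂ h₁ hgt
    rw [add_comm r₂ r₁] at hv hv'
    rw [mul_comm r₂ r₁] at hv'
    exact Or.inr ⟨hv.symm, hv'.symm⟩

/-- **Flat case**: if `s = 0` or `v(t) ≤ 2 v(s)` then both roots have valuation `v(t) / 2`. -/
theorem flat {r₁ r₂ : F} (h₁ : r₁ ≠ 0) (h₂ : r₂ ≠ 0)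
    (h : r₁ + r₂ = 0 ∨ ν.v (r₁ * r₂) ≤ 2 * ν.v (r₁ + r₂)) :
    ν.v r₁ = ν.v r₂ ∧ 2 * ν.v r₁ = ν.v (r₁ * r₂) := by
  have key : ν.v r₁ = ν.v r₂ := by
    rcases h with h0 | hle
    · have : r₁ = -r₂ := eq_neg_of_add_eq_zero_left h0
      rw [this, ν.map_neg h₂]
    · rcases lt_trichotomy (ν.v r₁) (ν.v r₂) with hlt | heq | hgt
      · obtain ⟨_, _, _, hcon⟩ := of_lt ν h₁ h₂ hlt
        exact absurd hle (not_le.mpr hcon)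
      · exact heq
      · obtain ⟨_, _, _, hcon⟩ := of_lt ν h₂ h₁ hgt
        rw [add_comm r₂ r₁, mul_comm r₂ r₁] at hcon
        exact absurd hle (not_le.mpr hcon)
  refine ⟨key, ?_⟩
  rw [ν.map_mul h₁ h₂, ← key]
  ring

/-- Summary: the unordered pair `{v r₁, v r₂}` is determined by `v s` and `v t`.
With `m := min (v r₁) (v r₂)` and `M := max (v r₁) (v r₂)`: `m + M = v t`, and
`m = v s` if `2 v s < v t`, while `m = M` otherwise. -/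
theorem min_max {r₁ r₂ : F} (h₁ : r₁ ≠ 0) (h₂ : r₂ ≠ 0) :
    min (ν.v r₁) (ν.v r₂) + max (ν.v r₁) (ν.v r₂) = ν.v (r₁ * r₂) ∧
      ((r₁ + r₂ ≠ 0 ∧ 2 * ν.v (r₁ + r₂) < ν.v (r₁ * r₂) ∧
          min (ν.v r₁) (ν.v r₂) = ν.v (r₁ + r₂)) ∨
        ((r₁ + r₂ = 0 ∨ ν.v (r₁ * r₂) ≤ 2 * ν.v (r₁ + r₂)) ∧ ν.v r₁ = ν.v r₂)) := by
  refine ⟨by rw [min_add_max, ν.map_mul h₁ h₂], ?_⟩
  by_cases hs : r₁ + r₂ = 0
  · exact Or.inr ⟨Or.inl hs, (flat ν h₁ h₂ (Or.inl hs)).1⟩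
  · by_cases h : 2 * ν.v (r₁ + r₂) < ν.v (r₁ * r₂)
    · left
      refine ⟨hs, h, ?_⟩
      rcases steep ν h₁ h₂ hs h with ⟨ha, hb⟩ | ⟨ha, hb⟩
      · rw [ha, hb, min_eq_left]; linarith
      · rw [ha, hb, min_eq_right]; linarith
    · exact Or.inr ⟨Or.inr (not_lt.mp h), (flat ν h₁ h₂ (Or.inr (not_lt.mp h))).1⟩

end TwoRoots

end QVal

end Fermat.Agent.S05
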